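import Fermat.Agent.S22.Inputs

/-!
# S22: linearity and cocycle relation of the period functionals
-/

set_option autoImplicit false

namespace Fermat.Agent.S22

open Complex UpperHalfPlane ModularForm CongruenceSubgroup
open scoped MatrixGroups ModularForm

variable {N : ℕ} [NeZero N] {k : ℤ}

omit [NeZero N] in
theorem gf_add (f₁ f₂ : CuspForm (Gamma0 N) k) : gf (f₁ + f₂) = fun z => gf f₁ z + gf f₂ z := by
  funext z
  simp [gf]

omit [NeZero N] in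
theorem gf_smul (a : ℂ) (f : CuspForm (Gamma0 N) k) : gf (a • f) = fun z => a * gf f z := by
  funext z
  simp [gf]

theorem im_I_pos : (0 : ℝ) < Complex.I.im := by simp

theorem psi_add (f₁ f₂ : CuspForm (Gamma0 N) k) (γ : SL(2, ℤ)) (u v : ℂ) :
    psi (f₁ + f₂) γ u v = psi f₁ γ u v + psi f₂ γ u v := by
  have h₁ := admissible_gf f₁
  have h₂ := admissible_gf f₂
  simp only [psi, cst]
  rw [gf_add, Phi_add h₁ h₂ _ _ _ (mob_im_pos γ im_I_pos), Phi_add h₁ h₂ _ _ _ im_I_pos]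
  ring

theorem psi_smul (a : ℂ) (f : CuspForm (Gamma0 N) k) (γ : SL(2, ℤ)) (u v : ℂ) :
    psi (a • f) γ u v = a * psi f γ u v := by
  have h := admissible_gf f
  simp only [psi, cst]
  rw [gf_smul, Phi_const_mul h a _ _ _ (mob_im_pos γ im_I_pos), Phi_const_mul h a _ _ _ im_I_pos]
  ring

omit [NeZero N] in
theorem psi_one (f : CuspForm (Gamma0 N) k) (u v : ℂ) : psi f 1 u v = 0 := by
  simp [psi, cst, mob_one]

theorem psi_mul (hk : 2 ≤ k) (f : CuspForm (Gamma0 N) k) {γ₁ γ₂ : SL(2, ℤ)} (h₁ : γ₁ ∈ Gamma0 N)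
    (h₂ : γ₂ ∈ Gamma0 N) (u v : ℂ) :
    psi f (γ₁ * γ₂) u v
      = psi f γ₁ u v + psi f γ₂ (u * γ₁ 0 0 + v * γ₁ 1 0) (u * γ₁ 0 1 + v * γ₁ 1 1) := by
  have hf := admissible_gf f
  have hI := im_I_pos
  have e12 := psi_spec f hf hk (mul_mem h₁ h₂) u v hI
  have e1 := psi_spec f hf hk h₁ u v (mob_im_pos γ₂ hI)
  have e2 := psi_spec f hf hk h₂ (u * γ₁ 0 0 + v * γ₁ 1 0) (u * γ₁ 0 1 + v * γ₁ 1 1) hI
  rw [mob_mul γ₁ γ₂ hI, e1, e2] at e12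
  have ea : u * ((γ₁ * γ₂ : SL(2, ℤ)) 0 0 : ℤ) + v * ((γ₁ * γ₂ : SL(2, ℤ)) 1 0 : ℤ)
      = (u * γ₁ 0 0 + v * γ₁ 1 0) * γ₂ 0 0 + (u * γ₁ 0 1 + v * γ₁ 1 1) * γ₂ 1 0 := by
    simp only [Matrix.SpecialLinearGroup.coe_mul, Matrix.mul_apply, Fin.sum_univ_two,
      Int.cast_add, Int.cast_mul]
    ring
  have eb : u * ((γ₁ * γ₂ : SL(2, ℤ)) 0 1 : ℤ) + v * ((γ₁ * γ₂ : SL(2, ℤ)) 1 1 : ℤ)
      = (u * γ₁ 0 0 + v * γ₁ 1 0) * γ₂ 0 1 + (u * γ₁ 0 1 + v * γ₁ 1 1) * γ₂ 1 1 := by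
    simp only [Matrix.SpecialLinearGroup.coe_mul, Matrix.mul_apply, Fin.sum_univ_two,
      Int.cast_add, Int.cast_mul]
    ring
  rw [ea, eb] at e12
  linear_combination -e12

/-- The linear functional `f ↦ psi f γ u v`. -/
noncomputable def psiL (N : ℕ) [NeZero N] (k : ℤ) (γ : SL(2, ℤ)) (u v : ℂ) :
    Module.Dual ℂ (CuspForm (Gamma0 N) k) where
  toFun f := psi f γ u v
  map_add' f₁ f₂ := psi_add f₁ f₂ γ u v
  map_smul' a f := psi_smul a f γ u v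

@[simp] theorem psiL_apply (γ : SL(2, ℤ)) (u v : ℂ) (f : CuspForm (Gamma0 N) k) :
    psiL N k γ u v f = psi f γ u v := rfl

theorem psiL_mem {γ : SL(2, ℤ)} (hγ : γ ∈ Gamma0 N) (u v : ℤ) :
    psiL N k γ u v ∈ periodLattice N k :=
  Submodule.subset_span ⟨γ, hγ, u, v, fun _ => rfl⟩

end Fermat.Agent.S22
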