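import Mathlib

set_option autoImplicit false

open Complex Filter Function Topology
open scoped Real

namespace Fermat.Agent.S22.PP

/-- The open upper half plane as a subset of `ℂ`. -/
def upperSet : Set ℂ := {z : ℂ | 0 < z.im}

theorem isOpen_upperSet : IsOpen upperSet :=
  isOpen_lt continuous_const Complex.continuous_im

theorem convex_upperSet : Convex ℝ upperSet := by
  intro x hx y hy a b ha hb hab
  simp only [upperSet, Set.mem_ofPred_eq] at hx hy ⊢
  simp only [add_im, smul_im, smul_eq_mul]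
  rcases ha.lt_or_eq with ha' | ha'
  · have := mul_pos ha' hx
    have := mul_nonneg hb hy.le
    linarith
  · have hb1 : b = 1 := by linarith
    subst hb1
    rw [← ha']
    simpa using hy

theorem isPreconnected_upperSet : IsPreconnected upperSet :=
  convex_upperSet.isPreconnected

/-- `F : ℂ → ℂ` is `h`-periodic, holomorphic on the upper half plane, and tends to `0` as
`Im z → ∞` (uniformly in `Re z`). -/
structure CuspLike (h : ℝ) (F : ℂ → ℂ) : Prop where
  per : Function.Periodic F (h : ℂ)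
  diff : ∀ z : ℂ, 0 < z.im → DifferentiableAt ℂ F z
  zero : Tendsto F (comap Complex.im atTop) (𝓝 0)

theorem eventually_im_pos : ∀ᶠ z : ℂ in comap Complex.im atTop, 0 < z.im :=
  tendsto_comap.eventually (eventually_gt_atTop 0)

theorem CuspLike.eventually_diff {h : ℝ} {F : ℂ → ℂ} (hF : CuspLike h F) :
    ∀ᶠ z : ℂ in comap Complex.im atTop, DifferentiableAt ℂ F z :=
  eventually_im_pos.mono hF.diff

theorem CuspLike.differentiableOn_cuspFunction {h : ℝ} {F : ℂ → ℂ} (hh : 0 < h)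
    (hF : CuspLike h F) :
    DifferentiableOn ℂ (Function.Periodic.cuspFunction h F) (Metric.ball 0 1) := by
  intro q hq
  apply DifferentiableAt.differentiableWithinAt
  rcases eq_or_ne q 0 with rfl | hq0
  · exact Function.Periodic.differentiableAt_cuspFunction_zero hh hF.per hF.eventually_diff
      (show ZeroAtFilter _ F from hF.zero).boundedAtFilter
  · have hq1 : ‖q‖ < 1 := by simpa using hq
    have him : 0 < (Function.Periodic.invQParam h q).im := by
      rw [Function.Periodic.im_invQParam]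
      have hlog : Real.log ‖q‖ < 0 := Real.log_neg (norm_pos_iff.mpr hq0) hq1
      have : -h / (2 * π) < 0 := by
        apply div_neg_of_neg_of_pos (by linarith) (by positivity)
      exact mul_pos_of_neg_of_neg this hlog
    have := Function.Periodic.differentiableAt_cuspFunction hh.ne' hF.per (hF.diff _ him)
    rwa [Function.Periodic.qParam_right_inv hh.ne' hq0] at this

/-- The `h`-periodic primitive of `F` that tends to `0` at `i∞` (junk if it does not exist). -/
noncomputable def pprim (h : ℝ) (F : ℂ → ℂ) : ℂ → ℂ :=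
  open Classical in
  if hex : ∃ Ψ : ℂ → ℂ, Ψ 0 = 0 ∧ ∀ q ∈ Metric.ball (0 : ℂ) 1,
      HasDerivAt Ψ (dslope (Function.Periodic.cuspFunction h F) 0 q) q
  then fun z => (h / (2 * π * I)) * hex.choose (Function.Periodic.qParam h z)
  else 0

theorem CuspLike.exists_disc_primitive {h : ℝ} {F : ℂ → ℂ} (hh : 0 < h) (hF : CuspLike h F) :
    ∃ Ψ : ℂ → ℂ, Ψ 0 = 0 ∧ ∀ q ∈ Metric.ball (0 : ℂ) 1,
      HasDerivAt Ψ (dslope (Function.Periodic.cuspFunction h F) 0 q) q := by
  have h1 : DifferentiableOn ℂ (dslope (Function.Periodic.cuspFunction h F) 0) (Metric.ball 0 1) :=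
    (Complex.differentiableOn_dslope (Metric.ball_mem_nhds 0 one_pos)).mpr
      (hF.differentiableOn_cuspFunction hh)
  exact (h1.isExactOn_ball).with_val_at 0 0

theorem hasDerivAt_qParam (h : ℝ) (z : ℂ) :
    HasDerivAt (Function.Periodic.qParam h)
      (Function.Periodic.qParam h z * (2 * π * I / h)) z := by
  unfold Function.Periodic.qParam
  simpa only [id_eq, mul_one] using (((hasDerivAt_id z).const_mul (2 * π * I)).div_const (h : ℂ)).cexp

theorem qParam_add_period {h : ℝ} (hh : h ≠ 0) (z : ℂ) :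
    Function.Periodic.qParam h (z + h) = Function.Periodic.qParam h z := by
  unfold Function.Periodic.qParam
  have hh' : (h : ℂ) ≠ 0 := by exact_mod_cast hh
  have : 2 * π * I * (z + h) / h = 2 * π * I * z / h + 2 * π * I := by
    field_simp
  rw [this, Complex.exp_add, Complex.exp_two_pi_mul_I, mul_one]

theorem hasDerivAt_pprim {h : ℝ} {F : ℂ → ℂ} (hh : 0 < h) (hF : CuspLike h F) {z : ℂ}
    (hz : 0 < z.im) : HasDerivAt (pprim h F) (F z) z := by
  have hex := hF.exists_disc_primitive hh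
  have hpp : pprim h F = fun z => (h / (2 * π * I)) * hex.choose (Function.Periodic.qParam h z) := by
    unfold pprim
    rw [dif_pos hex]
  obtain ⟨hΨ0, hΨ⟩ := hex.choose_spec
  set Ψ := hex.choose with hΨdef
  have hq1 : Function.Periodic.qParam h z ∈ Metric.ball (0 : ℂ) 1 := by
    simpa using Function.Periodic.norm_qParam_lt_one hh hz
  have hq0 : Function.Periodic.qParam h z ≠ 0 := Function.Periodic.qParam_ne_zero z
  have hd := (hΨ _ hq1).comp z (hasDerivAt_qParam h z)
  have hd2 := hd.const_mul ((h : ℂ) / (2 * π * I))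
  have hφ0 : Function.Periodic.cuspFunction h F 0 = 0 :=
    Function.Periodic.cuspFunction_zero_of_zero_at_inf hh hF.zero
  have hφq : Function.Periodic.cuspFunction h F (Function.Periodic.qParam h z) = F z :=
    Function.Periodic.eq_cuspFunction hh.ne' hF.per z
  have key : (h : ℂ) / (2 * π * I) *
      (dslope (Function.Periodic.cuspFunction h F) 0 (Function.Periodic.qParam h z) *
        (Function.Periodic.qParam h z * (2 * π * I / h))) = F z := by
    rw [dslope_of_ne _ hq0, slope_def_field, hφ0, hφq, sub_zero, sub_zero]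
    have hh' : (h : ℂ) ≠ 0 := by exact_mod_cast hh.ne'
    have hpi : (π : ℂ) ≠ 0 := by exact_mod_cast Real.pi_ne_zero
    field_simp
  rw [key] at hd2
  rw [hpp]
  exact hd2

theorem CuspLike.pprim {h : ℝ} {F : ℂ → ℂ} (hh : 0 < h) (hF : CuspLike h F) :
    CuspLike h (pprim h F) := by
  have hex := hF.exists_disc_primitive hh
  have hpp : Fermat.Agent.S22.PP.pprim h F =
      fun z => (h / (2 * π * I)) * hex.choose (Function.Periodic.qParam h z) := by
    unfold Fermat.Agent.S22.PP.pprim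
    rw [dif_pos hex]
  obtain ⟨hΨ0, hΨ⟩ := hex.choose_spec
  refine ⟨?_, fun z hz => (hasDerivAt_pprim hh hF hz).differentiableAt, ?_⟩
  · intro z
    rw [hpp]
    simp only [qParam_add_period hh.ne']
  · rw [hpp]
    have hcont : ContinuousAt hex.choose 0 :=
      (hΨ 0 (Metric.mem_ball_self one_pos)).continuousAt
    have h1 : Tendsto (fun z => hex.choose (Function.Periodic.qParam h z))
        (comap Complex.im atTop) (𝓝 (hex.choose 0)) :=
      hcont.tendsto.comp ((Function.Periodic.qParam_tendsto hh).mono_right nhdsWithin_le_nhds)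
    have h2 := h1.const_mul ((h : ℂ) / (2 * π * I))
    rw [hΨ0, mul_zero] at h2
    exact h2

/-- Exponential decay of a `CuspLike` function, uniformly in `Re z`. -/
theorem CuspLike.exp_decay {h : ℝ} {F : ℂ → ℂ} (hh : 0 < h) (hF : CuspLike h F) :
    ∃ C A : ℝ, 0 ≤ C ∧ ∀ z : ℂ, A ≤ z.im → ‖F z‖ ≤ C * Real.exp (-(2 * π / h) * z.im) := by
  obtain ⟨C, hC⟩ := (Function.Periodic.exp_decay_of_zero_at_inf hh hF.per hF.eventually_diff
    hF.zero).bound
  rw [Filter.eventually_comap] at hC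
  obtain ⟨A, hA⟩ := Filter.eventually_atTop.mp hC
  refine ⟨max C 0, A, le_max_right _ _, fun z hz => ?_⟩
  have h1 := hA z.im hz z rfl
  rw [Real.norm_eq_abs, abs_of_pos (Real.exp_pos _)] at h1
  have h2 : -2 * π * z.im / h = -(2 * π / h) * z.im := by ring
  rw [h2] at h1
  exact h1.trans (mul_le_mul_of_nonneg_right (le_max_left _ _) (Real.exp_pos _).le)

/-- The normalised primitive of `F z * z ^ m` (tending to `0` at `i∞` on vertical strips),
defined by repeated integration by parts from the periodic primitive. -/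
noncomputable def wprim (h : ℝ) : ℕ → (ℂ → ℂ) → ℂ → ℂ
  | 0, F => pprim h F
  | (m + 1), F => fun z => z ^ (m + 1) * pprim h F z - (m + 1) * wprim h m (pprim h F) z

theorem wprim_zero (h : ℝ) (F : ℂ → ℂ) : wprim h 0 F = pprim h F := rfl

theorem wprim_succ (h : ℝ) (m : ℕ) (F : ℂ → ℂ) :
    wprim h (m + 1) F = fun z => z ^ (m + 1) * pprim h F z - (m + 1) * wprim h m (pprim h F) z :=
  rfl

theorem hasDerivAt_wprim {h : ℝ} (hh : 0 < h) (m : ℕ) :
    ∀ {F : ℂ → ℂ}, CuspLike h F → ∀ {z : ℂ}, 0 < z.im →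
      HasDerivAt (wprim h m F) (F z * z ^ m) z := by
  induction m with
  | zero =>
    intro F hF z hz
    simpa [wprim_zero] using hasDerivAt_pprim hh hF hz
  | succ m ih =>
    intro F hF z hz
    have h1 := hasDerivAt_pprim hh hF hz
    have h2 := ih (hF.pprim hh) hz
    have h3 : HasDerivAt (fun z : ℂ => z ^ (m + 1)) (((m + 1 : ℕ) : ℂ) * z ^ m) z := by
      simpa using hasDerivAt_pow (m + 1) z
    have h4 := (h3.mul h1).sub (h2.const_mul ((m : ℂ) + 1))
    have key : ((m + 1 : ℕ) : ℂ) * z ^ m * pprim h F z + z ^ (m + 1) * F z -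
        ((m : ℂ) + 1) * (pprim h F z * z ^ m) = F z * z ^ (m + 1) := by
      push_cast
      ring
    rw [key] at h4
    rw [wprim_succ]
    exact h4

theorem wprim_decay {h : ℝ} (hh : 0 < h) (m : ℕ) :
    ∀ {F : ℂ → ℂ}, CuspLike h F → ∃ C A : ℝ, 0 ≤ C ∧ ∀ z : ℂ, A ≤ z.im →
      ‖wprim h m F z‖ ≤ C * (1 + ‖z‖) ^ m * Real.exp (-(2 * π / h) * z.im) := by
  induction m with
  | zero =>
    intro F hF
    obtain ⟨C, A, hC, hA⟩ := (hF.pprim hh).exp_decay hh
    exact ⟨C, A, hC, fun z hz => by simpa [wprim_zero] using hA z hz⟩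
  | succ m ih =>
    intro F hF
    obtain ⟨C₁, A₁, hC₁, hA₁⟩ := (hF.pprim hh).exp_decay hh
    obtain ⟨C₂, A₂, hC₂, hA₂⟩ := ih (hF.pprim hh)
    refine ⟨C₁ + (m + 1) * C₂, max A₁ A₂, by positivity, fun z hz => ?_⟩
    have hz1 := hA₁ z ((le_max_left _ _).trans hz)
    have hz2 := hA₂ z ((le_max_right _ _).trans hz)
    set e := Real.exp (-(2 * π / h) * z.im) with he
    have he0 : 0 ≤ e := (Real.exp_pos _).le
    have hn : 0 ≤ ‖z‖ := norm_nonneg z
    have hp1 : ‖z‖ ^ (m + 1) ≤ (1 + ‖z‖) ^ (m + 1) := by gcongr; linarith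
    have hp2 : (1 + ‖z‖) ^ m ≤ (1 + ‖z‖) ^ (m + 1) :=
      pow_le_pow_right₀ (by linarith) (Nat.le_succ m)
    rw [wprim_succ]
    calc ‖z ^ (m + 1) * pprim h F z - (m + 1) * wprim h m (pprim h F) z‖
        ≤ ‖z ^ (m + 1) * pprim h F z‖ + ‖((m : ℂ) + 1) * wprim h m (pprim h F) z‖ :=
          norm_sub_le _ _
      _ = ‖z‖ ^ (m + 1) * ‖pprim h F z‖ + ((m : ℝ) + 1) * ‖wprim h m (pprim h F) z‖ := by
          rw [norm_mul, norm_mul, norm_pow]
          congr 2
          have : ((m : ℂ) + 1) = ((m + 1 : ℕ) : ℂ) := by push_cast; ring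
          rw [this, Complex.norm_natCast]
          push_cast; ring
      _ ≤ (1 + ‖z‖) ^ (m + 1) * (C₁ * e) + ((m : ℝ) + 1) * (C₂ * (1 + ‖z‖) ^ (m + 1) * e) := by
          gcongr
          exact hz2.trans (by gcongr)
      _ = (C₁ + (m + 1) * C₂) * (1 + ‖z‖) ^ (m + 1) * e := by ring

/-- Two functions with the same derivative on the upper half plane, both tending to `0`
along the imaginary axis, agree on the upper half plane. -/
theorem eq_of_hasDerivAt_of_tendsto {G₁ G₂ Φ₁ Φ₂ : ℂ → ℂ}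
    (h₁ : ∀ z : ℂ, 0 < z.im → HasDerivAt G₁ (Φ₁ z) z)
    (h₂ : ∀ z : ℂ, 0 < z.im → HasDerivAt G₂ (Φ₂ z) z)
    (hΦ : ∀ z : ℂ, 0 < z.im → Φ₁ z = Φ₂ z)
    (t₁ : Tendsto (fun y : ℝ => G₁ (y * I)) atTop (𝓝 0))
    (t₂ : Tendsto (fun y : ℝ => G₂ (y * I)) atTop (𝓝 0)) :
    ∀ z : ℂ, 0 < z.im → G₁ z = G₂ z := by
  intro z hz
  have hd : DifferentiableOn ℂ (fun w => G₁ w - G₂ w) upperSet := fun w hw =>
    ((h₁ w hw).sub (h₂ w hw)).differentiableAt.differentiableWithinAt
  have hd' : upperSet.EqOn (deriv (fun w => G₁ w - G₂ w)) 0 := fun w hw => by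
    have h3 : HasDerivAt (fun w => G₁ w - G₂ w) (Φ₁ w - Φ₂ w) w := (h₁ w hw).sub (h₂ w hw)
    rw [h3.deriv, hΦ w hw, sub_self]; rfl
  have hconst : ∀ y : ℝ, 0 < y → G₁ z - G₂ z = G₁ (y * I) - G₂ (y * I) := fun y hy =>
    isOpen_upperSet.is_const_of_deriv_eq_zero isPreconnected_upperSet hd hd' (x := z)
      (y := (y : ℂ) * I) hz (by simpa [upperSet] using hy)
  have ht : Tendsto (fun y : ℝ => G₁ (y * I) - G₂ (y * I)) atTop (𝓝 (0 - 0)) := t₁.sub t₂
  have ht' : Tendsto (fun _ : ℝ => G₁ z - G₂ z) atTop (𝓝 (0 - 0)) :=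
    ht.congr' ((eventually_gt_atTop 0).mono fun y hy => (hconst y hy).symm)
  have := tendsto_nhds_unique ht' tendsto_const_nhds
  rw [sub_zero] at this
  exact sub_eq_zero.mp this.symm

/-- Two functions with the same derivative on the upper half plane differ by a constant. -/
theorem exists_const_of_hasDerivAt {G₁ G₂ Φ₁ Φ₂ : ℂ → ℂ}
    (h₁ : ∀ z : ℂ, 0 < z.im → HasDerivAt G₁ (Φ₁ z) z)
    (h₂ : ∀ z : ℂ, 0 < z.im → HasDerivAt G₂ (Φ₂ z) z)
    (hΦ : ∀ z : ℂ, 0 < z.im → Φ₁ z = Φ₂ z) :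
    ∃ c : ℂ, ∀ z : ℂ, 0 < z.im → G₁ z - G₂ z = c := by
  have hd : DifferentiableOn ℂ (fun w => G₁ w - G₂ w) upperSet := fun w hw =>
    ((h₁ w hw).sub (h₂ w hw)).differentiableAt.differentiableWithinAt
  have hd' : upperSet.EqOn (deriv (fun w => G₁ w - G₂ w)) 0 := fun w hw => by
    have h3 : HasDerivAt (fun w => G₁ w - G₂ w) (Φ₁ w - Φ₂ w) w := (h₁ w hw).sub (h₂ w hw)
    rw [h3.deriv, hΦ w hw, sub_self]; rfl
  exact isOpen_upperSet.exists_is_const_of_deriv_eq_zero isPreconnected_upperSet hd hd'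

/-- A polynomially weighted exponential decay bound forces decay along vertical lines. -/
theorem tendsto_of_decay {G : ℂ → ℂ} {C A c : ℝ} {m : ℕ} (hc : 0 < c)
    (hG : ∀ z : ℂ, A ≤ z.im → ‖G z‖ ≤ C * (1 + ‖z‖) ^ m * Real.exp (-c * z.im)) (x : ℝ) :
    Tendsto (fun y : ℝ => G (x + y * I)) atTop (𝓝 0) := by
  have hlim : Tendsto (fun y : ℝ => |C| * Real.exp (c * (1 + |x|)) / c ^ m *
      ((c * (1 + |x| + y)) ^ m * Real.exp (-(c * (1 + |x| + y))))) atTop (𝓝 0) := by
    have h1 : Tendsto (fun y : ℝ => c * (1 + |x| + y)) atTop atTop :=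
      Tendsto.const_mul_atTop hc (tendsto_atTop_add_const_left atTop (1 + |x|) tendsto_id)
    have h2 := (Real.tendsto_pow_mul_exp_neg_atTop_nhds_zero m).comp h1
    simpa using h2.const_mul (|C| * Real.exp (c * (1 + |x|)) / c ^ m)
  refine squeeze_zero_norm' ?_ hlim
  filter_upwards [eventually_ge_atTop (max A 0)] with y hy
  have hy0 : 0 ≤ y := (le_max_right _ _).trans hy
  have hyA : A ≤ y := (le_max_left _ _).trans hy
  have him : ((x : ℂ) + y * I).im = y := by simp
  have hnorm : ‖(x : ℂ) + y * I‖ ≤ |x| + y := by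
    calc ‖(x : ℂ) + y * I‖ ≤ ‖(x : ℂ)‖ + ‖(y : ℂ) * I‖ := norm_add_le _ _
      _ = |x| + y := by simp [abs_of_nonneg hy0]
  have h1 := hG (x + y * I) (by rw [him]; exact hyA)
  rw [him] at h1
  have hx : 0 ≤ |x| := abs_nonneg x
  calc ‖G (x + y * I)‖ ≤ C * (1 + ‖(x : ℂ) + y * I‖) ^ m * Real.exp (-c * y) := h1
    _ ≤ |C| * (1 + (|x| + y)) ^ m * Real.exp (-c * y) := by
        gcongr
        exact le_abs_self C
    _ = |C| * (1 + |x| + y) ^ m * Real.exp (-c * y) := by rw [add_assoc]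
    _ = |C| * Real.exp (c * (1 + |x|)) / c ^ m *
          ((c * (1 + |x| + y)) ^ m * Real.exp (-(c * (1 + |x| + y)))) := by
        have hcm : c ^ m ≠ 0 := pow_ne_zero _ hc.ne'
        have he : Real.exp (-c * y) =
            Real.exp (c * (1 + |x|)) * Real.exp (-(c * (1 + |x| + y))) := by
          rw [← Real.exp_add]; congr 1; ring
        rw [he, mul_pow]
        field_simp

theorem tendsto_wprim {h : ℝ} (hh : 0 < h) (m : ℕ) {F : ℂ → ℂ} (hF : CuspLike h F) (x : ℝ) :
    Tendsto (fun y : ℝ => wprim h m F (x + y * I)) atTop (𝓝 0) := by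
  obtain ⟨C, A, -, hA⟩ := wprim_decay hh m hF
  exact tendsto_of_decay (c := 2 * π / h) (by positivity) hA x

theorem tendsto_wprim_axis {h : ℝ} (hh : 0 < h) (m : ℕ) {F : ℂ → ℂ} (hF : CuspLike h F) :
    Tendsto (fun y : ℝ => wprim h m F (y * I)) atTop (𝓝 0) := by
  simpa using tendsto_wprim hh m hF 0

theorem CuspLike.tendsto_vertical {h : ℝ} {F : ℂ → ℂ} (hF : CuspLike h F) (x : ℝ) :
    Tendsto (fun y : ℝ => F (x + y * I)) atTop (𝓝 0) := by
  refine hF.zero.comp (tendsto_comap_iff.mpr ?_)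
  have : (Complex.im ∘ fun y : ℝ => (x : ℂ) + y * I) = id := by
    funext y; simp
  rw [this]
  exact tendsto_id

theorem CuspLike.tendsto_axis {h : ℝ} {F : ℂ → ℂ} (hF : CuspLike h F) :
    Tendsto (fun y : ℝ => F (y * I)) atTop (𝓝 0) := by
  simpa using hF.tendsto_vertical 0

theorem CuspLike.add {h : ℝ} {F G : ℂ → ℂ} (hF : CuspLike h F) (hG : CuspLike h G) :
    CuspLike h (fun z => F z + G z) :=
  ⟨fun z => by simp only [hF.per z, hG.per z],
   fun z hz => (hF.diff z hz).add (hG.diff z hz),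
   by simpa using hF.zero.add hG.zero⟩

theorem CuspLike.const_mul {h : ℝ} {F : ℂ → ℂ} (hF : CuspLike h F) (c : ℂ) :
    CuspLike h (fun z => c * F z) :=
  ⟨fun z => by simp only [hF.per z],
   fun z hz => (hF.diff z hz).const_mul c,
   by simpa using hF.zero.const_mul c⟩

theorem CuspLike.zero_fun (h : ℝ) : CuspLike h (fun _ => (0 : ℂ)) :=
  ⟨fun _ => rfl, fun _ _ => differentiableAt_const _, tendsto_const_nhds⟩

/-- A `CuspLike h` function is also `CuspLike (n * h)` for a positive integer `n`. -/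
theorem CuspLike.nat_mul {h : ℝ} {F : ℂ → ℂ} (hF : CuspLike h F) (n : ℕ) :
    CuspLike (n * h) F :=
  ⟨by
    have := hF.per.nat_mul n
    simpa using this, hF.diff, hF.zero⟩

/-- Independence of the period, and congruence: if `F = G` on the upper half plane then the
normalised primitives agree there. -/
theorem wprim_congr {h h' : ℝ} (hh : 0 < h) (hh' : 0 < h') (m : ℕ) {F G : ℂ → ℂ}
    (hF : CuspLike h F) (hG : CuspLike h' G) (hFG : ∀ z : ℂ, 0 < z.im → F z = G z) :
    ∀ z : ℂ, 0 < z.im → wprim h m F z = wprim h' m G z :=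
  eq_of_hasDerivAt_of_tendsto (fun _ hz => hasDerivAt_wprim hh m hF hz)
    (fun _ hz => hasDerivAt_wprim hh' m hG hz) (fun z hz => by rw [hFG z hz])
    (tendsto_wprim_axis hh m hF) (tendsto_wprim_axis hh' m hG)

theorem wprim_add {h : ℝ} (hh : 0 < h) (m : ℕ) {F G : ℂ → ℂ}
    (hF : CuspLike h F) (hG : CuspLike h G) :
    ∀ z : ℂ, 0 < z.im → wprim h m (fun z => F z + G z) z = wprim h m F z + wprim h m G z :=
  eq_of_hasDerivAt_of_tendsto (fun _ hz => hasDerivAt_wprim hh m (hF.add hG) hz)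
    (fun _ hz => (hasDerivAt_wprim hh m hF hz).add (hasDerivAt_wprim hh m hG hz))
    (fun z _ => by ring)
    (tendsto_wprim_axis hh m (hF.add hG))
    (by simpa using (tendsto_wprim_axis hh m hF).add (tendsto_wprim_axis hh m hG))

theorem wprim_const_mul {h : ℝ} (hh : 0 < h) (m : ℕ) {F : ℂ → ℂ}
    (hF : CuspLike h F) (c : ℂ) :
    ∀ z : ℂ, 0 < z.im → wprim h m (fun z => c * F z) z = c * wprim h m F z :=
  eq_of_hasDerivAt_of_tendsto (fun _ hz => hasDerivAt_wprim hh m (hF.const_mul c) hz)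
    (fun _ hz => (hasDerivAt_wprim hh m hF hz).const_mul c)
    (fun z _ => by ring)
    (tendsto_wprim_axis hh m (hF.const_mul c))
    (by simpa using (tendsto_wprim_axis hh m hF).const_mul c)

theorem cuspLike_iterate_pprim {h : ℝ} {F : ℂ → ℂ} (hh : 0 < h) (hF : CuspLike h F) (j : ℕ) :
    CuspLike h ((pprim h)^[j] F) := by
  induction j with
  | zero => simpa using hF
  | succ j ih =>
    rw [Function.iterate_succ_apply']
    exact ih.pprim hh

/-- If an iterated periodic primitive vanishes on the upper half plane, so does the function. -/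
theorem eq_zero_of_iterate_pprim_eq_zero {h : ℝ} {F : ℂ → ℂ} (hh : 0 < h) (hF : CuspLike h F)
    (j : ℕ) (h0 : ∀ z : ℂ, 0 < z.im → (pprim h)^[j] F z = 0) : ∀ z : ℂ, 0 < z.im → F z = 0 := by
  induction j with
  | zero => simpa using h0
  | succ j ih =>
    apply ih
    intro z hz
    have hG := cuspLike_iterate_pprim hh hF j
    have hd := hasDerivAt_pprim hh hG hz
    rw [Function.iterate_succ_apply'] at h0
    have hev : (pprim h ((pprim h)^[j] F)) =ᶠ[𝓝 z] fun _ => (0 : ℂ) := by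
      filter_upwards [isOpen_upperSet.mem_nhds (show z ∈ upperSet from hz)] with w hw
      exact h0 w hw
    have hd0 : HasDerivAt (pprim h ((pprim h)^[j] F)) 0 z :=
      (hasDerivAt_const z (0 : ℂ)).congr_of_eventuallyEq hev
    exact hd.unique hd0

/-- Multiplying by a power of `z` preserves polynomially weighted exponential decay. -/
theorem decay_pow_mul {G : ℂ → ℂ} {C A c : ℝ} {m : ℕ}
    (hG : ∀ z : ℂ, A ≤ z.im → ‖G z‖ ≤ C * (1 + ‖z‖) ^ m * Real.exp (-c * z.im)) (a : ℂ) (j : ℕ) :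
    ∀ z : ℂ, A ≤ z.im →
      ‖a * (-z) ^ j * G z‖ ≤ (‖a‖ * C) * (1 + ‖z‖) ^ (m + j) * Real.exp (-c * z.im) := by
  intro z hz
  have h1 := hG z hz
  have hn : 0 ≤ ‖z‖ := norm_nonneg z
  have hp : ‖z‖ ^ j ≤ (1 + ‖z‖) ^ j := by gcongr; linarith
  have he : 0 ≤ Real.exp (-c * z.im) := (Real.exp_pos _).le
  calc ‖a * (-z) ^ j * G z‖ = ‖a‖ * ‖z‖ ^ j * ‖G z‖ := by
        rw [norm_mul, norm_mul, norm_pow, norm_neg]
    _ ≤ ‖a‖ * (1 + ‖z‖) ^ j * (C * (1 + ‖z‖) ^ m * Real.exp (-c * z.im)) := by gcongr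
    _ = (‖a‖ * C) * (1 + ‖z‖) ^ (m + j) * Real.exp (-c * z.im) := by rw [pow_add]; ring

/-- The diagonal ("Eichler integral") combination
`∑ m, C(n,m) (-z)^(n-m) * wprim h m F z`, i.e. the normalised `∫_{i∞}^z F(w) (w - z)^n dw`. -/
noncomputable def eichler (h : ℝ) (n : ℕ) (F : ℂ → ℂ) : ℂ → ℂ := fun z =>
  ∑ m ∈ Finset.range (n + 1), (n.choose m : ℂ) * (-z) ^ (n - m) * wprim h m F z

theorem tendsto_eichler_axis {h : ℝ} (hh : 0 < h) {F : ℂ → ℂ} (hF : CuspLike h F) (n : ℕ) :
    Tendsto (fun y : ℝ => eichler h n F (y * I)) atTop (𝓝 0) := by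
  unfold eichler
  rw [show (0 : ℂ) = ∑ m ∈ Finset.range (n + 1), (0 : ℂ) by simp]
  apply tendsto_finsetSum
  intro m _
  obtain ⟨C, A, -, hA⟩ := wprim_decay hh m hF
  have hdec := decay_pow_mul (c := 2 * π / h) hA (n.choose m : ℂ) (n - m)
  simpa using tendsto_of_decay (c := 2 * π / h) (by positivity) hdec 0

theorem hasDerivAt_eichler_succ {h : ℝ} (hh : 0 < h) {F : ℂ → ℂ} (hF : CuspLike h F) (n : ℕ)
    {z : ℂ} (hz : 0 < z.im) :
    HasDerivAt (eichler h (n + 1) F) (-((n : ℂ) + 1) * eichler h n F z) z := by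
  have hterm : ∀ m ∈ Finset.range (n + 1 + 1),
      HasDerivAt (fun z : ℂ => ((n + 1).choose m : ℂ) * (-z) ^ (n + 1 - m) * wprim h m F z)
        (((n + 1).choose m : ℂ) * (((n + 1 - m : ℕ) : ℂ) * (-z) ^ (n + 1 - m - 1) * (-1)) *
            wprim h m F z +
          ((n + 1).choose m : ℂ) * (-z) ^ (n + 1 - m) * (F z * z ^ m)) z := by
    intro m _
    have hneg : HasDerivAt (fun z : ℂ => -z) (-1) z := (hasDerivAt_id z).neg
    have hpow : HasDerivAt (fun z : ℂ => (-z) ^ (n + 1 - m))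
        (((n + 1 - m : ℕ) : ℂ) * (-z) ^ (n + 1 - m - 1) * (-1)) z := hneg.fun_pow (n + 1 - m)
    exact (hpow.const_mul _).mul (hasDerivAt_wprim hh m hF hz)
  have hsum := HasDerivAt.fun_sum hterm
  have hval : (∑ m ∈ Finset.range (n + 1 + 1),
        (((n + 1).choose m : ℂ) * (((n + 1 - m : ℕ) : ℂ) * (-z) ^ (n + 1 - m - 1) * (-1)) *
            wprim h m F z +
          ((n + 1).choose m : ℂ) * (-z) ^ (n + 1 - m) * (F z * z ^ m))) =
      -((n : ℂ) + 1) * eichler h n F z := by
    rw [Finset.sum_add_distrib]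
    have hB : ∑ m ∈ Finset.range (n + 1 + 1),
        ((n + 1).choose m : ℂ) * (-z) ^ (n + 1 - m) * (F z * z ^ m) = 0 := by
      have := add_pow z (-z) (n + 1)
      rw [add_neg_cancel, zero_pow (Nat.succ_ne_zero n)] at this
      calc ∑ m ∈ Finset.range (n + 1 + 1),
            ((n + 1).choose m : ℂ) * (-z) ^ (n + 1 - m) * (F z * z ^ m)
          = F z * ∑ m ∈ Finset.range (n + 1 + 1),
              z ^ m * (-z) ^ (n + 1 - m) * ((n + 1).choose m : ℂ) := by
            rw [Finset.mul_sum]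
            refine Finset.sum_congr rfl fun m _ => by ring
        _ = 0 := by rw [← this, mul_zero]
    rw [hB, add_zero, Finset.sum_range_succ]
    have hlast : ((n + 1).choose (n + 1) : ℂ) *
        (((n + 1 - (n + 1) : ℕ) : ℂ) * (-z) ^ (n + 1 - (n + 1) - 1) * (-1)) *
          wprim h (n + 1) F z = 0 := by
      simp
    rw [hlast, add_zero]
    unfold eichler
    rw [Finset.mul_sum]
    refine Finset.sum_congr rfl fun m hm => ?_
    have hmn : m ≤ n := Nat.lt_succ_iff.mp (Finset.mem_range.mp hm)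
    have h1 : n + 1 - m - 1 = n - m := by omega
    have h2 : (((n + 1).choose m : ℂ)) * ((n + 1 - m : ℕ) : ℂ) = (n.choose m : ℂ) * ((n : ℂ) + 1) := by
      have := Nat.choose_mul_succ_eq n m
      have h3 : (((n + 1).choose m * (n + 1 - m) : ℕ) : ℂ) = ((n.choose m * (n + 1) : ℕ) : ℂ) := by
        rw [this]
      push_cast at h3
      rw [h3]
    rw [h1]
    calc ((n + 1).choose m : ℂ) * (((n + 1 - m : ℕ) : ℂ) * (-z) ^ (n - m) * (-1)) * wprim h m F z
        = -((((n + 1).choose m : ℂ)) * ((n + 1 - m : ℕ) : ℂ)) * ((-z) ^ (n - m) * wprim h m F z) := by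
          ring
      _ = -((n : ℂ) + 1) * ((n.choose m : ℂ) * (-z) ^ (n - m) * wprim h m F z) := by
          rw [h2]; ring
  rw [hval] at hsum
  exact hsum

/-- Closed form of the diagonal combination: it is, up to the factor `(-1)^n n!`, the
`(n+1)`-fold iterated periodic primitive. In particular it is periodic and decays exponentially,
uniformly in `Re z`. -/
theorem eichler_eq {h : ℝ} (hh : 0 < h) {F : ℂ → ℂ} (hF : CuspLike h F) (n : ℕ) :
    ∀ z : ℂ, 0 < z.im →
      eichler h n F z = (-1) ^ n * (n.factorial : ℂ) * (pprim h)^[n + 1] F z := by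
  induction n with
  | zero =>
    intro z _
    simp [eichler, wprim_zero]
  | succ n ih =>
    have hG := cuspLike_iterate_pprim hh hF (n + 1)
    refine eq_of_hasDerivAt_of_tendsto
      (Φ₁ := fun z => -((n : ℂ) + 1) * eichler h n F z)
      (Φ₂ := fun z => (-1) ^ (n + 1) * ((n + 1).factorial : ℂ) * (pprim h)^[n + 1] F z)
      (fun z hz => hasDerivAt_eichler_succ hh hF n hz)
      (fun z hz => ?_) (fun z hz => ?_) (tendsto_eichler_axis hh hF (n + 1)) ?_
    · have := (hasDerivAt_pprim hh hG hz).const_mul ((-1) ^ (n + 1) * ((n + 1).factorial : ℂ))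
      rw [Function.iterate_succ_apply' (pprim h) (n + 1) F]
      exact this
    · rw [ih z hz, Nat.factorial_succ]
      push_cast
      ring
    · have := (cuspLike_iterate_pprim hh hF (n + 1 + 1)).tendsto_axis.const_mul
        ((-1) ^ (n + 1) * ((n + 1).factorial : ℂ))
      simpa using this

end Fermat.Agent.S22.PP
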