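import Mathlib
import Fermat.Agent.S22.PeriodicPrimitive
import Fermat.Prelude.Thm_CongruenceSubgroup_one_mem_strictPeriods_Gamma0
import Fermat.Prelude.Def_ModularForm_HeckeOperator

set_option autoImplicit false

open Complex Filter Function Topology UpperHalfPlane Matrix.SpecialLinearGroup ConjAct
open scoped Real MatrixGroups ModularForm Pointwise

namespace Fermat.Agent.S22.PP

/-- A cusp form for a group with a positive strict period `h` is `CuspLike h`. -/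
theorem cuspLike_of_cuspFormClass {F : Type*} [FunLike F ℍ ℂ] {Γ : Subgroup (GL (Fin 2) ℝ)}
    {k : ℤ} [CuspFormClass F Γ k] (f : F) {h : ℝ} (hh : 0 < h) (hΓ : h ∈ Γ.strictPeriods) :
    CuspLike h (⇑f ∘ ofComplex) where
  per := SlashInvariantFormClass.periodic_comp_ofComplex f hΓ
  diff := fun z hz => by
    have := UpperHalfPlane.mdifferentiableAt_iff.mp (ModularFormClass.holo f ⟨z, hz⟩)
    simpa using this
  zero := by
    have : Fact (IsCusp OnePoint.infty Γ) := ⟨Γ.isCusp_of_mem_strictPeriods hh hΓ⟩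
    exact CuspFormClass.zero_at_infty_comp_ofComplex f

/-- Slashing a cusp form by any `g : GL(2, ℝ)` such that `g⁻¹ Γ g` has a positive strict period
gives a `CuspLike` function. -/
theorem cuspLike_translate {F : Type*} [FunLike F ℍ ℂ] {Γ : Subgroup (GL (Fin 2) ℝ)}
    {k : ℤ} [CuspFormClass F Γ k] (f : F) (g : GL (Fin 2) ℝ) {h : ℝ} (hh : 0 < h)
    (hΓ : h ∈ (toConjAct g⁻¹ • Γ).strictPeriods) :
    CuspLike h ((⇑f ∣[k] g) ∘ ofComplex) :=
  cuspLike_of_cuspFormClass (CuspForm.translate f g) hh hΓ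

theorem cuspLike_cuspForm {N : ℕ} {k : ℤ} (f : CuspForm (CongruenceSubgroup.Gamma0 N) k) :
    CuspLike 1 (⇑f ∘ ofComplex) :=
  cuspLike_of_cuspFormClass f one_pos (CongruenceSubgroup.one_mem_strictPeriods_Gamma0 N)

theorem upperRightHom_intCast (m : ℤ) :
    Matrix.GeneralLinearGroup.upperRightHom ((m : ℝ)) = mapGL ℝ (ModularGroup.T ^ m) := by
  simp only [Units.ext_iff, mapGL_coe_matrix, map_apply_coe]
  ext i j
  fin_cases i <;> fin_cases j <;> simp [ModularGroup.coe_T_zpow]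

theorem natCast_mem_strictPeriods_conj_Gamma0 (N : ℕ) (d : SL(2, ℤ)) :
    (N : ℝ) ∈ (toConjAct (mapGL ℝ d)⁻¹ •
      (Subgroup.map (mapGL ℝ) (CongruenceSubgroup.Gamma0 N))).strictPeriods := by
  have hT : ModularGroup.T ^ (N : ℤ) ∈ CongruenceSubgroup.Gamma N :=
    CongruenceSubgroup.ModularGroup_T_pow_mem_Gamma N N dvd_rfl
  have hconj : d * ModularGroup.T ^ (N : ℤ) * d⁻¹ ∈ CongruenceSubgroup.Gamma0 N := by
    have h1 : d * ModularGroup.T ^ (N : ℤ) * d⁻¹ ∈ CongruenceSubgroup.Gamma N :=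
      (CongruenceSubgroup.Gamma_normal N).conj_mem _ hT d
    rw [CongruenceSubgroup.Gamma_mem] at h1
    rw [CongruenceSubgroup.Gamma0_mem]
    exact h1.2.2.1
  have hU := upperRightHom_intCast (N : ℤ)
  rw [Int.cast_natCast] at hU
  rw [Subgroup.mem_strictPeriods_iff, Subgroup.mem_pointwise_smul_iff_inv_smul_mem, ← toConjAct_inv,
    toConjAct_smul, inv_inv, hU, ← map_inv, ← map_mul, ← map_mul]
  exact Subgroup.mem_map_of_mem _ hconj

/-- Slashing a cusp form for `Γ₀(N)` by an element of `SL(2, ℤ)` gives an `N`-periodic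
`CuspLike` function. -/
theorem cuspLike_slash {N : ℕ} [NeZero N] {k : ℤ} (f : CuspForm (CongruenceSubgroup.Gamma0 N) k)
    (d : SL(2, ℤ)) : CuspLike N ((⇑f ∣[k] d) ∘ ofComplex) :=
  cuspLike_translate f (mapGL ℝ d) (Nat.cast_pos.mpr (NeZero.pos N))
    (natCast_mem_strictPeriods_conj_Gamma0 N d)

theorem mem_strictPeriods_conj_of_mul_eq {Γ : Subgroup (GL (Fin 2) ℝ)} (g : GL (Fin 2) ℝ)
    {h h' : ℝ} (hh' : h' ∈ Γ.strictPeriods)
    (hcomm : g * Matrix.GeneralLinearGroup.upperRightHom h =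
      Matrix.GeneralLinearGroup.upperRightHom h' * g) :
    h ∈ (toConjAct g⁻¹ • Γ).strictPeriods := by
  rw [Subgroup.mem_strictPeriods_iff, Subgroup.mem_pointwise_smul_iff_inv_smul_mem, ← toConjAct_inv,
    toConjAct_smul, inv_inv, hcomm, mul_inv_cancel_right]
  exact Subgroup.mem_strictPeriods_iff.mp hh'

theorem heckeMatrix_mul_upperRightHom {p : ℕ} (hp : p ≠ 0) (j : ℕ) :
    ModularForm.heckeMatrix p j * Matrix.GeneralLinearGroup.upperRightHom (p : ℝ) =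
      Matrix.GeneralLinearGroup.upperRightHom (1 : ℝ) * ModularForm.heckeMatrix p j := by
  apply Units.ext
  simp only [Units.val_mul, ModularForm.val_heckeMatrix hp]
  ext i j
  fin_cases i <;> fin_cases j <;>
    simp [Matrix.GeneralLinearGroup.upperRightHom, Matrix.mul_apply, Fin.sum_univ_two, add_comm]

theorem heckeDiagMatrix_mul_upperRightHom {p : ℕ} (hp : p ≠ 0) :
    ModularForm.heckeDiagMatrix p * Matrix.GeneralLinearGroup.upperRightHom (1 : ℝ) =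
      Matrix.GeneralLinearGroup.upperRightHom (p : ℝ) * ModularForm.heckeDiagMatrix p := by
  apply Units.ext
  simp only [Units.val_mul, ModularForm.val_heckeDiagMatrix hp]
  ext i j
  fin_cases i <;> fin_cases j <;>
    simp [Matrix.GeneralLinearGroup.upperRightHom, Matrix.mul_apply, Fin.sum_univ_two]

/-- `f ∣[k] [1, j; 0, p]` is a `p`-periodic `CuspLike` function. -/
theorem cuspLike_slash_heckeMatrix {N : ℕ} {k : ℤ} (f : CuspForm (CongruenceSubgroup.Gamma0 N) k)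
    {p : ℕ} (hp : p ≠ 0) (j : ℕ) :
    CuspLike p ((⇑f ∣[k] ModularForm.heckeMatrix p j) ∘ ofComplex) :=
  cuspLike_translate f _ (Nat.cast_pos.mpr (Nat.pos_of_ne_zero hp))
    (mem_strictPeriods_conj_of_mul_eq _ (CongruenceSubgroup.one_mem_strictPeriods_Gamma0 N)
      (heckeMatrix_mul_upperRightHom hp j))

/-- `f ∣[k] [p, 0; 0, 1]` is a `1`-periodic `CuspLike` function. -/
theorem cuspLike_slash_heckeDiagMatrix {N : ℕ} {k : ℤ}
    (f : CuspForm (CongruenceSubgroup.Gamma0 N) k) {p : ℕ} (hp : p ≠ 0) :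
    CuspLike 1 ((⇑f ∣[k] ModularForm.heckeDiagMatrix p) ∘ ofComplex) :=
  cuspLike_translate f _ one_pos
    (mem_strictPeriods_conj_of_mul_eq _
      (by
        have h1 := CongruenceSubgroup.one_mem_strictPeriods_Gamma0 N
        have := AddSubgroup.nsmul_mem _ h1 p
        simpa using this)
      (heckeDiagMatrix_mul_upperRightHom hp))

/-! ### Plain corollaries (no `CuspLike` in the statements) -/

theorem CuspLike.differentiableOn {h : ℝ} {F : ℂ → ℂ} (hF : CuspLike h F) :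
    DifferentiableOn ℂ F {z : ℂ | 0 < z.im} :=
  fun z hz => (hF.diff z hz).differentiableWithinAt

/-- Uniform exponential decay, in the shape `∃ C c A, 0 < c ∧ ...`. -/
theorem CuspLike.unifDecay {h : ℝ} {F : ℂ → ℂ} (hh : 0 < h) (hF : CuspLike h F) :
    ∃ C c A : ℝ, 0 < c ∧ ∀ z : ℂ, A ≤ z.im → ‖F z‖ ≤ C * Real.exp (-c * z.im) := by
  obtain ⟨C, A, -, hC⟩ := hF.exp_decay hh
  exact ⟨C, 2 * π / h, A, by positivity, hC⟩

theorem differentiableAt_slash_SL {N : ℕ} [NeZero N] {k : ℤ}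
    (f : CuspForm (CongruenceSubgroup.Gamma0 N) k) (d : SL(2, ℤ)) {z : ℂ} (hz : 0 < z.im) :
    DifferentiableAt ℂ ((⇑f ∣[k] d) ∘ ofComplex) z :=
  (cuspLike_slash f d).diff z hz

theorem unifDecay_slash_SL {N : ℕ} [NeZero N] {k : ℤ}
    (f : CuspForm (CongruenceSubgroup.Gamma0 N) k) (d : SL(2, ℤ)) :
    ∃ C c A : ℝ, 0 < c ∧ ∀ z : ℂ, A ≤ z.im →
      ‖(⇑f ∣[k] d) (ofComplex z)‖ ≤ C * Real.exp (-c * z.im) :=
  (cuspLike_slash f d).unifDecay (Nat.cast_pos.mpr (NeZero.pos N))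

theorem differentiableAt_slash_heckeMatrix {N : ℕ} {k : ℤ}
    (f : CuspForm (CongruenceSubgroup.Gamma0 N) k) {p : ℕ} (hp : p ≠ 0) (j : ℕ) {z : ℂ}
    (hz : 0 < z.im) :
    DifferentiableAt ℂ ((⇑f ∣[k] ModularForm.heckeMatrix p j) ∘ ofComplex) z :=
  (cuspLike_slash_heckeMatrix f hp j).diff z hz

theorem unifDecay_slash_heckeMatrix {N : ℕ} {k : ℤ}
    (f : CuspForm (CongruenceSubgroup.Gamma0 N) k) {p : ℕ} (hp : p ≠ 0) (j : ℕ) :
    ∃ C c A : ℝ, 0 < c ∧ ∀ z : ℂ, A ≤ z.im →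
      ‖(⇑f ∣[k] ModularForm.heckeMatrix p j) (ofComplex z)‖ ≤ C * Real.exp (-c * z.im) :=
  (cuspLike_slash_heckeMatrix f hp j).unifDecay (Nat.cast_pos.mpr (Nat.pos_of_ne_zero hp))

theorem differentiableAt_slash_heckeDiagMatrix {N : ℕ} {k : ℤ}
    (f : CuspForm (CongruenceSubgroup.Gamma0 N) k) {p : ℕ} (hp : p ≠ 0) {z : ℂ}
    (hz : 0 < z.im) :
    DifferentiableAt ℂ ((⇑f ∣[k] ModularForm.heckeDiagMatrix p) ∘ ofComplex) z :=
  (cuspLike_slash_heckeDiagMatrix f hp).diff z hz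

theorem unifDecay_slash_heckeDiagMatrix {N : ℕ} {k : ℤ}
    (f : CuspForm (CongruenceSubgroup.Gamma0 N) k) {p : ℕ} (hp : p ≠ 0) :
    ∃ C c A : ℝ, 0 < c ∧ ∀ z : ℂ, A ≤ z.im →
      ‖(⇑f ∣[k] ModularForm.heckeDiagMatrix p) (ofComplex z)‖ ≤ C * Real.exp (-c * z.im) :=
  (cuspLike_slash_heckeDiagMatrix f hp).unifDecay one_pos

/-! ### Explicit formulas on `ℂ` -/

theorem slash_heckeMatrix_ofComplex (k : ℤ) {p : ℕ} (hp : p ≠ 0) (j : ℕ) (f : ℍ → ℂ) {z : ℂ}
    (hz : 0 < z.im) :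
    (f ∣[k] ModularForm.heckeMatrix p j) (ofComplex z) =
      (p : ℂ)⁻¹ * f (ofComplex ((z + j) / p)) := by
  rw [ofComplex_apply_of_im_pos hz, ModularForm.slash_heckeMatrix_apply k hp]
  congr 2
  have := ModularForm.coe_heckeMatrix_smul hp j ⟨z, hz⟩
  rw [show ((⟨z, hz⟩ : ℍ) : ℂ) = z from rfl] at this
  rw [← this, ofComplex_apply]

theorem slash_heckeDiagMatrix_ofComplex (k : ℤ) {p : ℕ} (hp : p ≠ 0) (f : ℍ → ℂ) {z : ℂ}
    (hz : 0 < z.im) :
    (f ∣[k] ModularForm.heckeDiagMatrix p) (ofComplex z) =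
      (p : ℂ) ^ (k - 1) * f (ofComplex ((p : ℂ) * z)) := by
  rw [ofComplex_apply_of_im_pos hz, ModularForm.slash_heckeDiagMatrix_apply k hp]
  congr 2
  have := ModularForm.coe_heckeDiagMatrix_smul hp ⟨z, hz⟩
  rw [show ((⟨z, hz⟩ : ℍ) : ℂ) = z from rfl] at this
  rw [← this, ofComplex_apply]

theorem slash_SL_ofComplex (k : ℤ) (d : SL(2, ℤ)) (f : ℍ → ℂ) {z : ℂ} (hz : 0 < z.im) :
    (f ∣[k] d) (ofComplex z) =
      f (ofComplex ((((d 0 0 : ℤ) : ℂ) * z + ((d 0 1 : ℤ) : ℂ)) /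
        (((d 1 0 : ℤ) : ℂ) * z + ((d 1 1 : ℤ) : ℂ)))) *
        (((d 1 0 : ℤ) : ℂ) * z + ((d 1 1 : ℤ) : ℂ)) ^ (-k) := by
  rw [ofComplex_apply_of_im_pos hz, ModularForm.SL_slash_apply]
  have := UpperHalfPlane.coe_specialLinearGroup_apply d ⟨z, hz⟩
  rw [show ((⟨z, hz⟩ : ℍ) : ℂ) = z from rfl] at this
  simp only [algebraMap_int_eq, eq_intCast, ofReal_intCast] at this
  rw [← this, ofComplex_apply]
  rfl

end Fermat.Agent.S22.PP
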