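import Fermat.Agent.S22.Defs
import Fermat.Agent.S22.CuspInputs

/-!
# S22: cusp forms and their slash translates are admissible (bridge to `CuspInputs`)
-/

set_option autoImplicit false

namespace Fermat.Agent.S22

open Complex UpperHalfPlane ModularForm CongruenceSubgroup
open scoped MatrixGroups ModularForm

variable {N : ℕ} [NeZero N] {k : ℤ}

theorem admissible_gfs (f : CuspForm (Gamma0 N) k) (δ : SL(2, ℤ)) : Admissible (gfs f δ) :=
  ⟨(PP.cuspLike_slash f δ).differentiableOn,
    (PP.cuspLike_slash f δ).unifDecay (Nat.cast_pos.mpr (NeZero.pos N))⟩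

omit [NeZero N] in
theorem admissible_gf (f : CuspForm (Gamma0 N) k) : Admissible (gf f) :=
  ⟨(PP.cuspLike_cuspForm f).differentiableOn, (PP.cuspLike_cuspForm f).unifDecay one_pos⟩

theorem gfs_add_N (f : CuspForm (Gamma0 N) k) (δ : SL(2, ℤ)) (z : ℂ) :
    gfs f δ (z + N) = gfs f δ z := by
  have := (PP.cuspLike_slash f δ).per z
  rw [Complex.ofReal_natCast] at this
  exact this

omit [NeZero N] in
theorem gf_add_one (f : CuspForm (Gamma0 N) k) (z : ℂ) : gf f (z + 1) = gf f z := by
  have := (PP.cuspLike_cuspForm f).per z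
  rw [Complex.ofReal_one] at this
  exact this

end Fermat.Agent.S22
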