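import Mathlib
import Fermat.Prelude.Def_CuspForm_HeckeAlgebra

/-!
# S22: cusp forms of weight at most one on `Γ₀(N)` vanish
-/

set_option autoImplicit false

namespace Fermat.Agent.S22

open Complex UpperHalfPlane ModularForm CongruenceSubgroup
open scoped MatrixGroups ModularForm

variable {N : ℕ} [NeZero N] {k : ℤ}

/-- A cusp form as a modular form. -/
noncomputable def lwToModularForm (f : CuspForm (Gamma0 N) k) : ModularForm (Gamma0 N) k :=
  ModularFormClass.modularForm f

omit [NeZero N] in
theorem lw_neg_one_mem : (-1 : GL (Fin 2) ℝ) ∈ (Gamma0 N : Subgroup (GL (Fin 2) ℝ)) := by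
  refine ⟨-1, ?_, ?_⟩
  · rw [SetLike.mem_coe, Gamma0_mem]
    simp
  · ext i j
    fin_cases i <;> fin_cases j <;> simp

theorem cuspForm_eq_zero_of_weight_le_one (hk : k ≤ 1) (f : CuspForm (Gamma0 N) k) : f = 0 := by
  have key : lwToModularForm f = 0 := by
    rcases lt_or_ge k 0 with h | h
    · exact ModularForm.isZero_of_neg_weight h _
    · rcases eq_or_lt_of_le h with h0 | h1
      · subst h0
        obtain ⟨c, hc⟩ := ModularForm.eq_const_of_weight_zero (lwToModularForm f)
        have hz : IsZeroAtImInfty (⇑f) := CuspFormClass.zero_at_infty f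
        have hf : (⇑f : ℍ → ℂ) = Function.const ℍ c := hc
        rw [hf] at hz
        have hc0 : c = 0 := tendsto_nhds_unique tendsto_const_nhds hz
        ext τ
        have := congrFun hc τ
        rw [this, hc0]
        rfl
      · have hk1 : k = 1 := by omega
        subst hk1
        exact ModularForm.eq_zero_of_neg_one_mem lw_neg_one_mem (by decide) _
  ext τ
  have := congrArg (fun F : ModularForm (Gamma0 N) k => F τ) key
  simpa [lwToModularForm] using this

end Fermat.Agent.S22
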