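import Mathlib
import Fermat.Prelude.Def_CuspForm_HeckeAlgebra
import Fermat.Prelude.Sol.S_ModularForm_heckeT_slash_eq_self_of_mem_Gamma0
import Fermat.Agent.S22.Cocycle

/-!
# S22: the period lattice is stable under the Hecke operators

For an upper triangular matrix `M = [[a, b], [0, d]]` the normalised primitives satisfy
`Phi (g ∣ M) (u, v) z = Phi g ((u, v) adj M) (M z)` on the nose (both sides vanish at `i∞`).
Combined with the coset bookkeeping of the Prelude (`heckeRep_mul`, `heckeMatrix_mul_of_dvd`)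
this expresses `psi (T f) γ u v` as an integral combination of periods of `f`.
-/

set_option autoImplicit false

namespace Fermat.Agent.S22

open Complex UpperHalfPlane ModularForm Filter Topology CongruenceSubgroup
open scoped MatrixGroups ModularForm

/-! ### Affine maps `z ↦ (a z + b) / d` -/

/-- The affine map `z ↦ (a z + b) / d`. -/
noncomputable def aff (a b d : ℝ) (z : ℂ) : ℂ := ((a : ℂ) * z + (b : ℂ)) / (d : ℂ)

theorem aff_im (a b d : ℝ) (z : ℂ) : (aff a b d z).im = a * z.im / d := by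
  simp [aff, Complex.div_ofReal_im]

theorem aff_re (a b d : ℝ) (z : ℂ) : (aff a b d z).re = (a * z.re + b) / d := by
  simp [aff, Complex.div_ofReal_re]

theorem aff_im_pos {a d : ℝ} (ha : 0 < a) (hd : 0 < d) (b : ℝ) {z : ℂ} (hz : 0 < z.im) :
    0 < (aff a b d z).im := by
  rw [aff_im]; positivity

theorem hasDerivAt_aff (a b d : ℝ) (z : ℂ) : HasDerivAt (aff a b d) ((a : ℂ) / d) z := by
  have h1 : HasDerivAt (fun x : ℂ => (a : ℂ) * x + (b : ℂ)) (a : ℂ) z := by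
    simpa using ((hasDerivAt_id z).const_mul (a : ℂ)).add_const (b : ℂ)
  have h2 : HasDerivAt (fun x : ℂ => ((a : ℂ) * x + (b : ℂ)) * (d : ℂ)⁻¹) ((a : ℂ) * (d : ℂ)⁻¹) z :=
    h1.mul_const _
  have e : aff a b d = fun x : ℂ => ((a : ℂ) * x + (b : ℂ)) * (d : ℂ)⁻¹ := by
    funext x; simp [aff, div_eq_mul_inv]
  rw [e, div_eq_mul_inv]
  exact h2

theorem StripDecay.comp_aff {g : ℂ → ℂ} (hg : StripDecay g) {a d : ℝ} (ha : 0 < a) (hd : 0 < d)
    (b : ℝ) : StripDecay (fun z => g (aff a b d z)) := by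
  intro X
  obtain ⟨C, c, A, hC, hc, hA, hb⟩ := hg ((a * |X| + |b|) / d)
  refine ⟨C, c * a / d, A * d / a, hC, by positivity, by positivity, fun z hzX hzA => ?_⟩
  have h := hb (aff a b d z) ?_ ?_
  · rw [aff_im] at h
    have : -c * (a * z.im / d) = -(c * a / d) * z.im := by ring
    rwa [this] at h
  · rw [aff_re, abs_div, abs_of_pos hd]
    apply div_le_div_of_nonneg_right _ hd.le
    calc |a * z.re + b| ≤ |a * z.re| + |b| := abs_add_le _ _
      _ = a * |z.re| + |b| := by rw [abs_mul, abs_of_pos ha]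
      _ ≤ a * |X| + |b| := by
          have : |z.re| ≤ |X| := hzX.trans (le_abs_self X)
          gcongr
  · rw [aff_im, le_div_iff₀ hd]
    have := (div_le_iff₀ ha).mp hzA
    linarith

theorem Admissible.comp_aff {g : ℂ → ℂ} (hg : Admissible g) {a d : ℝ} (ha : 0 < a) (hd : 0 < d)
    (b : ℝ) (c₀ : ℂ) : Admissible (fun z => c₀ * g (aff a b d z)) := by
  refine ⟨?_, ?_⟩
  · refine DifferentiableOn.const_mul ?_ c₀
    refine hg.diff.comp
      (fun z _ => (hasDerivAt_aff a b d z).differentiableAt.differentiableWithinAt) ?_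
    intro z hz
    exact aff_im_pos ha hd b hz
  · obtain ⟨C, c, A, hc, hb⟩ := hg.decay
    refine ⟨‖c₀‖ * C, c * a / d, A * d / a, by positivity, fun z hz => ?_⟩
    have h := hb (aff a b d z) ?_
    · rw [aff_im] at h
      rw [norm_mul, mul_assoc]
      have e : -c * (a * z.im / d) = -(c * a / d) * z.im := by ring
      rw [e] at h
      exact mul_le_mul_of_nonneg_left h (norm_nonneg _)
    · rw [aff_im, le_div_iff₀ hd]
      have := (div_le_iff₀ ha).mp hz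
      linarith

theorem Admissible.congr {g g' : ℂ → ℂ} (hg : Admissible g)
    (h : ∀ z : ℂ, 0 < z.im → g' z = g z) : Admissible g' := by
  refine ⟨hg.diff.congr fun z hz => h z hz, ?_⟩
  obtain ⟨C, c, A, hc, hb⟩ := hg.decay
  refine ⟨C, c, max A 1, hc, fun z hz => ?_⟩
  have hz0 : 0 < z.im := lt_of_lt_of_le one_pos ((le_max_right _ _).trans hz)
  rw [h z hz0]
  exact hb z ((le_max_left _ _).trans hz)

/-- The normalised primitives of `g ∘ (affine map)`. -/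
theorem Phi_comp_aff {g : ℂ → ℂ} (hg : Admissible g) {a d : ℝ} (ha : 0 < a) (hd : 0 < d)
    (b : ℝ) (n : ℕ) (u v : ℂ) {z : ℂ} (hz : 0 < z.im) :
    Phi (fun z => ((a : ℂ) ^ (n + 1) / d) * g (aff a b d z)) n u v z
      = Phi g n (u * d) (v * a - u * b) (aff a b d z) := by
  symm
  refine Phi_unique (hg.comp_aff ha hd b _) n u v
    (P := fun z => Phi g n (u * d) (v * a - u * b) (aff a b d z)) ?_ ?_ hz
  · intro w hw
    have h1 := Phi_isPrimOn hg n (u * d) (v * a - u * b) (aff a b d w) (aff_im_pos ha hd b hw)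
    have h2 := h1.comp w (hasDerivAt_aff a b d w)
    have hd' : (d : ℂ) ≠ 0 := by exact_mod_cast hd.ne'
    have e : (u * d) * aff a b d w + (v * a - u * b) = a * (u * w + v) := by
      simp only [aff]; field_simp; ring
    have e2 : g (aff a b d w) * ((u * d) * aff a b d w + (v * a - u * b)) ^ n * ((a : ℂ) / d)
        = ((a : ℂ) ^ (n + 1) / d) * g (aff a b d w) * (u * w + v) ^ n := by
      rw [e, mul_pow]; field_simp; ring
    rw [e2] at h2
    exact h2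
  · exact (Phi_stripDecay hg n _ _).comp_aff ha hd b

/-! ### Upper triangular matrices -/

/-- `M` is the upper triangular matrix `[[a, b], [0, d]]` with `a, d > 0`. -/
structure IsUT (M : GL (Fin 2) ℝ) (a b d : ℝ) : Prop where
  ha : 0 < a
  hd : 0 < d
  val : (M : Matrix (Fin 2) (Fin 2) ℝ) = !![a, b; 0, d]

theorem IsUT.det_eq {M : GL (Fin 2) ℝ} {a b d : ℝ} (hM : IsUT M a b d) :
    (M.det : ℝ) = a * d := by
  rw [Matrix.GeneralLinearGroup.val_det_apply, hM.val, Matrix.det_fin_two_of]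
  ring

theorem IsUT.det_pos {M : GL (Fin 2) ℝ} {a b d : ℝ} (hM : IsUT M a b d) :
    0 < (M.det : ℝ) := by
  rw [hM.det_eq]; exact mul_pos hM.ha hM.hd

theorem IsUT.denom_eq {M : GL (Fin 2) ℝ} {a b d : ℝ} (hM : IsUT M a b d) (τ : ℍ) :
    denom M τ = d := by
  simp [UpperHalfPlane.denom, hM.val]

theorem IsUT.coe_smul {M : GL (Fin 2) ℝ} {a b d : ℝ} (hM : IsUT M a b d) (τ : ℍ) :
    ((M • τ : ℍ) : ℂ) = aff a b d τ := by
  rw [UpperHalfPlane.coe_smul_of_det_pos hM.det_pos]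
  simp [UpperHalfPlane.num, UpperHalfPlane.denom, hM.val, aff]

theorem IsUT.σ_eq {M : GL (Fin 2) ℝ} {a b d : ℝ} (hM : IsUT M a b d) :
    UpperHalfPlane.σ M = .refl ℝ ℂ := by
  rw [UpperHalfPlane.σ, if_pos hM.det_pos]

theorem IsUT.slash_apply {M : GL (Fin 2) ℝ} {a b d : ℝ} (hM : IsUT M a b d) {k : ℤ} {n : ℕ}
    (hk : k = n + 2) (f : ℍ → ℂ) (τ : ℍ) :
    (f ∣[k] M) τ = ((a : ℂ) ^ (n + 1) / d) * f (M • τ) := by
  have ha' : (a : ℂ) ≠ 0 := by exact_mod_cast hM.ha.ne'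
  have hd' : (d : ℂ) ≠ 0 := by exact_mod_cast hM.hd.ne'
  rw [ModularForm.slash_apply, hM.σ_eq, hM.det_eq, hM.denom_eq]
  simp only [ContinuousAlgEquiv.refl_apply]
  rw [abs_of_pos (mul_pos hM.ha hM.hd)]
  have e1 : k - 1 = ((n + 1 : ℕ) : ℤ) := by rw [hk]; push_cast; ring
  have e2 : -k = -((n + 2 : ℕ) : ℤ) := by rw [hk]; push_cast; ring
  rw [e1, e2, zpow_natCast, zpow_neg, zpow_natCast]
  push_cast
  field_simp
  ring

/-- The slash of `f` by an upper triangular matrix, as a function on `ℂ`. -/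
theorem slashUT_apply {M : GL (Fin 2) ℝ} {a b d : ℝ} (hM : IsUT M a b d) {k : ℤ} {n : ℕ}
    (hk : k = n + 2) (f : ℍ → ℂ) {z : ℂ} (hz : 0 < z.im) :
    ((f ∣[k] M) ∘ ofComplex) z = ((a : ℂ) ^ (n + 1) / d) * (f ∘ ofComplex) (aff a b d z) := by
  have h1 : ofComplex z = ⟨z, hz⟩ := ofComplex_apply_of_im_pos hz
  have h2 : ofComplex (aff a b d z) = M • (⟨z, hz⟩ : ℍ) := by
    have hz' := aff_im_pos hM.ha hM.hd b hz
    rw [ofComplex_apply_of_im_pos hz']
    exact UpperHalfPlane.ext (hM.coe_smul ⟨z, hz⟩).symm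
  simp only [Function.comp_apply, h1, h2]
  exact hM.slash_apply hk f _

theorem Phi_slash_UT {M : GL (Fin 2) ℝ} {a b d : ℝ} (hM : IsUT M a b d) {k : ℤ} {n : ℕ}
    (hk : k = n + 2) (f : ℍ → ℂ) (hg : Admissible (f ∘ ofComplex)) :
    Admissible ((f ∣[k] M) ∘ ofComplex) ∧ ∀ (u v : ℂ) {z : ℂ}, 0 < z.im →
      Phi ((f ∣[k] M) ∘ ofComplex) n u v z
        = Phi (f ∘ ofComplex) n (u * d) (v * a - u * b) (aff a b d z) := by
  have hadm0 := hg.comp_aff hM.ha hM.hd b ((a : ℂ) ^ (n + 1) / d)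
  have hcongr : ∀ z : ℂ, 0 < z.im → ((f ∣[k] M) ∘ ofComplex) z
      = ((a : ℂ) ^ (n + 1) / d) * (f ∘ ofComplex) (aff a b d z) :=
    fun z hz => slashUT_apply hM hk f hz
  have hadm1 : Admissible ((f ∣[k] M) ∘ ofComplex) := hadm0.congr hcongr
  refine ⟨hadm1, fun u v z hz => ?_⟩
  rw [Phi_congr hadm0 hadm1 hcongr n u v hz]
  exact Phi_comp_aff hg hM.ha hM.hd b n u v hz

/-- Point identity coming from `M γ = γ' M'`. -/
theorem aff_mob_eq {M M' : GL (Fin 2) ℝ} {a b d a' b' d' : ℝ} (hM : IsUT M a b d)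
    (hM' : IsUT M' a' b' d') {γ γ' : SL(2, ℤ)}
    (hmul : M * Matrix.SpecialLinearGroup.mapGL ℝ γ = Matrix.SpecialLinearGroup.mapGL ℝ γ' * M')
    {z : ℂ} (hz : 0 < z.im) :
    aff a b d (mob γ z) = mob γ' (aff a' b' d' z) := by
  set τ : ℍ := ⟨z, hz⟩ with hτ
  have h1 : mob γ z = ((γ • τ : ℍ) : ℂ) := mob_coe γ τ
  have h2 : aff a' b' d' z = ((M' • τ : ℍ) : ℂ) := (hM'.coe_smul τ).symm
  rw [h1, ← hM.coe_smul, h2, mob_coe]
  congr 1
  show M • (Matrix.SpecialLinearGroup.mapGL ℝ γ • τ)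
    = Matrix.SpecialLinearGroup.mapGL ℝ γ' • (M' • τ)
  rw [← mul_smul, ← mul_smul, hmul]

theorem mapGL_coe_apply (g : SL(2, ℤ)) (i j : Fin 2) :
    ((Matrix.SpecialLinearGroup.mapGL ℝ g : GL (Fin 2) ℝ) : Matrix (Fin 2) (Fin 2) ℝ) i j
      = ((g i j : ℤ) : ℝ) := by
  simp

theorem SL2_inv_entries (g : SL(2, ℤ)) :
    (g⁻¹ : SL(2, ℤ)) 0 0 = g 1 1 ∧ (g⁻¹ : SL(2, ℤ)) 0 1 = -g 0 1 ∧
    (g⁻¹ : SL(2, ℤ)) 1 0 = -g 1 0 ∧ (g⁻¹ : SL(2, ℤ)) 1 1 = g 0 0 := by
  rw [Matrix.SpecialLinearGroup.SL2_inv_expl]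
  simp

/-- Row vector identity coming from `M γ = γ' M'`. -/
theorem UT_vec_eq {M M' : GL (Fin 2) ℝ} {a b d a' b' d' : ℝ} (hM : IsUT M a b d)
    (hM' : IsUT M' a' b' d') {γ γ' : SL(2, ℤ)}
    (hmul : M * Matrix.SpecialLinearGroup.mapGL ℝ γ = Matrix.SpecialLinearGroup.mapGL ℝ γ' * M')
    (u v : ℂ) :
    (u * d) * γ' 0 0 + (v * a - u * b) * γ' 1 0 = (u * γ 0 0 + v * γ 1 0) * d' ∧
    (u * d) * γ' 0 1 + (v * a - u * b) * γ' 1 1
      = (u * γ 0 1 + v * γ 1 1) * a' - (u * γ 0 0 + v * γ 1 0) * b' := by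
  have h2 : Matrix.SpecialLinearGroup.mapGL ℝ γ'⁻¹ * M
      = M' * Matrix.SpecialLinearGroup.mapGL ℝ γ⁻¹ := by
    rw [map_inv, map_inv, inv_mul_eq_iff_eq_mul, ← mul_assoc, eq_mul_inv_iff_mul_eq, hmul]
  have e := congrArg (fun x : GL (Fin 2) ℝ => (x : Matrix (Fin 2) (Fin 2) ℝ)) h2
  simp only [Matrix.GeneralLinearGroup.coe_mul, hM.val, hM'.val] at e
  obtain ⟨i00, i01, i10, i11⟩ := SL2_inv_entries γ
  obtain ⟨j00, j01, j10, j11⟩ := SL2_inv_entries γ'
  have e00 := congrFun (congrFun e 0) 0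
  have e01 := congrFun (congrFun e 0) 1
  have e10 := congrFun (congrFun e 1) 0
  have e11 := congrFun (congrFun e 1) 1
  simp only [Matrix.mul_apply, Fin.sum_univ_two, mapGL_coe_apply, i00, i01, i10, i11, j00, j01,
    j10, j11, Matrix.of_apply, Matrix.cons_val_zero, Matrix.cons_val_one, Matrix.cons_val',
    Matrix.cons_val_fin_one, Int.cast_neg] at e00 e01 e10 e11
  have c00 := congrArg (fun x : ℝ => (x : ℂ)) e00
  have c01 := congrArg (fun x : ℝ => (x : ℂ)) e01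
  have c10 := congrArg (fun x : ℝ => (x : ℂ)) e10
  have c11 := congrArg (fun x : ℝ => (x : ℂ)) e11
  push_cast at c00 c01 c10 c11
  constructor
  · linear_combination u * c11 - v * c10
  · linear_combination (-u) * c01 + v * c00

/-- Key identity: slashing by upper triangular matrices turns the period of `γ` into a period
of `γ'` when `M γ = γ' M'`. -/
theorem Phi_slash_UT_mob {N : ℕ} {k : ℤ} {n : ℕ} (hk : k = n + 2) (f : CuspForm (Gamma0 N) k)
    (hadm : Admissible (gf f)) {M M' : GL (Fin 2) ℝ} {a b d a' b' d' : ℝ} (hM : IsUT M a b d)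
    (hM' : IsUT M' a' b' d') {γ γ' : SL(2, ℤ)} (hγ' : γ' ∈ Gamma0 N)
    (hmul : M * Matrix.SpecialLinearGroup.mapGL ℝ γ = Matrix.SpecialLinearGroup.mapGL ℝ γ' * M')
    (u v : ℂ) {z : ℂ} (hz : 0 < z.im) :
    Phi ((⇑f ∣[k] M) ∘ ofComplex) n u v (mob γ z)
      - Phi ((⇑f ∣[k] M') ∘ ofComplex) n (u * γ 0 0 + v * γ 1 0) (u * γ 0 1 + v * γ 1 1) z
      = psi f γ' (u * d) (v * a - u * b) := by
  have hn : (k - 2).toNat = n := by rw [hk]; simp
  have hk2 : (2 : ℤ) ≤ k := by rw [hk]; omega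
  have hg : Admissible (⇑f ∘ ofComplex) := hadm
  rw [(Phi_slash_UT hM hk ⇑f hg).2 u v (mob_im_pos γ hz), (Phi_slash_UT hM' hk ⇑f hg).2 _ _ hz,
    aff_mob_eq hM hM' hmul hz]
  have hz' : 0 < (aff a' b' d' z).im := aff_im_pos hM'.ha hM'.hd b' hz
  have hspec := psi_spec f hadm hk2 hγ' (u * d) (v * a - u * b) hz'
  rw [hn] at hspec
  obtain ⟨v1, v2⟩ := UT_vec_eq hM hM' hmul u v
  have hspec' : Phi (⇑f ∘ ofComplex) n (u * d) (v * a - u * b) (mob γ' (aff a' b' d' z))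
      = Phi (⇑f ∘ ofComplex) n ((u * d) * γ' 0 0 + (v * a - u * b) * γ' 1 0)
          ((u * d) * γ' 0 1 + (v * a - u * b) * γ' 1 1) (aff a' b' d' z)
        + psi f γ' (u * d) (v * a - u * b) := hspec
  rw [hspec', v1, v2]
  ring

/-! ### Linearity of the periods in `f`, finite sums -/

theorem Admissible.zero : Admissible (fun _ => (0 : ℂ)) :=
  ⟨differentiableOn_const _, ⟨0, 1, 0, one_pos, fun z _ => by simp⟩⟩

theorem Phi_zero (n : ℕ) (u v : ℂ) {z : ℂ} (hz : 0 < z.im) :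
    Phi (fun _ => (0 : ℂ)) n u v z = 0 := by
  have := Phi_const_mul Admissible.zero 0 n u v hz
  simpa using this

theorem Admissible.sum {ι : Type*} (s : Finset ι) (G : ι → ℂ → ℂ)
    (h : ∀ x ∈ s, Admissible (G x)) : Admissible (fun z => ∑ x ∈ s, G x z) := by
  classical
  induction s using Finset.induction_on with
  | empty => simpa using Admissible.zero
  | insert i t hi IH =>
    have h1 := h i (Finset.mem_insert_self i t)
    have h2 := IH fun j hj => h j (Finset.mem_insert_of_mem hj)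
    have e : (fun z => ∑ x ∈ insert i t, G x z) = fun z => G i z + ∑ x ∈ t, G x z := by
      funext z; rw [Finset.sum_insert hi]
    rw [e]
    exact h1.add h2

theorem Phi_sum {ι : Type*} (s : Finset ι) (G : ι → ℂ → ℂ) (h : ∀ x ∈ s, Admissible (G x))
    (n : ℕ) (u v : ℂ) {z : ℂ} (hz : 0 < z.im) :
    Phi (fun z => ∑ x ∈ s, G x z) n u v z = ∑ x ∈ s, Phi (G x) n u v z := by
  classical
  induction s using Finset.induction_on with
  | empty => simpa using Phi_zero n u v hz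
  | insert i t hi IH =>
    have h1 := h i (Finset.mem_insert_self i t)
    have h2 : ∀ j ∈ t, Admissible (G j) := fun j hj => h j (Finset.mem_insert_of_mem hj)
    have e : (fun z => ∑ x ∈ insert i t, G x z) = fun z => G i z + ∑ x ∈ t, G x z := by
      funext z; rw [Finset.sum_insert hi]
    rw [e, Phi_add h1 (Admissible.sum t G h2) n u v hz, IH h2, Finset.sum_insert hi]

section CuspForms

variable {N : ℕ} {k : ℤ}

/-- The period of `T f` for an operator `T = ∑ₓ ∣ Mₓ` given by upper triangular matrices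
permuted by `Γ₀(N)`. -/
theorem psi_hecke_sum {n : ℕ} (hk : k = n + 2)
    {ι : Type*} [Fintype ι] (M : ι → GL (Fin 2) ℝ) (a b d : ι → ℝ)
    (hM : ∀ x, IsUT (M x) (a x) (b x) (d x))
    (f Tf : CuspForm (Gamma0 N) k) (hT : (⇑Tf : ℍ → ℂ) = ∑ x, (⇑f ∣[k] M x))
    {γ : SL(2, ℤ)} (hγ : γ ∈ Gamma0 N) (σ : Equiv.Perm ι) (γ' : ι → SL(2, ℤ))
    (hγ' : ∀ x, γ' x ∈ Gamma0 N)
    (hmul : ∀ x, M x * Matrix.SpecialLinearGroup.mapGL ℝ γ
      = Matrix.SpecialLinearGroup.mapGL ℝ (γ' x) * M (σ x))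
    (u v : ℂ) :
    psi Tf γ u v = ∑ x, psi f (γ' x) (u * d x) (v * a x - u * b x) := by
  have hn : (k - 2).toNat = n := by rw [hk]; simp
  have hk2 : (2 : ℤ) ≤ k := by rw [hk]; omega
  have hI : (0 : ℝ) < Complex.I.im := by simp
  set G : ι → ℂ → ℂ := fun x => (⇑f ∣[k] M x) ∘ ofComplex with hG
  have hGadm : ∀ x, Admissible (G x) :=
    fun x => (Phi_slash_UT (hM x) hk ⇑f (admissible_gf f)).1
  have hsumadm : Admissible (fun z => ∑ x, G x z) := Admissible.sum _ _ (fun x _ => hGadm x)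
  have hcongr : ∀ z : ℂ, 0 < z.im → gf Tf z = ∑ x, G x z := by
    intro z hz
    simp only [gf, Function.comp_apply, hT, hG, Finset.sum_apply]
  have hPhi : ∀ (u v : ℂ) {z : ℂ}, 0 < z.im →
      Phi (gf Tf) n u v z = ∑ x, Phi (G x) n u v z := by
    intro u v z hz
    rw [Phi_congr hsumadm (admissible_gf Tf) hcongr n u v hz,
      Phi_sum _ _ (fun x _ => hGadm x) n u v hz]
  have hspec := psi_spec Tf (admissible_gf Tf) hk2 hγ u v hI
  rw [hn] at hspec
  have h0 : psi Tf γ u v = Phi (gf Tf) n u v (mob γ Complex.I)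
      - Phi (gf Tf) n (u * γ 0 0 + v * γ 1 0) (u * γ 0 1 + v * γ 1 1) Complex.I := by
    rw [hspec]; ring
  rw [h0, hPhi u v (mob_im_pos γ hI), hPhi _ _ hI,
    ← Equiv.sum_comp σ (fun x => Phi (G x) n (u * γ 0 0 + v * γ 1 0) (u * γ 0 1 + v * γ 1 1)
      Complex.I), ← Finset.sum_sub_distrib]
  refine Finset.sum_congr rfl fun x _ => ?_
  exact Phi_slash_UT_mob hk f (admissible_gf f) (hM x) (hM (σ x)) (hγ' x) (hmul x) u v hI

/-- Abstract Hecke stability of the period lattice. -/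
theorem periodLattice_comp_of_sum [NeZero N] {n : ℕ} (hk : k = n + 2)
    {ι : Type*} [Fintype ι] (M : ι → GL (Fin 2) ℝ) (a b d : ι → ℤ)
    (hM : ∀ x, IsUT (M x) (a x) (b x) (d x))
    (T : Module.End ℂ (CuspForm (Gamma0 N) k))
    (hT : ∀ f, (⇑(T f) : ℍ → ℂ) = ∑ x, (⇑f ∣[k] M x))
    (hcoset : ∀ γ ∈ Gamma0 N, ∃ (σ : Equiv.Perm ι) (γ' : ι → SL(2, ℤ)),
      (∀ x, γ' x ∈ Gamma0 N) ∧ ∀ x, M x * Matrix.SpecialLinearGroup.mapGL ℝ γ
        = Matrix.SpecialLinearGroup.mapGL ℝ (γ' x) * M (σ x))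
    (φ : Module.Dual ℂ (CuspForm (Gamma0 N) k)) (hφ : φ ∈ periodLattice N k) :
    φ ∘ₗ T ∈ periodLattice N k := by
  induction hφ using Submodule.span_induction with
  | mem φ hφ =>
    obtain ⟨γ, hγ, u, v, hφ⟩ := hφ
    obtain ⟨σ, γ', hγ', hmul⟩ := hcoset γ hγ
    have key : φ ∘ₗ T = ∑ x, psiL N k (γ' x) ((u * d x : ℤ) : ℂ)
        ((v * a x - u * b x : ℤ) : ℂ) := by
      ext f
      rw [LinearMap.comp_apply, hφ, LinearMap.sum_apply,
        psi_hecke_sum hk M (fun x => (a x : ℝ)) (fun x => (b x : ℝ)) (fun x => (d x : ℝ))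
          hM f (T f) (hT f) hγ σ γ' hγ' hmul]
      refine Finset.sum_congr rfl fun x _ => ?_
      rw [psiL_apply]
      push_cast
      rfl
    rw [key]
    exact Submodule.sum_mem _ fun x _ => psiL_mem (hγ' x) _ _
  | zero => simp
  | add φ₁ φ₂ _ _ h₁ h₂ =>
    rw [LinearMap.add_comp]; exact Submodule.add_mem _ h₁ h₂
  | smul m φ _ h =>
    have e : (m • φ) ∘ₗ T = m • (φ ∘ₗ T) := by
      ext f; simp
    rw [e]; exact Submodule.smul_mem _ m h

open P2MW.S_ModularForm_heckeT_slash_eq_self_of_mem_Gamma0.ModularForm.HeckeSlashInvariance in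
/-- **Hecke stability of the period lattice, `T_p` for `p ∤ N`.** -/
theorem periodLattice_heckeT [NeZero N] (hk : 2 ≤ k) {p : ℕ} (hp : p.Prime)
    (hpN : ¬ p ∣ N) (φ : Module.Dual ℂ (CuspForm (Gamma0 N) k)) (hφ : φ ∈ periodLattice N k) :
    φ ∘ₗ CuspForm.heckeTLin k hp hpN ∈ periodLattice N k := by
  obtain ⟨n, hn⟩ : ∃ n : ℕ, k = n + 2 := ⟨(k - 2).toNat, by omega⟩
  have : Fact p.Prime := ⟨hp⟩
  have : NeZero p := ⟨hp.ne_zero⟩
  have hp0 : (0 : ℝ) < p := by exact_mod_cast hp.pos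
  refine periodLattice_comp_of_sum hn (ι := OnePoint (ZMod p)) (heckeRep p)
    (fun x => x.elim (p : ℤ) (fun _ => 1)) (fun x => x.elim 0 (fun j => (j.val : ℤ)))
    (fun x => x.elim 1 (fun _ => (p : ℤ))) ?_ _ ?_ ?_ φ hφ
  · intro x
    induction x using OnePoint.rec with
    | infty =>
      refine ⟨by simpa using hp0, by simp, ?_⟩
      simp [val_heckeDiagMatrix hp.ne_zero]
    | coe j =>
      refine ⟨by simp, by simpa using hp0, ?_⟩
      simp [val_heckeMatrix hp.ne_zero]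
  · intro f
    rw [CuspForm.coe_heckeTLin_apply, heckeT_eq_sum_onePoint]
  · intro γ hγ
    have hγN : (N : ℤ) ∣ γ 1 0 :=
      (ZMod.intCast_zmod_eq_zero_iff_dvd _ _).mp (Gamma0_mem.mp hγ)
    choose γ' hγ'N hmul using heckeRep_mul hpN γ hγN
    exact ⟨MulAction.toPerm (redMatrix p γ), γ',
      fun x => Gamma0_mem.mpr ((ZMod.intCast_zmod_eq_zero_iff_dvd _ _).mpr (hγ'N x)), hmul⟩

open P2MW.S_ModularForm_heckeT_slash_eq_self_of_mem_Gamma0.ModularForm.HeckeSlashInvariance in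
/-- Hecke stability of the period lattice for `U_q`, `q ∣ N` (no primality needed). -/
theorem periodLattice_heckeU_of_dvd [NeZero N] (hk : 2 ≤ k) {q : ℕ} (hqN : q ∣ N)
    (φ : Module.Dual ℂ (CuspForm (Gamma0 N) k)) (hφ : φ ∈ periodLattice N k) :
    φ ∘ₗ CuspForm.heckeULin k hqN ∈ periodLattice N k := by
  obtain ⟨n, hn⟩ : ∃ n : ℕ, k = n + 2 := ⟨(k - 2).toNat, by omega⟩
  have hq0 : q ≠ 0 := by
    rintro rfl
    exact NeZero.ne N (Nat.eq_zero_of_zero_dvd hqN)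
  have : NeZero q := ⟨hq0⟩
  have hq0' : (0 : ℝ) < q := by exact_mod_cast Nat.pos_of_ne_zero hq0
  refine periodLattice_comp_of_sum hn (ι := ZMod q) (fun x => heckeMatrix q x.val)
    (fun _ => 1) (fun x => (x.val : ℤ)) (fun _ => (q : ℤ)) ?_ _ ?_ ?_ φ hφ
  · intro x
    refine ⟨by simp, by simpa using hq0', ?_⟩
    simp [val_heckeMatrix hq0]
  · intro f
    rw [CuspForm.coe_heckeULin_apply, heckeU_eq_sum_zmod]
  · intro γ hγ
    have hγN : (N : ℤ) ∣ γ 1 0 :=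
      (ZMod.intCast_zmod_eq_zero_iff_dvd _ _).mp (Gamma0_mem.mp hγ)
    have hc : (q : ℤ) ∣ γ 1 0 := (Int.natCast_dvd_natCast.mpr hqN).trans hγN
    choose γ' hγ'10 hmul using heckeMatrix_mul_of_dvd γ hc
    refine ⟨affinePerm γ ((ZMod.intCast_zmod_eq_zero_iff_dvd _ _).mpr hc), γ', fun x => ?_, hmul⟩
    rw [Gamma0_mem, hγ'10 x]
    push_cast
    rw [Gamma0_mem.mp hγ, mul_zero]

/-- **Hecke stability of the period lattice, `U_q` for `q ∣ N`.** -/
theorem periodLattice_heckeU [NeZero N] (hk : 2 ≤ k) {q : ℕ} (_hq : q.Prime) (hqN : q ∣ N)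
    (φ : Module.Dual ℂ (CuspForm (Gamma0 N) k)) (hφ : φ ∈ periodLattice N k) :
    φ ∘ₗ CuspForm.heckeULin k hqN ∈ periodLattice N k :=
  periodLattice_heckeU_of_dvd hk hqN φ hφ

/-- Hecke stability of the period lattice for all Hecke generators. -/
theorem periodLattice_comp_hecke [NeZero N] (hk : 2 ≤ k) (S : Set ℕ)
    (T : Module.End ℂ (CuspForm (Gamma0 N) k)) (hT : T ∈ CuspForm.heckeGenerators N k S)
    (φ : Module.Dual ℂ (CuspForm (Gamma0 N) k)) (hφ : φ ∈ periodLattice N k) :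
    φ ∘ₗ T ∈ periodLattice N k := by
  rcases hT with ⟨ℓ, hℓ, hℓN, -, rfl⟩ | ⟨q, hqN, -, -, rfl⟩
  · exact periodLattice_heckeT hk hℓ hℓN φ hφ
  · exact periodLattice_heckeU_of_dvd hk hqN φ hφ

end CuspForms

end Fermat.Agent.S22
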