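import Mathlib

/-!
# Primitives of holomorphic functions on the upper half plane, and decay on vertical strips

Pure complex analysis used for S22 (period functionals of cusp forms).
-/

set_option autoImplicit false

namespace Fermat.Agent.S22

open Complex Filter Topology Set Metric

/-- `G` is a primitive of `g` on the open upper half plane. -/
def IsPrimOn (G g : ℂ → ℂ) : Prop := ∀ z : ℂ, 0 < z.im → HasDerivAt G (g z) z

theorem isOpen_uh : IsOpen {z : ℂ | 0 < z.im} :=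
  isOpen_lt continuous_const Complex.continuous_im

theorem convex_uh : Convex ℝ {z : ℂ | 0 < z.im} := by
  intro x hx y hy a b ha hb hab
  have hx' : 0 < x.im := hx
  have hy' : 0 < y.im := hy
  show 0 < (a • x + b • y).im
  simp only [add_im, smul_im, smul_eq_mul]
  rcases eq_or_lt_of_le ha with rfl | ha'
  · have : b = 1 := by linarith
    subst this; simpa using hy'
  · have h1 : 0 < a * x.im := mul_pos ha' hx'
    have h2 : 0 ≤ b * y.im := mul_nonneg hb hy'.le
    linarith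

theorem mem_ball_mul_I_iff {z : ℂ} {R : ℝ} (hR : 0 < R) :
    z ∈ ball ((R : ℂ) * I) R ↔ z.re ^ 2 + z.im ^ 2 < 2 * R * z.im := by
  rw [mem_ball, Complex.dist_eq, ← sq_lt_sq₀ (norm_nonneg _) hR.le, Complex.sq_norm,
    Complex.normSq_apply]
  simp only [sub_re, mul_re, ofReal_re, I_re, mul_zero, ofReal_im, I_im, mul_one, sub_self,
    sub_zero, sub_im, mul_im, add_zero]
  constructor <;> intro h <;> nlinarith

theorem ball_mul_I_subset_uh {R : ℝ} (hR : 0 < R) :
    ball ((R : ℂ) * I) R ⊆ {z : ℂ | 0 < z.im} := by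
  intro z hz
  rw [mem_ball_mul_I_iff hR] at hz
  show 0 < z.im
  by_contra h
  push Not at h
  nlinarith [sq_nonneg z.re, sq_nonneg z.im]

theorem ball_mul_I_mono {R R' : ℝ} (hR : 0 < R) (h : R ≤ R') :
    ball ((R : ℂ) * I) R ⊆ ball ((R' : ℂ) * I) R' := by
  intro z hz
  have hz' := ball_mul_I_subset_uh hR hz
  rw [mem_ball_mul_I_iff hR] at hz
  rw [mem_ball_mul_I_iff (hR.trans_le h)]
  have : 0 < z.im := hz'
  nlinarith

/-- Every holomorphic function on the upper half plane has a primitive there. -/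
theorem exists_isPrimOn {g : ℂ → ℂ} (hg : DifferentiableOn ℂ g {z : ℂ | 0 < z.im}) :
    ∃ G, IsPrimOn G g := by
  classical
  -- primitives on the balls `B n = ball ((n+1) I) (n+1)`, normalised at `I`
  have hpos : ∀ n : ℕ, (0 : ℝ) < (n : ℝ) + 1 := fun n => by positivity
  have hI : ∀ n : ℕ, I ∈ ball ((((n : ℝ) + 1 : ℝ) : ℂ) * I) ((n : ℝ) + 1) := fun n => by
    rw [mem_ball_mul_I_iff (hpos n)]
    have : (0 : ℝ) ≤ n := Nat.cast_nonneg n
    simp only [I_re, I_im]
    nlinarith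
  have hex : ∀ n : ℕ, ∃ P : ℂ → ℂ, P I = 0 ∧
      ∀ z ∈ ball ((((n : ℝ) + 1 : ℝ) : ℂ) * I) ((n : ℝ) + 1), HasDerivAt P (g z) z := fun n =>
    (DifferentiableOn.isExactOn_ball (hg.mono (ball_mul_I_subset_uh (hpos n)))).with_val_at I 0
  choose P hPI hP using hex
  -- compatibility
  have hcompat : ∀ m n : ℕ, m ≤ n →
      ∀ z ∈ ball ((((m : ℝ) + 1 : ℝ) : ℂ) * I) ((m : ℝ) + 1), P m z = P n z := by
    intro m n hmn z hz
    have hsub : ball ((((m : ℝ) + 1 : ℝ) : ℂ) * I) ((m : ℝ) + 1) ⊆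
        ball ((((n : ℝ) + 1 : ℝ) : ℂ) * I) ((n : ℝ) + 1) :=
      ball_mul_I_mono (hpos m) (by exact_mod_cast Nat.succ_le_succ hmn)
    have hd : DifferentiableOn ℂ (fun w => P m w - P n w)
        (ball ((((m : ℝ) + 1 : ℝ) : ℂ) * I) ((m : ℝ) + 1)) := fun w hw =>
      ((hP m w hw).sub (hP n w (hsub hw))).differentiableAt.differentiableWithinAt
    have hz0 : ∀ w ∈ ball ((((m : ℝ) + 1 : ℝ) : ℂ) * I) ((m : ℝ) + 1),
        fderivWithin ℂ (fun w => P m w - P n w)
          (ball ((((m : ℝ) + 1 : ℝ) : ℂ) * I) ((m : ℝ) + 1)) w = 0 := by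
      intro w hw
      rw [fderivWithin_of_isOpen isOpen_ball hw]
      have key : HasDerivAt (fun w => P m w - P n w) (g w - g w) w :=
        (hP m w hw).sub (hP n w (hsub hw))
      rw [key.hasFDerivAt.fderiv]
      simp
    have := (convex_ball _ _).is_const_of_fderivWithin_eq_zero (𝕜 := ℂ) hd hz0 hz (hI m)
    simp only [hPI, sub_self] at this
    exact sub_eq_zero.mp this
  -- the index of a ball containing `z`
  let idx : ℂ → ℕ := fun z => ⌈(z.re ^ 2 + z.im ^ 2) / (2 * z.im)⌉₊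
  have hidx : ∀ z : ℂ, 0 < z.im →
      z ∈ ball ((((idx z : ℝ) + 1 : ℝ) : ℂ) * I) ((idx z : ℝ) + 1) := by
    intro z hz
    rw [mem_ball_mul_I_iff (hpos _)]
    have h1 : (z.re ^ 2 + z.im ^ 2) / (2 * z.im) ≤ (idx z : ℝ) := Nat.le_ceil _
    rw [div_le_iff₀ (by positivity)] at h1
    nlinarith
  refine ⟨fun z => P (idx z) z, fun z hz => ?_⟩
  have hnhds : ball ((((idx z : ℝ) + 1 : ℝ) : ℂ) * I) ((idx z : ℝ) + 1) ∈ 𝓝 z :=
    isOpen_ball.mem_nhds (hidx z hz)
  refine (hP (idx z) z (hidx z hz)).congr_of_eventuallyEq ?_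
  filter_upwards [hnhds] with w hw
  have hw' : 0 < w.im := ball_mul_I_subset_uh (hpos _) hw
  rcases le_total (idx w) (idx z) with h | h
  · exact hcompat _ _ h w (hidx w hw')
  · exact (hcompat _ _ h w hw).symm

/-- Two primitives of the same function differ by a constant on the upper half plane. -/
theorem IsPrimOn.exists_eq_add_const {G₁ G₂ g : ℂ → ℂ} (h₁ : IsPrimOn G₁ g) (h₂ : IsPrimOn G₂ g) :
    ∃ c : ℂ, ∀ z : ℂ, 0 < z.im → G₁ z = G₂ z + c := by
  refine ⟨G₁ I - G₂ I, fun z hz => ?_⟩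
  have hd : DifferentiableOn ℂ (fun w => G₁ w - G₂ w) {z : ℂ | 0 < z.im} := fun w hw =>
    ((h₁ w hw).sub (h₂ w hw)).differentiableAt.differentiableWithinAt
  have hz0 : ∀ w ∈ {z : ℂ | 0 < z.im},
      fderivWithin ℂ (fun w => G₁ w - G₂ w) {z : ℂ | 0 < z.im} w = 0 := by
    intro w hw
    rw [fderivWithin_of_isOpen isOpen_uh hw]
    have key : HasDerivAt (fun w => G₁ w - G₂ w) (g w - g w) w := (h₁ w hw).sub (h₂ w hw)
    rw [key.hasFDerivAt.fderiv]
    simp
  have hIm : I ∈ {z : ℂ | 0 < z.im} := by simp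
  have := convex_uh.is_const_of_fderivWithin_eq_zero (𝕜 := ℂ) hd hz0 (show z ∈ _ from hz) hIm
  have this' : G₁ z - G₂ z = G₁ I - G₂ I := this
  linear_combination this'

/-! ### Decay on vertical strips -/

/-- Exponential decay on every vertical strip of bounded width, as `Im z → ∞`. -/
def StripDecay (g : ℂ → ℂ) : Prop :=
  ∀ X : ℝ, ∃ C c A : ℝ, 0 ≤ C ∧ 0 < c ∧ 0 < A ∧ ∀ z : ℂ, |z.re| ≤ X → A ≤ z.im →
    ‖g z‖ ≤ C * Real.exp (-c * z.im)

theorem hasDerivAt_vert {E g : ℂ → ℂ} (hE : IsPrimOn E g) (x : ℝ) {t : ℝ} (ht : 0 < t) :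
    HasDerivAt (fun t : ℝ => E ((x : ℂ) + (t : ℂ) * I)) (I * g ((x : ℂ) + (t : ℂ) * I)) t := by
  have hz : 0 < ((x : ℂ) + (t : ℂ) * I).im := by simpa using ht
  have hin : HasDerivAt (fun t : ℝ => (x : ℂ) + (t : ℂ) * I) I t := by
    have h1 : HasDerivAt (fun t : ℝ => (t : ℂ)) 1 t := Complex.ofRealCLM.hasDerivAt
    simpa using (h1.mul_const I).const_add (x : ℂ)
  have := HasDerivAt.scomp t (hE _ hz) hin
  simpa [Function.comp_def, smul_eq_mul] using this

theorem hasDerivAt_horiz {E g : ℂ → ℂ} (hE : IsPrimOn E g) (s : ℝ) {y : ℝ} (hy : 0 < y) :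
    HasDerivAt (fun s : ℝ => E ((s : ℂ) + (y : ℂ) * I)) (g ((s : ℂ) + (y : ℂ) * I)) s := by
  have hz : 0 < ((s : ℂ) + (y : ℂ) * I).im := by simpa using hy
  have hin : HasDerivAt (fun s : ℝ => (s : ℂ) + (y : ℂ) * I) 1 s := by
    have h1 : HasDerivAt (fun t : ℝ => (t : ℂ)) 1 s := Complex.ofRealCLM.hasDerivAt
    simpa using h1.add_const ((y : ℂ) * I)
  have := HasDerivAt.scomp s (hE _ hz) hin
  simpa [Function.comp_def, smul_eq_mul] using this

/-- Vertical estimate for a primitive of an exponentially decaying function. -/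
theorem vert_bound {E g : ℂ → ℂ} (hE : IsPrimOn E g) {C c A x : ℝ} (hc : 0 < c) (hA : 0 < A)
    (hb : ∀ y : ℝ, A ≤ y → ‖g ((x : ℂ) + (y : ℂ) * I)‖ ≤ C * Real.exp (-c * y))
    {y₁ y₂ : ℝ} (h1 : A ≤ y₁) (h12 : y₁ ≤ y₂) :
    ‖E ((x : ℂ) + (y₂ : ℂ) * I) - E ((x : ℂ) + (y₁ : ℂ) * I)‖ ≤
      C / c * (Real.exp (-c * y₁) - Real.exp (-c * y₂)) := by
  have key := image_norm_le_of_norm_deriv_right_le_deriv_boundary'
    (f := fun t : ℝ => E ((x : ℂ) + (t : ℂ) * I) - E ((x : ℂ) + (y₁ : ℂ) * I))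
    (f' := fun t : ℝ => I * g ((x : ℂ) + (t : ℂ) * I))
    (a := y₁) (b := y₂)
    (B := fun t : ℝ => C / c * (Real.exp (-c * y₁) - Real.exp (-c * t)))
    (B' := fun t : ℝ => C * Real.exp (-c * t)) ?_ ?_ ?_ ?_ ?_ ?_ (right_mem_Icc.mpr h12)
  · simpa using key
  · intro t ht
    have ht0 : 0 < t := lt_of_lt_of_le hA (h1.trans ht.1)
    exact ((hasDerivAt_vert hE x ht0).sub_const _).continuousAt.continuousWithinAt
  · intro t ht
    have ht0 : 0 < t := lt_of_lt_of_le hA (h1.trans ht.1)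
    exact ((hasDerivAt_vert hE x ht0).sub_const _).hasDerivWithinAt
  · simp
  · fun_prop
  · intro t _
    have h1 : HasDerivAt (fun t : ℝ => Real.exp (-c * t)) (Real.exp (-c * t) * (-c)) t := by
      have := ((hasDerivAt_id t).const_mul (-c)).exp
      simpa using this
    have h2 := (h1.const_sub (Real.exp (-c * y₁))).const_mul (C / c)
    have h3 : C / c * -(Real.exp (-c * t) * -c) = C * Real.exp (-c * t) := by
      field_simp
    rw [h3] at h2
    exact h2.hasDerivWithinAt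
  · intro t ht
    simp only [norm_mul, norm_I, one_mul]
    exact hb t (h1.trans ht.1)

/-- A primitive of an exponentially decaying function converges along a vertical line,
with exponential rate. -/
theorem exists_vert_limit {E g : ℂ → ℂ} (hE : IsPrimOn E g) {C c A x : ℝ} (hC : 0 ≤ C)
    (hc : 0 < c) (hA : 0 < A)
    (hb : ∀ y : ℝ, A ≤ y → ‖g ((x : ℂ) + (y : ℂ) * I)‖ ≤ C * Real.exp (-c * y)) :
    ∃ μ : ℂ, ∀ y : ℝ, A ≤ y → ‖E ((x : ℂ) + (y : ℂ) * I) - μ‖ ≤ C / c * Real.exp (-c * y) := by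
  have hCc : 0 ≤ C / c := div_nonneg hC hc.le
  let u : ℕ → ℂ := fun n => E ((x : ℂ) + ((A + n : ℝ) : ℂ) * I)
  have hu : CauchySeq u := by
    refine cauchySeq_of_le_geometric (Real.exp (-c)) (C / c * Real.exp (-c * A))
      (by rw [Real.exp_lt_one_iff]; linarith) fun n => ?_
    have h := vert_bound hE hc hA hb (y₁ := A + n) (y₂ := A + (n + 1 : ℕ))
      (by linarith [Nat.cast_nonneg (α := ℝ) n]) (by push_cast; linarith)
    rw [dist_comm, dist_eq_norm]
    refine h.trans ?_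
    have h2 : Real.exp (-c * (A + n)) = Real.exp (-c * A) * Real.exp (-c) ^ n := by
      rw [← Real.exp_nat_mul, ← Real.exp_add]; congr 1; ring
    have h3 : 0 ≤ Real.exp (-c * (A + (n + 1 : ℕ))) := (Real.exp_pos _).le
    calc C / c * (Real.exp (-c * (A + n)) - Real.exp (-c * (A + (n + 1 : ℕ))))
        ≤ C / c * Real.exp (-c * (A + n)) := by
          apply mul_le_mul_of_nonneg_left _ hCc; linarith
      _ = C / c * Real.exp (-c * A) * Real.exp (-c) ^ n := by rw [h2]; ring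
  obtain ⟨μ, hμ⟩ := cauchySeq_tendsto_of_complete hu
  refine ⟨μ, fun y hy => ?_⟩
  have hev : ∀ᶠ n : ℕ in atTop, ‖E ((x : ℂ) + (y : ℂ) * I) - u n‖ ≤ C / c * Real.exp (-c * y) := by
    obtain ⟨n₀, hn₀⟩ := exists_nat_ge (y - A)
    filter_upwards [eventually_ge_atTop n₀] with n hn
    have hn' : (n₀ : ℝ) ≤ n := by exact_mod_cast hn
    have h := vert_bound hE hc hA hb (y₁ := y) (y₂ := A + n) hy (by linarith)
    rw [norm_sub_rev]
    refine h.trans ?_
    have h3 : 0 ≤ Real.exp (-c * (A + n)) := (Real.exp_pos _).le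
    apply mul_le_mul_of_nonneg_left _ hCc; linarith
  have hlim : Tendsto (fun n => ‖E ((x : ℂ) + (y : ℂ) * I) - u n‖) atTop
      (𝓝 ‖E ((x : ℂ) + (y : ℂ) * I) - μ‖) :=
    (tendsto_const_nhds.sub hμ).norm
  exact le_of_tendsto hlim hev

theorem tendsto_of_exp_bound {F : ℝ → ℂ} {μ : ℂ} {K c A : ℝ} (hc : 0 < c)
    (h : ∀ y : ℝ, A ≤ y → ‖F y - μ‖ ≤ K * Real.exp (-c * y)) : Tendsto F atTop (𝓝 μ) := by
  rw [tendsto_iff_norm_sub_tendsto_zero]
  have h0 : Tendsto (fun y : ℝ => K * Real.exp (-c * y)) atTop (𝓝 0) := by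
    have : Tendsto (fun y : ℝ => Real.exp (-c * y)) atTop (𝓝 0) := by
      apply Real.tendsto_exp_atBot.comp
      exact tendsto_id.const_mul_atTop_of_neg (by linarith)
    simpa using this.const_mul K
  refine squeeze_zero' (Eventually.of_forall fun _ => norm_nonneg _) ?_ h0
  filter_upwards [eventually_ge_atTop A] with y hy using h y hy

/-- **Decay lemma.** A primitive (on the upper half plane) of a function that decays
exponentially on vertical strips is a constant plus a function that decays exponentially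
on vertical strips. -/
theorem IsPrimOn.exists_sub_stripDecay {E g : ℂ → ℂ} (hE : IsPrimOn E g) (hg : StripDecay g) :
    ∃ μ : ℂ, StripDecay (fun z => E z - μ) := by
  -- the limit along the imaginary axis
  obtain ⟨C₀, c₀, A₀, hC₀, hc₀, hA₀, hb₀⟩ := hg 0
  obtain ⟨μ, hμ⟩ := exists_vert_limit hE (x := 0) hC₀ hc₀ hA₀ (fun y hy => by
    have := hb₀ ((0 : ℝ) + (y : ℂ) * I) (by simp) (by simpa using hy)
    simpa using this)
  have hμ' : Tendsto (fun y : ℝ => E (((0 : ℝ) : ℂ) + (y : ℂ) * I)) atTop (𝓝 μ) :=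
    tendsto_of_exp_bound hc₀ hμ
  refine ⟨μ, fun X => ?_⟩
  obtain ⟨C, c, A, hC, hc, hA, hb⟩ := hg (max X 0)
  refine ⟨C / c, c, A, div_nonneg hC hc.le, hc, hA, fun z hzX hzA => ?_⟩
  have hx : |z.re| ≤ max X 0 := hzX.trans (le_max_left _ _)
  have hbx : ∀ x : ℝ, |x| ≤ max X 0 → ∀ y : ℝ, A ≤ y →
      ‖g ((x : ℂ) + (y : ℂ) * I)‖ ≤ C * Real.exp (-c * y) := fun x hx y hy => by
    have := hb ((x : ℂ) + (y : ℂ) * I) (by simpa using hx) (by simpa using hy)
    simpa using this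
  obtain ⟨μ₁, hμ₁⟩ := exists_vert_limit hE (x := z.re) hC hc hA (hbx z.re hx)
  have h1 : Tendsto (fun y : ℝ => E ((z.re : ℂ) + (y : ℂ) * I)) atTop (𝓝 μ₁) :=
    tendsto_of_exp_bound hc hμ₁
  -- horizontal comparison
  have hdiff : Tendsto (fun y : ℝ => E ((z.re : ℂ) + (y : ℂ) * I) -
      E (((0 : ℝ) : ℂ) + (y : ℂ) * I)) atTop (𝓝 0) := by
    have hbd : ∀ y : ℝ, A ≤ y → ‖(E ((z.re : ℂ) + (y : ℂ) * I) -
        E (((0 : ℝ) : ℂ) + (y : ℂ) * I)) - 0‖ ≤ (C * |z.re|) * Real.exp (-c * y) := by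
      intro y hy
      have hy0 : 0 < y := lt_of_lt_of_le hA hy
      rw [sub_zero]
      have hmv : ∀ a b : ℝ, a ≤ b → |a| ≤ max X 0 → |b| ≤ max X 0 →
          ‖E ((b : ℂ) + (y : ℂ) * I) - E ((a : ℂ) + (y : ℂ) * I)‖ ≤
            C * Real.exp (-c * y) * (b - a) := by
        intro a b hab ha hb'
        refine norm_image_sub_le_of_norm_deriv_le_segment'
          (f := fun s : ℝ => E ((s : ℂ) + (y : ℂ) * I))
          (f' := fun s : ℝ => g ((s : ℂ) + (y : ℂ) * I)) (fun s _ =>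
            (hasDerivAt_horiz hE s hy0).hasDerivWithinAt) (fun s hs => ?_) b
              (right_mem_Icc.mpr hab)
        refine hbx s ?_ y hy
        rw [abs_le] at ha hb' ⊢
        exact ⟨by linarith [hs.1], by linarith [hs.2]⟩
      rcases le_total 0 z.re with h0 | h0
      · have := hmv 0 z.re h0 (by simp) hx
        rw [abs_of_nonneg h0]
        calc _ ≤ C * Real.exp (-c * y) * (z.re - 0) := this
          _ = C * z.re * Real.exp (-c * y) := by ring
      · have := hmv z.re 0 h0 hx (by simp)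
        rw [abs_of_nonpos h0, norm_sub_rev]
        calc _ ≤ C * Real.exp (-c * y) * (0 - z.re) := this
          _ = C * -z.re * Real.exp (-c * y) := by ring
    exact tendsto_of_exp_bound hc hbd
  have hμeq : μ₁ = μ := by
    have h2 := h1.sub hμ'
    have := tendsto_nhds_unique h2 hdiff
    exact sub_eq_zero.mp this
  have hz : z = (z.re : ℂ) + (z.im : ℂ) * I := (Complex.re_add_im z).symm
  have := hμ₁ z.im hzA
  rw [hμeq, ← hz] at this
  exact this

/-- A function decaying on strips tends to `0` along every vertical line. -/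
theorem StripDecay.tendsto_vert {g : ℂ → ℂ} (hg : StripDecay g) (x : ℝ) :
    Tendsto (fun y : ℝ => g ((x : ℂ) + (y : ℂ) * I)) atTop (𝓝 0) := by
  obtain ⟨C, c, A, -, hc, -, hb⟩ := hg |x|
  refine tendsto_of_exp_bound (K := C) (A := A) hc fun y hy => ?_
  have := hb ((x : ℂ) + (y : ℂ) * I) (by simp) (by simpa using hy)
  simpa using this

/-- Existence of the primitive normalised at `i∞`. -/
theorem exists_isPrimOn_stripDecay {g : ℂ → ℂ} (hg : DifferentiableOn ℂ g {z : ℂ | 0 < z.im})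
    (hd : StripDecay g) : ∃ G, IsPrimOn G g ∧ StripDecay G := by
  obtain ⟨G₀, hG₀⟩ := exists_isPrimOn hg
  obtain ⟨μ, hμ⟩ := hG₀.exists_sub_stripDecay hd
  exact ⟨fun z => G₀ z - μ, fun z hz => (hG₀ z hz).sub_const μ, hμ⟩

/-- Uniqueness of the primitive normalised at `i∞`. -/
theorem IsPrimOn.eq_of_stripDecay {G₁ G₂ g : ℂ → ℂ} (h₁ : IsPrimOn G₁ g) (h₂ : IsPrimOn G₂ g)
    (d₁ : StripDecay G₁) (d₂ : StripDecay G₂) {z : ℂ} (hz : 0 < z.im) : G₁ z = G₂ z := by
  obtain ⟨c, hc⟩ := h₁.exists_eq_add_const h₂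
  have hc0 : c = 0 := by
    have ht : Tendsto (fun y : ℝ => G₁ (((0 : ℝ) : ℂ) + (y : ℂ) * I) -
        G₂ (((0 : ℝ) : ℂ) + (y : ℂ) * I)) atTop (𝓝 (0 - 0)) :=
      (d₁.tendsto_vert 0).sub (d₂.tendsto_vert 0)
    have ht' : Tendsto (fun y : ℝ => G₁ (((0 : ℝ) : ℂ) + (y : ℂ) * I) -
        G₂ (((0 : ℝ) : ℂ) + (y : ℂ) * I)) atTop (𝓝 c) := by
      refine tendsto_const_nhds.congr' ?_
      filter_upwards [eventually_gt_atTop 0] with y hy
      have := hc (((0 : ℝ) : ℂ) + (y : ℂ) * I) (by simpa using hy)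
      rw [this]; ring
    simpa using tendsto_nhds_unique ht' ht
  rw [hc z hz, hc0, add_zero]

/-! ### Closure properties of `StripDecay` -/

theorem StripDecay.congr {g h : ℂ → ℂ} (hg : StripDecay g)
    (hgh : ∀ z : ℂ, 0 < z.im → h z = g z) : StripDecay h := by
  intro X
  obtain ⟨C, c, A, hC, hc, hA, hb⟩ := hg X
  exact ⟨C, c, A, hC, hc, hA, fun z hzX hzA => by
    rw [hgh z (lt_of_lt_of_le hA hzA)]; exact hb z hzX hzA⟩

theorem stripDecay_zero : StripDecay (fun _ => (0 : ℂ)) := fun _ =>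
  ⟨0, 1, 1, le_rfl, one_pos, one_pos, fun _ _ _ => by simp⟩

theorem StripDecay.add {g h : ℂ → ℂ} (hg : StripDecay g) (hh : StripDecay h) :
    StripDecay (fun z => g z + h z) := by
  intro X
  obtain ⟨C₁, c₁, A₁, hC₁, hc₁, hA₁, hb₁⟩ := hg X
  obtain ⟨C₂, c₂, A₂, hC₂, hc₂, hA₂, hb₂⟩ := hh X
  refine ⟨C₁ + C₂, min c₁ c₂, max A₁ A₂, add_nonneg hC₁ hC₂, lt_min hc₁ hc₂,
    lt_max_of_lt_left hA₁, fun z hzX hzA => ?_⟩
  have hy : 0 < z.im := lt_of_lt_of_le (lt_max_of_lt_left hA₁) hzA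
  have h1 := hb₁ z hzX ((le_max_left _ _).trans hzA)
  have h2 := hb₂ z hzX ((le_max_right _ _).trans hzA)
  have e1 : Real.exp (-c₁ * z.im) ≤ Real.exp (-min c₁ c₂ * z.im) := by
    apply Real.exp_le_exp.mpr
    have : min c₁ c₂ ≤ c₁ := min_le_left _ _
    nlinarith
  have e2 : Real.exp (-c₂ * z.im) ≤ Real.exp (-min c₁ c₂ * z.im) := by
    apply Real.exp_le_exp.mpr
    have : min c₁ c₂ ≤ c₂ := min_le_right _ _
    nlinarith
  calc ‖g z + h z‖ ≤ ‖g z‖ + ‖h z‖ := norm_add_le _ _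
    _ ≤ C₁ * Real.exp (-c₁ * z.im) + C₂ * Real.exp (-c₂ * z.im) := add_le_add h1 h2
    _ ≤ C₁ * Real.exp (-min c₁ c₂ * z.im) + C₂ * Real.exp (-min c₁ c₂ * z.im) :=
        add_le_add (mul_le_mul_of_nonneg_left e1 hC₁) (mul_le_mul_of_nonneg_left e2 hC₂)
    _ = (C₁ + C₂) * Real.exp (-min c₁ c₂ * z.im) := by ring

theorem StripDecay.const_mul {g : ℂ → ℂ} (hg : StripDecay g) (a : ℂ) :
    StripDecay (fun z => a * g z) := by
  intro X
  obtain ⟨C, c, A, hC, hc, hA, hb⟩ := hg X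
  refine ⟨‖a‖ * C, c, A, mul_nonneg (norm_nonneg _) hC, hc, hA, fun z hzX hzA => ?_⟩
  rw [norm_mul, mul_assoc]
  exact mul_le_mul_of_nonneg_left (hb z hzX hzA) (norm_nonneg _)

theorem StripDecay.neg {g : ℂ → ℂ} (hg : StripDecay g) : StripDecay (fun z => -g z) := by
  simpa using hg.const_mul (-1)

theorem StripDecay.sub {g h : ℂ → ℂ} (hg : StripDecay g) (hh : StripDecay h) :
    StripDecay (fun z => g z - h z) := by
  simpa [sub_eq_add_neg] using hg.add hh.neg

theorem StripDecay.sum {ι : Type*} (s : Finset ι) {g : ι → ℂ → ℂ}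
    (hg : ∀ i ∈ s, StripDecay (g i)) : StripDecay (fun z => ∑ i ∈ s, g i z) := by
  classical
  induction s using Finset.induction_on with
  | empty => simpa using stripDecay_zero
  | insert i t hi IH =>
    have h1 := hg i (Finset.mem_insert_self i t)
    have h2 := IH fun j hj => hg j (Finset.mem_insert_of_mem hj)
    simpa [Finset.sum_insert hi] using h1.add h2

theorem StripDecay.id_mul {g : ℂ → ℂ} (hg : StripDecay g) : StripDecay (fun z => z * g z) := by
  intro X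
  obtain ⟨C, c, A, hC, hc, hA, hb⟩ := hg X
  refine ⟨(|X| + 2 / c) * C, c / 2, A, mul_nonneg (by positivity) hC, by positivity, hA,
    fun z hzX hzA => ?_⟩
  have hy : 0 < z.im := lt_of_lt_of_le hA hzA
  have hz : ‖z‖ ≤ |X| + z.im := by
    calc ‖z‖ ≤ |z.re| + |z.im| := Complex.norm_le_abs_re_add_abs_im z
      _ ≤ |X| + z.im := by
        rw [abs_of_pos hy]
        have : X ≤ |X| := le_abs_self X
        linarith
  have he : |X| + z.im ≤ (|X| + 2 / c) * Real.exp (c / 2 * z.im) := by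
    have h1 : c / 2 * z.im + 1 ≤ Real.exp (c / 2 * z.im) := Real.add_one_le_exp _
    have h2 : (1 : ℝ) ≤ Real.exp (c / 2 * z.im) := by
      have : 0 ≤ c / 2 * z.im := by positivity
      linarith
    have h3 : z.im ≤ 2 / c * Real.exp (c / 2 * z.im) := by
      have : z.im = 2 / c * (c / 2 * z.im) := by field_simp
      calc z.im = 2 / c * (c / 2 * z.im) := this
        _ ≤ 2 / c * Real.exp (c / 2 * z.im) := by
          apply mul_le_mul_of_nonneg_left _ (by positivity); linarith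
    have h4 : |X| ≤ |X| * Real.exp (c / 2 * z.im) := le_mul_of_one_le_right (abs_nonneg X) h2
    linarith
  have hexp : Real.exp (c / 2 * z.im) * Real.exp (-c * z.im) = Real.exp (-(c / 2) * z.im) := by
    rw [← Real.exp_add]; congr 1; ring
  calc ‖z * g z‖ = ‖z‖ * ‖g z‖ := norm_mul _ _
    _ ≤ (|X| + z.im) * (C * Real.exp (-c * z.im)) :=
        mul_le_mul hz (hb z hzX hzA) (norm_nonneg _) (by positivity)
    _ ≤ ((|X| + 2 / c) * Real.exp (c / 2 * z.im)) * (C * Real.exp (-c * z.im)) :=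
        mul_le_mul_of_nonneg_right he (mul_nonneg hC (Real.exp_pos _).le)
    _ = (|X| + 2 / c) * C * Real.exp (-(c / 2) * z.im) := by rw [← hexp]; ring

theorem StripDecay.pow_mul {g : ℂ → ℂ} (hg : StripDecay g) (m : ℕ) :
    StripDecay (fun z => z ^ m * g z) := by
  induction m with
  | zero => simpa using hg
  | succ m IH =>
    refine IH.id_mul.congr fun z _ => ?_
    ring

/-- A uniform exponential bound for large imaginary part gives decay on strips. -/
theorem stripDecay_of_exp_bound {g : ℂ → ℂ} {C c A : ℝ} (hc : 0 < c)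
    (hb : ∀ z : ℂ, A ≤ z.im → ‖g z‖ ≤ C * Real.exp (-c * z.im)) : StripDecay g := fun _ =>
  ⟨max C 0, c, max A 1, le_max_right _ _, hc, lt_max_of_lt_right one_pos, fun z _ hzA =>
    (hb z ((le_max_left _ _).trans hzA)).trans
      (mul_le_mul_of_nonneg_right (le_max_left _ _) (Real.exp_pos _).le)⟩

/-- Decay on strips is preserved by `z ↦ (z + j) / p`. -/
theorem StripDecay.comp_add_div {g : ℂ → ℂ} (hg : StripDecay g) (j : ℝ) {p : ℝ} (hp : 0 < p) :
    StripDecay (fun z => g ((z + (j : ℂ)) / (p : ℂ))) := by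
  intro X
  obtain ⟨C, c, A, hC, hc, hA, hb⟩ := hg ((|X| + |j|) / p)
  refine ⟨C, c / p, A * p, hC, by positivity, by positivity, fun z hzX hzA => ?_⟩
  have hre : ((z + (j : ℂ)) / (p : ℂ)).re = (z.re + j) / p := by
    rw [Complex.div_ofReal_re]; simp
  have him : ((z + (j : ℂ)) / (p : ℂ)).im = z.im / p := by
    rw [Complex.div_ofReal_im]; simp
  have h := hb ((z + (j : ℂ)) / (p : ℂ)) (by
    rw [hre, abs_div, abs_of_pos hp]
    apply div_le_div_of_nonneg_right _ hp.le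
    calc |z.re + j| ≤ |z.re| + |j| := abs_add_le _ _
      _ ≤ |X| + |j| := by linarith [le_abs_self X]) (by
    rw [him, le_div_iff₀ hp]; exact hzA)
  rw [him] at h
  have : -c * (z.im / p) = -(c / p) * z.im := by field_simp
  rwa [this] at h

/-- Decay on strips is preserved by `z ↦ p * z`, `p ≥ 1`. -/
theorem StripDecay.comp_mul {g : ℂ → ℂ} (hg : StripDecay g) {p : ℝ} (hp : 1 ≤ p) :
    StripDecay (fun z => g ((p : ℂ) * z)) := by
  intro X
  have hp0 : 0 < p := lt_of_lt_of_le one_pos hp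
  obtain ⟨C, c, A, hC, hc, hA, hb⟩ := hg (p * |X|)
  refine ⟨C, c, A, hC, hc, hA, fun z hzX hzA => ?_⟩
  have hy : 0 < z.im := lt_of_lt_of_le hA hzA
  have hre : ((p : ℂ) * z).re = p * z.re := by simp
  have him : ((p : ℂ) * z).im = p * z.im := by simp
  have h := hb ((p : ℂ) * z) (by
    rw [hre, abs_mul, abs_of_pos hp0]
    exact mul_le_mul_of_nonneg_left (hzX.trans (le_abs_self X)) hp0.le) (by
    rw [him]; nlinarith)
  rw [him] at h
  refine h.trans (mul_le_mul_of_nonneg_left (Real.exp_le_exp.mpr ?_) hC)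
  have h1 : z.im ≤ p * z.im := le_mul_of_one_le_left hy.le hp
  have h2 : c * z.im ≤ c * (p * z.im) := mul_le_mul_of_nonneg_left h1 hc.le
  linarith

end Fermat.Agent.S22
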