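import Mathlib
import Fermat.Prelude.Def_CuspForm_HeckeAlgebra
import Fermat.Agent.S22.Prim

/-!
# S22: definitions of the period functionals and interface statements
-/

set_option autoImplicit false

namespace Fermat.Agent.S22

open Complex UpperHalfPlane ModularForm Filter Topology
open scoped MatrixGroups ModularForm

/-- Holomorphic on the upper half plane with a uniform exponential bound as `Im z → ∞`. -/
structure Admissible (g : ℂ → ℂ) : Prop where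
  diff : DifferentiableOn ℂ g {z : ℂ | 0 < z.im}
  decay : ∃ C c A : ℝ, 0 < c ∧ ∀ z : ℂ, A ≤ z.im → ‖g z‖ ≤ C * Real.exp (-c * z.im)

theorem Admissible.stripDecay {g : ℂ → ℂ} (hg : Admissible g) : StripDecay g := by
  obtain ⟨C, c, A, hc, hb⟩ := hg.decay
  exact stripDecay_of_exp_bound hc hb

theorem Admissible.diff_mul_pow {g : ℂ → ℂ} (hg : Admissible g) (m : ℕ) :
    DifferentiableOn ℂ (fun z => g z * z ^ m) {z : ℂ | 0 < z.im} :=
  hg.diff.mul (differentiable_id.pow m).differentiableOn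

theorem Admissible.stripDecay_mul_pow {g : ℂ → ℂ} (hg : Admissible g) (m : ℕ) :
    StripDecay (fun z => g z * z ^ m) :=
  (hg.stripDecay.pow_mul m).congr fun _ _ => mul_comm _ _

open Classical in
/-- The primitive of `g z * z ^ m` on the upper half plane that decays on vertical strips. -/
noncomputable def Gm (g : ℂ → ℂ) (m : ℕ) : ℂ → ℂ :=
  if hg : Admissible g then
    Classical.choose (exists_isPrimOn_stripDecay (hg.diff_mul_pow m) (hg.stripDecay_mul_pow m))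
  else 0

theorem Gm_isPrimOn {g : ℂ → ℂ} (hg : Admissible g) (m : ℕ) :
    IsPrimOn (Gm g m) (fun z => g z * z ^ m) := by
  rw [Gm, dif_pos hg]
  exact (Classical.choose_spec
    (exists_isPrimOn_stripDecay (hg.diff_mul_pow m) (hg.stripDecay_mul_pow m))).1

theorem Gm_stripDecay {g : ℂ → ℂ} (hg : Admissible g) (m : ℕ) : StripDecay (Gm g m) := by
  rw [Gm, dif_pos hg]
  exact (Classical.choose_spec
    (exists_isPrimOn_stripDecay (hg.diff_mul_pow m) (hg.stripDecay_mul_pow m))).2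

/-- `Phi g n u v` is the primitive of `g z * (u z + v) ^ n` normalised at `i∞`. -/
noncomputable def Phi (g : ℂ → ℂ) (n : ℕ) (u v : ℂ) (z : ℂ) : ℂ :=
  ∑ m ∈ Finset.range (n + 1), (n.choose m : ℂ) * u ^ m * v ^ (n - m) * Gm g m z

/-! ### Properties of `Gm` and `Phi` (module C) -/

theorem Gm_unique {g : ℂ → ℂ} (hg : Admissible g) (m : ℕ) {P : ℂ → ℂ}
    (hP : IsPrimOn P (fun z => g z * z ^ m)) (hd : StripDecay P) {z : ℂ} (hz : 0 < z.im) :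
    P z = Gm g m z :=
  hP.eq_of_stripDecay (Gm_isPrimOn hg m) hd (Gm_stripDecay hg m) hz

theorem Phi_isPrimOn {g : ℂ → ℂ} (hg : Admissible g) (n : ℕ) (u v : ℂ) :
    IsPrimOn (Phi g n u v) (fun z => g z * (u * z + v) ^ n) := by
  intro z hz
  have h1 : HasDerivAt (fun z => ∑ m ∈ Finset.range (n + 1),
      (n.choose m : ℂ) * u ^ m * v ^ (n - m) * Gm g m z)
      (∑ m ∈ Finset.range (n + 1), (n.choose m : ℂ) * u ^ m * v ^ (n - m) * (g z * z ^ m)) z :=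
    HasDerivAt.fun_sum fun m _ => (Gm_isPrimOn hg m z hz).const_mul _
  have h2 : (∑ m ∈ Finset.range (n + 1), (n.choose m : ℂ) * u ^ m * v ^ (n - m) * (g z * z ^ m))
      = g z * (u * z + v) ^ n := by
    rw [add_pow, Finset.mul_sum]
    refine Finset.sum_congr rfl fun m _ => ?_
    rw [mul_pow]; ring
  rw [h2] at h1
  exact h1

theorem Phi_stripDecay {g : ℂ → ℂ} (hg : Admissible g) (n : ℕ) (u v : ℂ) :
    StripDecay (Phi g n u v) :=
  StripDecay.sum _ fun m _ => (Gm_stripDecay hg m).const_mul _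

theorem Phi_unique {g : ℂ → ℂ} (hg : Admissible g) (n : ℕ) (u v : ℂ) {P : ℂ → ℂ}
    (hP : IsPrimOn P (fun z => g z * (u * z + v) ^ n)) (hd : StripDecay P) {z : ℂ}
    (hz : 0 < z.im) : P z = Phi g n u v z :=
  hP.eq_of_stripDecay (Phi_isPrimOn hg n u v) hd (Phi_stripDecay hg n u v) hz

theorem IsPrimOn.congr {G g g' : ℂ → ℂ} (h : IsPrimOn G g) (hgg : ∀ z : ℂ, 0 < z.im → g' z = g z) :
    IsPrimOn G g' := fun z hz => by rw [hgg z hz]; exact h z hz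

theorem Gm_congr {g g' : ℂ → ℂ} (hg : Admissible g) (hg' : Admissible g')
    (h : ∀ z : ℂ, 0 < z.im → g' z = g z) (m : ℕ) {z : ℂ} (hz : 0 < z.im) :
    Gm g' m z = Gm g m z :=
  Gm_unique hg m ((Gm_isPrimOn hg' m).congr fun w hw => by rw [h w hw]) (Gm_stripDecay hg' m) hz

theorem Phi_congr {g g' : ℂ → ℂ} (hg : Admissible g) (hg' : Admissible g')
    (h : ∀ z : ℂ, 0 < z.im → g' z = g z) (n : ℕ) (u v : ℂ) {z : ℂ} (hz : 0 < z.im) :
    Phi g' n u v z = Phi g n u v z := by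
  unfold Phi
  exact Finset.sum_congr rfl fun m _ => by rw [Gm_congr hg hg' h m hz]

theorem Admissible.add {g₁ g₂ : ℂ → ℂ} (h₁ : Admissible g₁) (h₂ : Admissible g₂) :
    Admissible (fun z => g₁ z + g₂ z) := by
  refine ⟨h₁.diff.add h₂.diff, ?_⟩
  obtain ⟨C₁, c₁, A₁, hc₁, hb₁⟩ := h₁.decay
  obtain ⟨C₂, c₂, A₂, hc₂, hb₂⟩ := h₂.decay
  refine ⟨max C₁ 0 + max C₂ 0, min c₁ c₂, max (max A₁ A₂) 0, lt_min hc₁ hc₂, fun z hz => ?_⟩
  have hy : 0 ≤ z.im := (le_max_right _ _).trans hz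
  have h1 := hb₁ z (((le_max_left _ _).trans (le_max_left _ _)).trans hz)
  have h2 := hb₂ z (((le_max_right _ _).trans (le_max_left _ _)).trans hz)
  have e1 : Real.exp (-c₁ * z.im) ≤ Real.exp (-min c₁ c₂ * z.im) := by
    apply Real.exp_le_exp.mpr
    have : min c₁ c₂ ≤ c₁ := min_le_left _ _
    nlinarith
  have e2 : Real.exp (-c₂ * z.im) ≤ Real.exp (-min c₁ c₂ * z.im) := by
    apply Real.exp_le_exp.mpr
    have : min c₁ c₂ ≤ c₂ := min_le_right _ _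
    nlinarith
  calc ‖g₁ z + g₂ z‖ ≤ ‖g₁ z‖ + ‖g₂ z‖ := norm_add_le _ _
    _ ≤ C₁ * Real.exp (-c₁ * z.im) + C₂ * Real.exp (-c₂ * z.im) := add_le_add h1 h2
    _ ≤ max C₁ 0 * Real.exp (-c₁ * z.im) + max C₂ 0 * Real.exp (-c₂ * z.im) :=
        add_le_add (mul_le_mul_of_nonneg_right (le_max_left _ _) (Real.exp_pos _).le)
          (mul_le_mul_of_nonneg_right (le_max_left _ _) (Real.exp_pos _).le)
    _ ≤ max C₁ 0 * Real.exp (-min c₁ c₂ * z.im) + max C₂ 0 * Real.exp (-min c₁ c₂ * z.im) :=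
        add_le_add (mul_le_mul_of_nonneg_left e1 (le_max_right _ _))
          (mul_le_mul_of_nonneg_left e2 (le_max_right _ _))
    _ = (max C₁ 0 + max C₂ 0) * Real.exp (-min c₁ c₂ * z.im) := by ring

theorem Admissible.const_mul {g : ℂ → ℂ} (hg : Admissible g) (a : ℂ) :
    Admissible (fun z => a * g z) := by
  refine ⟨hg.diff.const_mul a, ?_⟩
  obtain ⟨C, c, A, hc, hb⟩ := hg.decay
  refine ⟨‖a‖ * C, c, A, hc, fun z hz => ?_⟩
  rw [norm_mul, mul_assoc]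
  exact mul_le_mul_of_nonneg_left (hb z hz) (norm_nonneg _)

theorem Gm_add {g₁ g₂ : ℂ → ℂ} (h₁ : Admissible g₁) (h₂ : Admissible g₂) (m : ℕ) {z : ℂ}
    (hz : 0 < z.im) : Gm (fun z => g₁ z + g₂ z) m z = Gm g₁ m z + Gm g₂ m z := by
  refine (Gm_unique (h₁.add h₂) m (P := fun z => Gm g₁ m z + Gm g₂ m z) ?_
    ((Gm_stripDecay h₁ m).add (Gm_stripDecay h₂ m)) hz).symm
  intro w hw
  have := (Gm_isPrimOn h₁ m w hw).add (Gm_isPrimOn h₂ m w hw)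
  have e : (g₁ w + g₂ w) * w ^ m = g₁ w * w ^ m + g₂ w * w ^ m := by ring
  show HasDerivAt (fun z => Gm g₁ m z + Gm g₂ m z) ((g₁ w + g₂ w) * w ^ m) w
  rw [e]
  exact this

theorem Gm_const_mul {g : ℂ → ℂ} (hg : Admissible g) (a : ℂ) (m : ℕ) {z : ℂ}
    (hz : 0 < z.im) : Gm (fun z => a * g z) m z = a * Gm g m z := by
  refine (Gm_unique (hg.const_mul a) m (P := fun z => a * Gm g m z) ?_
    ((Gm_stripDecay hg m).const_mul a) hz).symm
  intro w hw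
  have := (Gm_isPrimOn hg m w hw).const_mul a
  have e : a * g w * w ^ m = a * (g w * w ^ m) := by ring
  show HasDerivAt (fun z => a * Gm g m z) (a * g w * w ^ m) w
  rw [e]
  exact this

theorem Phi_add {g₁ g₂ : ℂ → ℂ} (h₁ : Admissible g₁) (h₂ : Admissible g₂) (n : ℕ) (u v : ℂ)
    {z : ℂ} (hz : 0 < z.im) :
    Phi (fun z => g₁ z + g₂ z) n u v z = Phi g₁ n u v z + Phi g₂ n u v z := by
  unfold Phi
  rw [← Finset.sum_add_distrib]
  exact Finset.sum_congr rfl fun m _ => by rw [Gm_add h₁ h₂ m hz]; ring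

theorem Phi_const_mul {g : ℂ → ℂ} (hg : Admissible g) (a : ℂ) (n : ℕ) (u v : ℂ)
    {z : ℂ} (hz : 0 < z.im) : Phi (fun z => a * g z) n u v z = a * Phi g n u v z := by
  unfold Phi
  rw [Finset.mul_sum]
  exact Finset.sum_congr rfl fun m _ => by rw [Gm_const_mul hg a m hz]; ring

/-! ### Möbius action on `ℂ` -/

/-- The denominator `c z + d`. -/
def den (δ : SL(2, ℤ)) (z : ℂ) : ℂ := (δ 1 0 : ℂ) * z + (δ 1 1 : ℂ)

/-- The Möbius action `(a z + b) / (c z + d)` on `ℂ`. -/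
noncomputable def mob (δ : SL(2, ℤ)) (z : ℂ) : ℂ := ((δ 0 0 : ℂ) * z + (δ 0 1 : ℂ)) / den δ z

theorem det_eq_one (δ : SL(2, ℤ)) : δ 0 0 * δ 1 1 - δ 0 1 * δ 1 0 = 1 := by
  have := δ.det_coe
  rwa [Matrix.det_fin_two] at this

theorem det_eq_one' (δ : SL(2, ℤ)) : (δ 0 0 : ℂ) * δ 1 1 - (δ 0 1 : ℂ) * δ 1 0 = 1 := by
  have := det_eq_one δ
  exact_mod_cast this

theorem den_coe (δ : SL(2, ℤ)) (τ : ℍ) : den δ τ = denom δ τ := by
  simp [den, ModularGroup.denom_apply]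

theorem mob_coe (δ : SL(2, ℤ)) (τ : ℍ) : mob δ τ = ((δ • τ : ℍ) : ℂ) := by
  rw [UpperHalfPlane.coe_specialLinearGroup_apply]
  simp [mob, den]

theorem den_ne_zero (δ : SL(2, ℤ)) {z : ℂ} (hz : 0 < z.im) : den δ z ≠ 0 := by
  intro h
  have him : (den δ z).im = 0 := by rw [h]; rfl
  have hre : (den δ z).re = 0 := by rw [h]; rfl
  simp only [den, add_im, mul_im, intCast_re, intCast_im, zero_mul, add_zero, add_re, mul_re,
    sub_zero] at him hre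
  have hc : (δ 1 0 : ℝ) = 0 := by
    rcases mul_eq_zero.mp him with h | h
    · exact h
    · exact absurd h hz.ne'
  rw [hc] at hre
  simp only [zero_mul, zero_add] at hre
  have hc' : δ 1 0 = 0 := by exact_mod_cast hc
  have hd' : δ 1 1 = 0 := by exact_mod_cast hre
  have := det_eq_one δ
  rw [hc', hd'] at this
  simp at this

theorem mob_im_pos (δ : SL(2, ℤ)) {z : ℂ} (hz : 0 < z.im) : 0 < (mob δ z).im := by
  have := mob_coe δ ⟨z, hz⟩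
  have h2 : ((⟨z, hz⟩ : ℍ) : ℂ) = z := rfl
  rw [h2] at this
  rw [this]
  exact (δ • (⟨z, hz⟩ : ℍ)).im_pos

theorem hasDerivAt_den (δ : SL(2, ℤ)) (z : ℂ) : HasDerivAt (den δ) (δ 1 0 : ℂ) z := by
  have := ((hasDerivAt_id z).const_mul (δ 1 0 : ℂ)).add_const (δ 1 1 : ℂ)
  rw [mul_one] at this
  exact this

theorem hasDerivAt_mob (δ : SL(2, ℤ)) {z : ℂ} (hz : 0 < z.im) :
    HasDerivAt (mob δ) (1 / den δ z ^ 2) z := by
  have hd := den_ne_zero δ hz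
  have h1 : HasDerivAt (fun z : ℂ => (δ 0 0 : ℂ) * z + (δ 0 1 : ℂ)) (δ 0 0 : ℂ) z := by
    have := ((hasDerivAt_id z).const_mul (δ 0 0 : ℂ)).add_const (δ 0 1 : ℂ)
    rw [mul_one] at this
    exact this
  have h3 := h1.div (hasDerivAt_den δ z) hd
  have e : ((δ 0 0 : ℂ) * den δ z - ((δ 0 0 : ℂ) * z + (δ 0 1 : ℂ)) * (δ 1 0 : ℂ)) / den δ z ^ 2
      = 1 / den δ z ^ 2 := by
    congr 1
    have := det_eq_one' δ
    simp only [den]
    linear_combination this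
  rw [← e]
  exact h3

theorem mob_one (z : ℂ) : mob 1 z = z := by simp [mob, den]

theorem den_one (z : ℂ) : den 1 z = 1 := by simp [den]

theorem den_mul_aux (δ₁ δ₂ : SL(2, ℤ)) {z : ℂ} (hz : 0 < z.im) :
    den δ₁ (mob δ₂ z) * den δ₂ z
      = (δ₁ 1 0 : ℂ) * ((δ₂ 0 0 : ℂ) * z + (δ₂ 0 1 : ℂ)) + (δ₁ 1 1 : ℂ) * den δ₂ z := by
  have hd := den_ne_zero δ₂ hz
  show ((δ₁ 1 0 : ℂ) * (((δ₂ 0 0 : ℂ) * z + (δ₂ 0 1 : ℂ)) / den δ₂ z) + (δ₁ 1 1 : ℂ)) * den δ₂ z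
    = _
  field_simp

theorem num_mul_aux (δ₁ δ₂ : SL(2, ℤ)) {z : ℂ} (hz : 0 < z.im) :
    ((δ₁ 0 0 : ℂ) * mob δ₂ z + (δ₁ 0 1 : ℂ)) * den δ₂ z
      = (δ₁ 0 0 : ℂ) * ((δ₂ 0 0 : ℂ) * z + (δ₂ 0 1 : ℂ)) + (δ₁ 0 1 : ℂ) * den δ₂ z := by
  have hd := den_ne_zero δ₂ hz
  show ((δ₁ 0 0 : ℂ) * (((δ₂ 0 0 : ℂ) * z + (δ₂ 0 1 : ℂ)) / den δ₂ z) + (δ₁ 0 1 : ℂ)) * den δ₂ z
    = _
  field_simp

theorem den_mul (δ₁ δ₂ : SL(2, ℤ)) {z : ℂ} (hz : 0 < z.im) :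
    den (δ₁ * δ₂) z = den δ₁ (mob δ₂ z) * den δ₂ z := by
  rw [den_mul_aux δ₁ δ₂ hz]
  simp only [den, Matrix.SpecialLinearGroup.coe_mul, Matrix.mul_apply, Fin.sum_univ_two,
    Int.cast_add, Int.cast_mul]
  ring

theorem mob_mul (δ₁ δ₂ : SL(2, ℤ)) {z : ℂ} (hz : 0 < z.im) :
    mob (δ₁ * δ₂) z = mob δ₁ (mob δ₂ z) := by
  have hd := den_ne_zero δ₂ hz
  have hd1 := den_ne_zero δ₁ (mob_im_pos δ₂ hz)
  have hd12 := den_ne_zero (δ₁ * δ₂) hz
  rw [mob, mob, div_eq_div_iff hd12 hd1]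
  have e1 : (((δ₁ * δ₂ : SL(2, ℤ)) 0 0 : ℤ) : ℂ) * z + (((δ₁ * δ₂ : SL(2, ℤ)) 0 1 : ℤ) : ℂ)
      = (δ₁ 0 0 : ℂ) * ((δ₂ 0 0 : ℂ) * z + (δ₂ 0 1 : ℂ)) + (δ₁ 0 1 : ℂ) * den δ₂ z := by
    simp only [den, Matrix.SpecialLinearGroup.coe_mul, Matrix.mul_apply, Fin.sum_univ_two,
      Int.cast_add, Int.cast_mul]
    ring
  rw [e1, ← num_mul_aux δ₁ δ₂ hz, den_mul δ₁ δ₂ hz]
  ring

/-- `g₂ = g₁ ∣[n + 2] δ` on the upper half plane. -/
def IsSlash (n : ℕ) (δ : SL(2, ℤ)) (g₁ g₂ : ℂ → ℂ) : Prop :=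
  ∀ z : ℂ, 0 < z.im → g₂ z = g₁ (mob δ z) / den δ z ^ (n + 2)

theorem IsPrimOn.comp_mob {G g₁ g₂ : ℂ → ℂ} {n : ℕ} {δ : SL(2, ℤ)} {u v : ℂ}
    (hG : IsPrimOn G (fun z => g₁ z * (u * z + v) ^ n)) (hs : IsSlash n δ g₁ g₂) :
    IsPrimOn (fun z => G (mob δ z))
      (fun z => g₂ z * ((u * δ 0 0 + v * δ 1 0) * z + (u * δ 0 1 + v * δ 1 1)) ^ n) := by
  intro z hz
  have hd := den_ne_zero δ hz
  have h1 : HasDerivAt (fun z => G (mob δ z))
      (g₁ (mob δ z) * (u * mob δ z + v) ^ n * (1 / den δ z ^ 2)) z :=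
    (hG (mob δ z) (mob_im_pos δ hz)).comp z (hasDerivAt_mob δ hz)
  have e : g₁ (mob δ z) * (u * mob δ z + v) ^ n * (1 / den δ z ^ 2)
      = g₂ z * ((u * δ 0 0 + v * δ 1 0) * z + (u * δ 0 1 + v * δ 1 1)) ^ n := by
    rw [hs z hz]
    have e2 : u * mob δ z + v
        = ((u * δ 0 0 + v * δ 1 0) * z + (u * δ 0 1 + v * δ 1 1)) / den δ z := by
      rw [mob]
      field_simp
      simp only [den]
      ring
    rw [e2, div_pow]
    field_simp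
    ring
  rw [e] at h1
  exact h1

/-- The constant `Phi g₁ (δ z) - Phi g₂ z` evaluated at the base point `I`. -/
noncomputable def cst (g₁ g₂ : ℂ → ℂ) (n : ℕ) (δ : SL(2, ℤ)) (u v : ℂ) : ℂ :=
  Phi g₁ n u v (mob δ Complex.I)
    - Phi g₂ n (u * δ 0 0 + v * δ 1 0) (u * δ 0 1 + v * δ 1 1) Complex.I

theorem Phi_comp_mob {g₁ g₂ : ℂ → ℂ} (h₁ : Admissible g₁) (h₂ : Admissible g₂) {n : ℕ}
    {δ : SL(2, ℤ)} (hs : IsSlash n δ g₁ g₂) (u v : ℂ) {z : ℂ} (hz : 0 < z.im) :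
    Phi g₁ n u v (mob δ z)
      = Phi g₂ n (u * δ 0 0 + v * δ 1 0) (u * δ 0 1 + v * δ 1 1) z + cst g₁ g₂ n δ u v := by
  obtain ⟨c, hc⟩ := ((Phi_isPrimOn h₁ n u v).comp_mob hs).exists_eq_add_const
    (Phi_isPrimOn h₂ n (u * δ 0 0 + v * δ 1 0) (u * δ 0 1 + v * δ 1 1))
  have hI : (0 : ℝ) < Complex.I.im := by simp
  have h1 := hc Complex.I hI
  have h2 := hc z hz
  rw [cst, h1, h2]
  ring

/-! ### Cusp forms as functions on `ℂ` -/

section CuspForms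

open CongruenceSubgroup

variable {N : ℕ} {k : ℤ}

/-- A cusp form as a function on `ℂ` (junk outside the upper half plane). -/
noncomputable def gf (f : CuspForm (Gamma0 N) k) : ℂ → ℂ := ⇑f ∘ ofComplex

/-- The slash translate `f ∣[k] δ` as a function on `ℂ`. -/
noncomputable def gfs (f : CuspForm (Gamma0 N) k) (δ : SL(2, ℤ)) : ℂ → ℂ :=
  (⇑f ∣[k] δ) ∘ ofComplex

theorem gf_apply (f : CuspForm (Gamma0 N) k) {z : ℂ} (hz : 0 < z.im) : gf f z = f ⟨z, hz⟩ := by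
  simp [gf, ofComplex_apply_of_im_pos hz]

theorem gfs_apply (f : CuspForm (Gamma0 N) k) (δ : SL(2, ℤ)) {z : ℂ} (hz : 0 < z.im) :
    gfs f δ z = gf f (mob δ z) * den δ z ^ (-k) := by
  have h1 : gfs f δ z = (⇑f ∣[k] δ) ⟨z, hz⟩ := by
    simp [gfs, ofComplex_apply_of_im_pos hz]
  rw [h1, ModularForm.SL_slash_apply, ← den_coe, gf_apply f (mob_im_pos δ hz)]
  congr 2
  exact UpperHalfPlane.ext (mob_coe δ ⟨z, hz⟩).symm

theorem isSlash_gfs (f : CuspForm (Gamma0 N) k) (δ : SL(2, ℤ)) {n : ℕ} (hk : k = n + 2) :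
    IsSlash n δ (gf f) (gfs f δ) := by
  intro z hz
  have e : den δ z ^ (-k) = (den δ z ^ (n + 2))⁻¹ := by
    rw [hk, zpow_neg]
    norm_cast
  rw [gfs_apply f δ hz, e, div_eq_mul_inv]

theorem gfs_eq_gf (f : CuspForm (Gamma0 N) k) {γ : SL(2, ℤ)} (hγ : γ ∈ Gamma0 N) {z : ℂ}
    (hz : 0 < z.im) : gfs f γ z = gf f z := by
  have h1 : gfs f γ z = (⇑f ∣[k] γ) ⟨z, hz⟩ := by
    simp [gfs, ofComplex_apply_of_im_pos hz]
  rw [h1, gf_apply f hz]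
  have := SlashInvariantFormClass.slash_action_eq f (γ : GL (Fin 2) ℝ) (Subgroup.mem_map_of_mem _ hγ)
  exact congrFun this _

theorem isSlash_gf (f : CuspForm (Gamma0 N) k) {γ : SL(2, ℤ)} (hγ : γ ∈ Gamma0 N) {n : ℕ}
    (hk : k = n + 2) : IsSlash n γ (gf f) (gf f) := by
  intro z hz
  rw [← gfs_eq_gf f hγ hz]
  exact isSlash_gfs f γ hk z hz

/-- The period of `f` along `γ` against the polynomial `(u X + v) ^ (k - 2)`. -/
noncomputable def psi (f : CuspForm (Gamma0 N) k) (γ : SL(2, ℤ)) (u v : ℂ) : ℂ :=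
  cst (gf f) (gf f) (k - 2).toNat γ u v

theorem psi_spec (f : CuspForm (Gamma0 N) k) (hf : Admissible (gf f)) (hk : 2 ≤ k)
    {γ : SL(2, ℤ)} (hγ : γ ∈ Gamma0 N) (u v : ℂ) {z : ℂ} (hz : 0 < z.im) :
    Phi (gf f) (k - 2).toNat u v (mob γ z)
      = Phi (gf f) (k - 2).toNat (u * γ 0 0 + v * γ 1 0) (u * γ 0 1 + v * γ 1 1) z
        + psi f γ u v :=
  Phi_comp_mob hf hf (isSlash_gf f hγ (by omega)) u v hz

/-- The lattice of period functionals. -/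
noncomputable def periodLattice (N : ℕ) (k : ℤ) :
    Submodule ℤ (Module.Dual ℂ (CuspForm (Gamma0 N) k)) :=
  Submodule.span ℤ {φ | ∃ γ ∈ Gamma0 N, ∃ u v : ℤ, ∀ f, φ f = psi f γ u v}

end CuspForms

end Fermat.Agent.S22
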