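import Mathlib
import Fermat.Agent.S22.Defs
import Fermat.Agent.S22.CuspInputs
import Fermat.Agent.S22.Cocycle

/-!
# S22, module E: the period lattice is finitely generated

For integers `u v` the functional `f ↦ psi f γ u v` is an integer combination of the finitely
many evaluation functionals `f ↦ Gm (gf f) m (mob γ I)` and `f ↦ Gm (gf f) m I` (`m ≤ k - 2`).
Since `Γ₀(N)` is finitely generated (Schreier) and `psi` is a cocycle, all these functionals lie
in the `ℤ`-span of the evaluation functionals attached to a finite generating set.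
-/

set_option autoImplicit false

namespace Fermat.Agent.S22

open Complex UpperHalfPlane ModularForm CongruenceSubgroup
open scoped MatrixGroups ModularForm

variable {N : ℕ} {k : ℤ}

/-- Cusp forms on `Γ₀(N)` are admissible. -/
theorem fg_admissible_gf (f : CuspForm (Gamma0 N) k) : Admissible (gf f) :=
  ⟨(PP.cuspLike_cuspForm f).differentiableOn, (PP.cuspLike_cuspForm f).unifDecay one_pos⟩

theorem fg_gf_add (f₁ f₂ : CuspForm (Gamma0 N) k) :
    gf (f₁ + f₂) = fun w => gf f₁ w + gf f₂ w := by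
  funext w
  simp [gf]

theorem fg_gf_smul (a : ℂ) (f : CuspForm (Gamma0 N) k) :
    gf (a • f) = fun w => a * gf f w := by
  funext w
  simp [gf]

open Classical in
/-- The evaluation functional `f ↦ Gm (gf f) m z` (zero outside the upper half plane). -/
noncomputable def fgGmL (N : ℕ) (k : ℤ) (m : ℕ) (z : ℂ) :
    Module.Dual ℂ (CuspForm (Gamma0 N) k) :=
  if hz : 0 < z.im then
    { toFun := fun f => Gm (gf f) m z
      map_add' := fun f₁ f₂ => by
        rw [fg_gf_add]
        exact Gm_add (fg_admissible_gf f₁) (fg_admissible_gf f₂) m hz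
      map_smul' := fun a f => by
        rw [fg_gf_smul]
        exact Gm_const_mul (fg_admissible_gf f) a m hz }
  else 0

theorem fgGmL_apply (m : ℕ) {z : ℂ} (hz : 0 < z.im) (f : CuspForm (Gamma0 N) k) :
    fgGmL N k m z f = Gm (gf f) m z := by
  rw [fgGmL, dif_pos hz]
  rfl

/-- The functional `f ↦ psi f γ u v` for integers `u v`, as an explicit integer combination of
evaluation functionals. -/
noncomputable def fgPsiL (N : ℕ) (k : ℤ) (γ : SL(2, ℤ)) (u v : ℤ) :
    Module.Dual ℂ (CuspForm (Gamma0 N) k) :=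
  ∑ m ∈ Finset.range ((k - 2).toNat + 1),
      (((k - 2).toNat.choose m : ℤ) * u ^ m * v ^ ((k - 2).toNat - m)) •
        fgGmL N k m (mob γ Complex.I)
    - ∑ m ∈ Finset.range ((k - 2).toNat + 1),
      (((k - 2).toNat.choose m : ℤ) * (u * γ 0 0 + v * γ 1 0) ^ m *
        (u * γ 0 1 + v * γ 1 1) ^ ((k - 2).toNat - m)) • fgGmL N k m Complex.I

theorem fgPsiL_apply (γ : SL(2, ℤ)) (u v : ℤ) (f : CuspForm (Gamma0 N) k) :
    fgPsiL N k γ u v f = psi f γ u v := by
  have hI : (0 : ℝ) < Complex.I.im := by simp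
  have hγI : 0 < (mob γ Complex.I).im := mob_im_pos γ hI
  simp only [fgPsiL, psi, cst, Phi, LinearMap.sub_apply, LinearMap.sum_apply, LinearMap.smul_apply,
    fgGmL_apply _ hI, fgGmL_apply _ hγI, zsmul_eq_mul]
  push_cast
  rfl

/-- The finite set of evaluation functionals attached to a finite set of matrices. -/
def fgGens (N : ℕ) (k : ℤ) (G0 : Set SL(2, ℤ)) : Set (Module.Dual ℂ (CuspForm (Gamma0 N) k)) :=
  (fun m => fgGmL N k m Complex.I) '' (Finset.range ((k - 2).toNat + 1) : Set ℕ) ∪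
    Set.image2 (fun s m => fgGmL N k m (mob s Complex.I)) G0
      (Finset.range ((k - 2).toNat + 1) : Set ℕ)

theorem fgGens_finite {G0 : Set SL(2, ℤ)} (h : G0.Finite) : (fgGens N k G0).Finite :=
  ((Finset.finite_toSet _).image _).union (Set.Finite.image2 _ h (Finset.finite_toSet _))

theorem fgPsiL_mem_of_mem {G0 : Set SL(2, ℤ)} {γ : SL(2, ℤ)} (hγ : γ ∈ G0) (u v : ℤ) :
    fgPsiL N k γ u v ∈ Submodule.span ℤ (fgGens N k G0) := by
  refine Submodule.sub_mem _ (Submodule.sum_mem _ fun m hm => ?_)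
    (Submodule.sum_mem _ fun m hm => ?_)
  · exact Submodule.smul_mem _ _ (Submodule.subset_span
      (Or.inr (Set.mem_image2_of_mem hγ (Finset.mem_coe.mpr hm))))
  · exact Submodule.smul_mem _ _ (Submodule.subset_span
      (Or.inl (Set.mem_image_of_mem _ (Finset.mem_coe.mpr hm))))

/-- `Γ₀(N)` is finitely generated (Schreier's lemma). -/
theorem fg_Gamma0_fg (N : ℕ) [NeZero N] : (Gamma0 N).FG := by
  have h1 : Group.FG SL(2, ℤ) := by
    rw [Group.fg_iff]
    exact ⟨{ModularGroup.S, ModularGroup.T}, SpecialLinearGroup.SL2Z_generators,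
      by simp⟩
  exact (Group.fg_iff_subgroup_fg _).mp inferInstance

/-- The period lattice is finitely generated, given the cocycle relations of `psi`. -/
theorem periodLattice_fg_of_cocycle [NeZero N]
    (hone : ∀ (f : CuspForm (Gamma0 N) k) (u v : ℂ), psi f 1 u v = 0)
    (hmul : ∀ (f : CuspForm (Gamma0 N) k) (γ₁ γ₂ : SL(2, ℤ)), γ₁ ∈ Gamma0 N → γ₂ ∈ Gamma0 N →
      ∀ u v : ℂ, psi f (γ₁ * γ₂) u v
        = psi f γ₁ u v + psi f γ₂ (u * γ₁ 0 0 + v * γ₁ 1 0) (u * γ₁ 0 1 + v * γ₁ 1 1)) :
    (periodLattice N k).FG := by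
  obtain ⟨G0, hG0⟩ := fg_Gamma0_fg N
  have hfg : (Submodule.span ℤ (fgGens N k (G0 : Set SL(2, ℤ)))).FG :=
    Submodule.fg_span (fgGens_finite (Finset.finite_toSet G0))
  refine Submodule.FG.of_le hfg ?_
  -- all `fgPsiL γ u v`, `γ ∈ Γ₀(N)`, lie in the span
  have key : ∀ γ (hγ : γ ∈ Subgroup.closure (G0 : Set SL(2, ℤ))), ∀ u v : ℤ,
      fgPsiL N k γ u v ∈ Submodule.span ℤ (fgGens N k (G0 : Set SL(2, ℤ))) := by
    intro γ hγ
    induction hγ using Subgroup.closure_induction with
    | mem x hx => exact fun u v => fgPsiL_mem_of_mem hx u v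
    | one =>
      intro u v
      have : fgPsiL N k 1 u v = 0 := by
        ext f
        rw [fgPsiL_apply, hone, LinearMap.zero_apply]
      rw [this]
      exact Submodule.zero_mem _
    | mul x y hx hy ihx ihy =>
      intro u v
      have : fgPsiL N k (x * y) u v
          = fgPsiL N k x u v + fgPsiL N k y (u * x 0 0 + v * x 1 0) (u * x 0 1 + v * x 1 1) := by
        ext f
        rw [LinearMap.add_apply, fgPsiL_apply, fgPsiL_apply, fgPsiL_apply,
          hmul f x y (hG0 ▸ hx) (hG0 ▸ hy)]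
        push_cast
        rfl
      rw [this]
      exact Submodule.add_mem _ (ihx u v) (ihy _ _)
    | inv x hx ihx =>
      intro u v
      have hxΓ : x ∈ Gamma0 N := hG0 ▸ hx
      have : fgPsiL N k x⁻¹ u v
          = -fgPsiL N k x (u * x⁻¹ 0 0 + v * x⁻¹ 1 0) (u * x⁻¹ 0 1 + v * x⁻¹ 1 1) := by
        ext f
        have h := hmul f x⁻¹ x (inv_mem hxΓ) hxΓ u v
        rw [inv_mul_cancel, hone] at h
        rw [LinearMap.neg_apply, fgPsiL_apply, fgPsiL_apply, eq_neg_iff_add_eq_zero, h]
        push_cast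
        rfl
      rw [this]
      exact Submodule.neg_mem _ (ihx _ _)
  rw [periodLattice]
  refine Submodule.span_le.mpr ?_
  rintro φ ⟨γ, hγ, u, v, hφ⟩
  have : φ = fgPsiL N k γ u v := by
    ext f
    rw [hφ, fgPsiL_apply]
  rw [this]
  exact key γ (hG0 ▸ hγ) u v

/-- **Module E.** The period lattice is a finitely generated `ℤ`-module. -/
theorem periodLattice_fg {N : ℕ} [NeZero N] {k : ℤ} (hk : 2 ≤ k) : (periodLattice N k).FG :=
  periodLattice_fg_of_cocycle psi_one (fun f _ _ h₁ h₂ u v => psi_mul hk f h₁ h₂ u v)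

end Fermat.Agent.S22
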