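import Fermat.Agent.S22.Defs

/-!
# S22, module G1: the diagonal combination `diag g n z = Phi g n 1 (-z) z`

Pure analysis on top of `Prim.lean` and `Defs.lean`: derivative recursion, periodicity,
boundedness near `i∞`, and the fact that `diag g n` constant forces `g = 0`.
-/

set_option autoImplicit false

namespace Fermat.Agent.S22

open Complex Filter Topology

/-- The diagonal combination `z ↦ Phi g n 1 (-z) z`. -/
noncomputable def diag (g : ℂ → ℂ) (n : ℕ) (z : ℂ) : ℂ := Phi g n 1 (-z) z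

theorem diag_eq_sum (g : ℂ → ℂ) (n : ℕ) (z : ℂ) :
    diag g n z = ∑ m ∈ Finset.range (n + 1), (n.choose m : ℂ) * (-z) ^ (n - m) * Gm g m z := by
  unfold diag Phi
  exact Finset.sum_congr rfl fun m _ => by rw [one_pow, mul_one]

theorem hasDerivAt_diag_zero {g : ℂ → ℂ} (hg : Admissible g) {z : ℂ} (hz : 0 < z.im) :
    HasDerivAt (diag g 0) (g z) z := by
  have h1 : diag g 0 = Gm g 0 := by
    funext w
    simp [diag_eq_sum]
  rw [h1]
  have h2 := Gm_isPrimOn hg 0 z hz
  simpa using h2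

theorem hasDerivAt_diag_succ {g : ℂ → ℂ} (hg : Admissible g) (n : ℕ) {z : ℂ} (hz : 0 < z.im) :
    HasDerivAt (diag g (n + 1)) (-((n : ℂ) + 1) * diag g n z) z := by
  have hfun : diag g (n + 1) = fun w => ∑ m ∈ Finset.range (n + 1 + 1),
      ((n + 1).choose m : ℂ) * (-w) ^ (n + 1 - m) * Gm g m w := by
    funext w
    exact diag_eq_sum g (n + 1) w
  rw [hfun]
  have hterm : ∀ m ∈ Finset.range (n + 1 + 1),
      HasDerivAt (fun w => ((n + 1).choose m : ℂ) * (-w) ^ (n + 1 - m) * Gm g m w)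
        (((n + 1).choose m : ℂ) * (((n + 1 - m : ℕ) : ℂ) * (-z) ^ (n + 1 - m - 1) * (-1))
            * Gm g m z
          + ((n + 1).choose m : ℂ) * (-z) ^ (n + 1 - m) * (g z * z ^ m)) z := by
    intro m _
    have h1 : HasDerivAt (fun w : ℂ => (-w) ^ (n + 1 - m))
        (((n + 1 - m : ℕ) : ℂ) * (-z) ^ (n + 1 - m - 1) * (-1)) z :=
      ((hasDerivAt_id z).neg.pow (n + 1 - m))
    exact (h1.const_mul _).mul (Gm_isPrimOn hg m z hz)
  have hsum := HasDerivAt.fun_sum hterm
  have hval : (∑ m ∈ Finset.range (n + 1 + 1),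
      (((n + 1).choose m : ℂ) * (((n + 1 - m : ℕ) : ℂ) * (-z) ^ (n + 1 - m - 1) * (-1))
            * Gm g m z
          + ((n + 1).choose m : ℂ) * (-z) ^ (n + 1 - m) * (g z * z ^ m)))
      = -((n : ℂ) + 1) * diag g n z := by
    rw [Finset.sum_add_distrib]
    have hB : ∑ m ∈ Finset.range (n + 1 + 1),
        ((n + 1).choose m : ℂ) * (-z) ^ (n + 1 - m) * (g z * z ^ m) = 0 := by
      have h0 : (z + -z) ^ (n + 1) = 0 := by simp
      rw [add_pow] at h0
      have : ∑ m ∈ Finset.range (n + 1 + 1),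
          ((n + 1).choose m : ℂ) * (-z) ^ (n + 1 - m) * (g z * z ^ m)
          = g z * ∑ m ∈ Finset.range (n + 1 + 1), z ^ m * (-z) ^ (n + 1 - m) *
              ((n + 1).choose m : ℂ) := by
        rw [Finset.mul_sum]
        exact Finset.sum_congr rfl fun m _ => by ring
      rw [this, h0, mul_zero]
    rw [hB, add_zero, Finset.sum_range_succ]
    have hlast : ((n + 1).choose (n + 1) : ℂ) *
        (((n + 1 - (n + 1) : ℕ) : ℂ) * (-z) ^ (n + 1 - (n + 1) - 1) * (-1)) * Gm g (n + 1) z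
        = 0 := by
      simp
    rw [hlast, add_zero, diag_eq_sum, Finset.mul_sum]
    refine Finset.sum_congr rfl fun m hm => ?_
    have hm' : m ≤ n := Nat.lt_succ_iff.mp (Finset.mem_range.mp hm)
    have hexp : n + 1 - m - 1 = n - m := by omega
    have hch : ((n + 1).choose m : ℂ) * ((n + 1 - m : ℕ) : ℂ) = ((n : ℂ) + 1) * (n.choose m : ℂ) := by
      have := Nat.choose_mul_succ_eq n m
      have h2 : ((n.choose m * (n + 1) : ℕ) : ℂ) = (((n + 1).choose m * (n + 1 - m) : ℕ) : ℂ) := by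
        rw [this]
      push_cast at h2
      rw [← h2]
      ring
    rw [hexp]
    linear_combination (-(-z) ^ (n - m) * Gm g m z) * hch
  rw [hval] at hsum
  exact hsum

/-- Translation of the base point of `Phi` by a period of `g`. -/
theorem diag_Phi_add_period {g : ℂ → ℂ} (hg : Admissible g) {h : ℝ}
    (hper : ∀ z : ℂ, 0 < z.im → g (z + h) = g z) (n : ℕ) (u v : ℂ) {z : ℂ} (hz : 0 < z.im) :
    Phi g n u v (z + h) = Phi g n u (u * h + v) z := by
  refine Phi_unique hg n u (u * h + v) (P := fun w => Phi g n u v (w + h)) ?_ ?_ hz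
  · intro w hw
    have hw' : 0 < (w + (h : ℂ)).im := by simpa using hw
    have h1 : HasDerivAt (fun w : ℂ => w + (h : ℂ)) 1 w := (hasDerivAt_id w).add_const _
    have h2 := (Phi_isPrimOn hg n u v (w + h) hw').comp w h1
    have e : g (w + h) * (u * (w + h) + v) ^ n * 1 = g w * (u * w + (u * h + v)) ^ n := by
      rw [hper w hw, mul_one]
      congr 2
      ring
    rw [e] at h2
    exact h2
  · have h1 := (Phi_stripDecay hg n u v).comp_add_div h (p := 1) one_pos
    refine h1.congr fun w _ => ?_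
    simp

theorem diag_add_period {g : ℂ → ℂ} (hg : Admissible g) {h : ℝ}
    (hper : ∀ z : ℂ, 0 < z.im → g (z + h) = g z) (n : ℕ) {z : ℂ} (hz : 0 < z.im) :
    diag g n (z + h) = diag g n z := by
  unfold diag
  rw [diag_Phi_add_period hg hper n 1 (-(z + h)) hz]
  congr 1
  ring

/-- Periodicity of `g` under all integer multiples of the period. -/
theorem diag_period_int {g : ℂ → ℂ} {h : ℝ}
    (hper : ∀ z : ℂ, 0 < z.im → g (z + h) = g z) (j : ℤ) :
    ∀ z : ℂ, 0 < z.im → g (z + ((j * h : ℝ) : ℂ)) = g z := by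
  induction j using Int.induction_on with
  | zero =>
    intro z _
    simp
  | succ i ih =>
    intro z hz
    have hz' : 0 < (z + ((((i : ℤ) : ℝ) * h : ℝ) : ℂ)).im := by simpa using hz
    have e : z + ((((((i : ℤ) + 1 : ℤ)) : ℝ) * h : ℝ) : ℂ)
        = (z + ((((i : ℤ) : ℝ) * h : ℝ) : ℂ)) + (h : ℂ) := by
      push_cast
      ring
    rw [e, hper _ hz', ih z hz]
  | pred i ih =>
    intro z hz
    have hz' : 0 < (z + ((((-(i : ℤ) - 1 : ℤ) : ℝ) * h : ℝ) : ℂ)).im := by simpa using hz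
    have e : z + ((((-(i : ℤ) : ℤ) : ℝ) * h : ℝ) : ℂ)
        = (z + ((((-(i : ℤ) - 1 : ℤ) : ℝ) * h : ℝ) : ℂ)) + (h : ℂ) := by
      push_cast
      ring
    rw [← hper _ hz', ← e, ih z hz]

theorem diag_stripDecay {g : ℂ → ℂ} (hg : Admissible g) (n : ℕ) : StripDecay (diag g n) := by
  have h1 : StripDecay (fun z => ∑ m ∈ Finset.range (n + 1),
      ((n.choose m : ℂ) * (-1) ^ (n - m)) * (z ^ (n - m) * Gm g m z)) :=
    StripDecay.sum _ fun m _ => ((Gm_stripDecay hg m).pow_mul (n - m)).const_mul _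
  refine h1.congr fun z _ => ?_
  rw [diag_eq_sum]
  refine Finset.sum_congr rfl fun m _ => ?_
  rw [neg_pow]
  ring

theorem diag_bounded {g : ℂ → ℂ} (hg : Admissible g) {h : ℝ} (hh : 0 < h)
    (hper : ∀ z : ℂ, 0 < z.im → g (z + h) = g z) (n : ℕ) :
    ∃ C A : ℝ, ∀ z : ℂ, A ≤ z.im → ‖diag g n z‖ ≤ C := by
  obtain ⟨C, c, A, hC, hc, hA, hb⟩ := diag_stripDecay hg n h
  refine ⟨C, A, fun z hzA => ?_⟩
  have hz : 0 < z.im := lt_of_lt_of_le hA hzA
  -- translate `z` into the strip `0 ≤ re < h`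
  set j : ℤ := -⌊z.re / h⌋ with hj
  have hper' := diag_period_int hper j
  have hshift : diag g n (z + ((j * h : ℝ) : ℂ)) = diag g n z :=
    diag_add_period hg hper' n hz
  have hre : |(z + ((j * h : ℝ) : ℂ)).re| ≤ h := by
    have h1 : (z + ((j * h : ℝ) : ℂ)).re = z.re - ⌊z.re / h⌋ * h := by
      rw [hj]
      simp
      ring
    rw [h1]
    have h2 : (⌊z.re / h⌋ : ℝ) ≤ z.re / h := Int.floor_le _
    have h3 : z.re / h < ⌊z.re / h⌋ + 1 := Int.lt_floor_add_one _
    have h4 : (⌊z.re / h⌋ : ℝ) * h ≤ z.re := by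
      have := mul_le_mul_of_nonneg_right h2 hh.le
      rwa [div_mul_cancel₀ _ hh.ne'] at this
    have h5 : z.re < (⌊z.re / h⌋ + 1) * h := by
      have := mul_lt_mul_of_pos_right h3 hh
      rwa [div_mul_cancel₀ _ hh.ne'] at this
    rw [abs_le]
    constructor <;> nlinarith
  have him : (z + ((j * h : ℝ) : ℂ)).im = z.im := by simp
  have hbound := hb (z + ((j * h : ℝ) : ℂ)) hre (by rw [him]; exact hzA)
  rw [hshift, him] at hbound
  refine hbound.trans ?_
  have : Real.exp (-c * z.im) ≤ 1 := by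
    rw [Real.exp_le_one_iff]
    nlinarith
  calc C * Real.exp (-c * z.im) ≤ C * 1 := mul_le_mul_of_nonneg_left this hC
    _ = C := mul_one C

theorem eq_zero_of_diag_eq_const {g : ℂ → ℂ} (hg : Admissible g) (n : ℕ) (c : ℂ)
    (h : ∀ z : ℂ, 0 < z.im → diag g n z = c) : ∀ z : ℂ, 0 < z.im → g z = 0 := by
  induction n generalizing c with
  | zero =>
    intro z hz
    have h1 := hasDerivAt_diag_zero hg hz
    have h2 : HasDerivAt (diag g 0) 0 z := by
      refine (hasDerivAt_const z c).congr_of_eventuallyEq ?_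
      filter_upwards [isOpen_uh.mem_nhds hz] with w hw using h w hw
    exact h1.unique h2
  | succ n ih =>
    refine ih 0 fun z hz => ?_
    have h1 := hasDerivAt_diag_succ hg n hz
    have h2 : HasDerivAt (diag g (n + 1)) 0 z := by
      refine (hasDerivAt_const z c).congr_of_eventuallyEq ?_
      filter_upwards [isOpen_uh.mem_nhds hz] with w hw using h w hw
    have h3 := h1.unique h2
    have h4 : -((n : ℂ) + 1) ≠ 0 := by
      rw [neg_ne_zero]
      exact Nat.cast_add_one_ne_zero n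
    exact (mul_eq_zero.mp h3).resolve_left h4

end Fermat.Agent.S22
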