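import Mathlib

/-!
# S22: an algebra of endomorphisms preserving a separating finitely generated lattice of
functionals is a finite `ℤ`-module
-/

set_option autoImplicit false

namespace Fermat.Agent.S22

/-- Precomposition with `T` as a `ℤ`-linear endomorphism of a stable lattice of functionals. -/
noncomputable def dualRes {V : Type*} [AddCommGroup V] [Module ℂ V]
    (L : Submodule ℤ (Module.Dual ℂ V)) (H : Subalgebra ℤ (Module.End ℂ V))
    (hH : ∀ T ∈ H, ∀ φ ∈ L, φ ∘ₗ T ∈ L) : H →ₗ[ℤ] Module.End ℤ L where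
  toFun T :=
    { toFun := fun φ => ⟨φ.1 ∘ₗ T.1, hH T.1 T.2 φ.1 φ.2⟩
      map_add' := fun φ₁ φ₂ => by
        apply Subtype.ext
        simp [LinearMap.add_comp]
      map_smul' := fun n φ => by
        apply Subtype.ext
        simp [LinearMap.smul_comp] }
  map_add' T₁ T₂ := by
    apply LinearMap.ext
    intro φ
    apply Subtype.ext
    simp [LinearMap.comp_add]
  map_smul' n T := by
    apply LinearMap.ext
    intro φ
    apply Subtype.ext
    apply LinearMap.ext
    intro f
    show φ.1 ((n • T.1) f) = n • φ.1 (T.1 f)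
    rw [LinearMap.smul_apply, map_zsmul]

theorem moduleFinite_of_dual_lattice {V : Type*} [AddCommGroup V] [Module ℂ V]
    (L : Submodule ℤ (Module.Dual ℂ V)) (hLfg : L.FG)
    (hsep : ∀ f : V, (∀ φ ∈ L, φ f = 0) → f = 0)
    (H : Subalgebra ℤ (Module.End ℂ V)) (hH : ∀ T ∈ H, ∀ φ ∈ L, φ ∘ₗ T ∈ L) :
    Module.Finite ℤ H := by
  have hfin : Module.Finite ℤ L := Module.Finite.iff_fg.mpr hLfg
  have htf : IsAddTorsionFree (Module.Dual ℂ V) := by
    let _ : Module ℚ (Module.Dual ℂ V) := Module.compHom (Module.Dual ℂ V) (algebraMap ℚ ℂ)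
    exact IsAddTorsionFree.of_module_rat (Module.Dual ℂ V)
  have hfree : Module.Free ℤ L := Module.free_of_finite_type_torsion_free'
  have hinj : Function.Injective (dualRes L H hH) := by
    rw [← LinearMap.ker_eq_bot, LinearMap.ker_eq_bot']
    intro T hT
    apply Subtype.ext
    apply LinearMap.ext
    intro f
    apply hsep
    intro φ hφ
    have h1 := congrArg (fun E : Module.End ℤ L => ((E ⟨φ, hφ⟩ : L) : Module.Dual ℂ V) f) hT
    simpa [dualRes] using h1
  exact Module.Finite.of_injective (dualRes L H hH) hinj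

end Fermat.Agent.S22
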