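import Fermat.Agent.S22.Cocycle

/-!
# S22: normalised primitives of Hecke translates (module F1)
-/

set_option autoImplicit false

namespace Fermat.Agent.S22

open Complex UpperHalfPlane ModularForm CongruenceSubgroup
open scoped MatrixGroups ModularForm

variable {N : ℕ} [NeZero N] {k : ℤ}

omit [NeZero N] in
theorem heckePhi_gf_heckeMatrix (f : CuspForm (Gamma0 N) k) {p : ℕ} (hp : p ≠ 0) (j : ℕ) {z : ℂ}
    (hz : 0 < z.im) :
    f (ModularForm.heckeMatrix p j • (⟨z, hz⟩ : ℍ)) = gf f ((z + j) / p) := by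
  have h := ModularForm.coe_heckeMatrix_smul hp j ⟨z, hz⟩
  rw [show ((⟨z, hz⟩ : ℍ) : ℂ) = z from rfl] at h
  rw [← h, gf, Function.comp_apply, ofComplex_apply]

omit [NeZero N] in
theorem heckePhi_gf_heckeDiagMatrix (f : CuspForm (Gamma0 N) k) {p : ℕ} (hp : p ≠ 0) {z : ℂ}
    (hz : 0 < z.im) :
    f (ModularForm.heckeDiagMatrix p • (⟨z, hz⟩ : ℍ)) = gf f ((p : ℂ) * z) := by
  have h := ModularForm.coe_heckeDiagMatrix_smul hp ⟨z, hz⟩
  rw [show ((⟨z, hz⟩ : ℍ) : ℂ) = z from rfl] at h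
  rw [← h, gf, Function.comp_apply, ofComplex_apply]

omit [NeZero N] in
theorem heckePhi_gf_heckeU (f : CuspForm (Gamma0 N) k) {q : ℕ} (hq : q ≠ 0) {z : ℂ}
    (hz : 0 < z.im) :
    ModularForm.heckeU k q ⇑f (⟨z, hz⟩ : ℍ) = (q : ℂ)⁻¹ * ∑ j ∈ Finset.range q, gf f ((z + j) / q) := by
  rw [ModularForm.heckeU_apply k hq]
  congr 1
  exact Finset.sum_congr rfl fun j _ => heckePhi_gf_heckeMatrix f hq j hz

theorem heckePhi_shift_im_pos {q : ℕ} (hq : q ≠ 0) (j : ℕ) {z : ℂ} (hz : 0 < z.im) :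
    0 < ((z + j) / q).im := by
  have hq' : (0 : ℝ) < q := Nat.cast_pos.mpr (Nat.pos_of_ne_zero hq)
  rw [Complex.div_natCast_im, Complex.add_im, Complex.natCast_im, add_zero]
  exact div_pos hz hq'

theorem heckePhi_scale_im_pos {p : ℕ} (hp : p ≠ 0) {z : ℂ} (hz : 0 < z.im) :
    0 < ((p : ℂ) * z).im := by
  have hp' : (0 : ℝ) < p := Nat.cast_pos.mpr (Nat.pos_of_ne_zero hp)
  rw [Complex.mul_im, Complex.natCast_re, Complex.natCast_im, zero_mul, add_zero]
  exact mul_pos hp' hz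

/-- Derivative of `z ↦ Phi g n (q u) (v - j u) ((z + j) / q)`. -/
theorem heckePhi_hasDerivAt_shift {g : ℂ → ℂ} (hg : Admissible g) (n : ℕ) {q : ℕ} (hq : q ≠ 0)
    (j : ℕ) (u v : ℂ) {z : ℂ} (hz : 0 < z.im) :
    HasDerivAt (fun z : ℂ => Phi g n (q * u) (v - j * u) ((z + j) / q))
      ((q : ℂ)⁻¹ * g ((z + j) / q) * (u * z + v) ^ n) z := by
  have hq' : (q : ℂ) ≠ 0 := Nat.cast_ne_zero.mpr hq
  have h1 := Phi_isPrimOn hg n (q * u) (v - j * u) ((z + j) / q) (heckePhi_shift_im_pos hq j hz)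
  have h2 : HasDerivAt (fun z : ℂ => (z + j) / q) ((q : ℂ)⁻¹) z := by
    have := ((hasDerivAt_id z).add_const (j : ℂ)).div_const (q : ℂ)
    simpa [one_div] using this
  have h3 := h1.comp z h2
  have e : g ((z + j) / q) * ((q : ℂ) * u * ((z + j) / q) + (v - j * u)) ^ n * (q : ℂ)⁻¹
      = (q : ℂ)⁻¹ * g ((z + j) / q) * (u * z + v) ^ n := by
    have e1 : (q : ℂ) * u * ((z + j) / q) + (v - j * u) = u * z + v := by
      field_simp
      ring
    rw [e1]
    ring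
  rw [e] at h3
  exact h3

/-- Derivative of `z ↦ Phi g n u (p v) (p z)`. -/
theorem heckePhi_hasDerivAt_scale {g : ℂ → ℂ} (hg : Admissible g) (n : ℕ) {p : ℕ} (hp : p ≠ 0)
    (u v : ℂ) {z : ℂ} (hz : 0 < z.im) :
    HasDerivAt (fun z : ℂ => Phi g n u (p * v) ((p : ℂ) * z))
      ((p : ℂ) ^ (n + 1) * g ((p : ℂ) * z) * (u * z + v) ^ n) z := by
  have h1 := Phi_isPrimOn hg n u (p * v) ((p : ℂ) * z) (heckePhi_scale_im_pos hp hz)
  have h2 : HasDerivAt (fun z : ℂ => (p : ℂ) * z) (p : ℂ) z := by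
    simpa using (hasDerivAt_id z).const_mul (p : ℂ)
  have h3 := h1.comp z h2
  have e : g ((p : ℂ) * z) * (u * ((p : ℂ) * z) + (p : ℂ) * v) ^ n * (p : ℂ)
      = (p : ℂ) ^ (n + 1) * g ((p : ℂ) * z) * (u * z + v) ^ n := by
    have e1 : u * ((p : ℂ) * z) + (p : ℂ) * v = (p : ℂ) * (u * z + v) := by ring
    rw [e1, mul_pow]
    ring
  rw [e] at h3
  exact h3

theorem heckePhi_stripDecay_shift {g : ℂ → ℂ} (hg : Admissible g) (n : ℕ) {q : ℕ} (hq : q ≠ 0)
    (j : ℕ) (U V : ℂ) : StripDecay (fun z : ℂ => Phi g n U V ((z + j) / q)) := by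
  have hq' : (0 : ℝ) < q := Nat.cast_pos.mpr (Nat.pos_of_ne_zero hq)
  have := (Phi_stripDecay hg n U V).comp_add_div (j : ℝ) hq'
  simpa using this

theorem heckePhi_stripDecay_scale {g : ℂ → ℂ} (hg : Admissible g) (n : ℕ) {p : ℕ} (hp : p ≠ 0)
    (U V : ℂ) : StripDecay (fun z : ℂ => Phi g n U V ((p : ℂ) * z)) := by
  have hp' : (1 : ℝ) ≤ p := Nat.one_le_cast.mpr (Nat.pos_of_ne_zero hp)
  have := (Phi_stripDecay hg n U V).comp_mul hp'
  simpa using this

theorem heckePhi_U (hk : 2 ≤ k) {q : ℕ} (hq : q.Prime) (hqN : q ∣ N)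
    (f : CuspForm (Gamma0 N) k) (u v : ℂ) {z : ℂ} (hz : 0 < z.im) :
    Phi (gf (CuspForm.heckeULin k hqN f)) (k - 2).toNat u v z =
      ∑ j ∈ Finset.range q, Phi (gf f) (k - 2).toNat (q * u) (v - j * u) ((z + j) / q) := by
  have hq0 : q ≠ 0 := hq.ne_zero
  have hq' : (q : ℂ) ≠ 0 := Nat.cast_ne_zero.mpr hq0
  have hg := admissible_gf f
  refine (Phi_unique (admissible_gf (CuspForm.heckeULin k hqN f)) (k - 2).toNat u v
    (P := fun z => ∑ j ∈ Finset.range q,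
      Phi (gf f) (k - 2).toNat (q * u) (v - j * u) ((z + j) / q)) ?_ ?_ hz).symm
  · intro w hw
    have h1 : HasDerivAt (fun z => ∑ j ∈ Finset.range q,
        Phi (gf f) (k - 2).toNat (q * u) (v - j * u) ((z + j) / q))
        (∑ j ∈ Finset.range q, (q : ℂ)⁻¹ * gf f ((w + j) / q) * (u * w + v) ^ (k - 2).toNat) w :=
      HasDerivAt.fun_sum fun j _ => heckePhi_hasDerivAt_shift hg _ hq0 j u v hw
    have e : (∑ j ∈ Finset.range q, (q : ℂ)⁻¹ * gf f ((w + j) / q) * (u * w + v) ^ (k - 2).toNat)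
        = gf (CuspForm.heckeULin k hqN f) w * (u * w + v) ^ (k - 2).toNat := by
      rw [gf_apply _ hw, CuspForm.heckeULin_apply_apply, heckePhi_gf_heckeU f hq0 hw,
        Finset.mul_sum, Finset.sum_mul]
    rw [e] at h1
    exact h1
  · exact StripDecay.sum _ fun j _ => heckePhi_stripDecay_shift hg _ hq0 j _ _

theorem heckePhi_T (hk : 2 ≤ k) {p : ℕ} (hp : p.Prime) (hpN : ¬ p ∣ N)
    (f : CuspForm (Gamma0 N) k) (u v : ℂ) {z : ℂ} (hz : 0 < z.im) :
    Phi (gf (CuspForm.heckeTLin k hp hpN f)) (k - 2).toNat u v z =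
      (∑ j ∈ Finset.range p, Phi (gf f) (k - 2).toNat (p * u) (v - j * u) ((z + j) / p))
        + Phi (gf f) (k - 2).toNat u (p * v) (p * z) := by
  have hp0 : p ≠ 0 := hp.ne_zero
  have hp' : (p : ℂ) ≠ 0 := Nat.cast_ne_zero.mpr hp0
  have hg := admissible_gf f
  refine (Phi_unique (admissible_gf (CuspForm.heckeTLin k hp hpN f)) (k - 2).toNat u v
    (P := fun z => (∑ j ∈ Finset.range p,
      Phi (gf f) (k - 2).toNat (p * u) (v - j * u) ((z + j) / p))
        + Phi (gf f) (k - 2).toNat u (p * v) (p * z)) ?_ ?_ hz).symm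
  · intro w hw
    have h1 : HasDerivAt (fun z => ∑ j ∈ Finset.range p,
        Phi (gf f) (k - 2).toNat (p * u) (v - j * u) ((z + j) / p))
        (∑ j ∈ Finset.range p, (p : ℂ)⁻¹ * gf f ((w + j) / p) * (u * w + v) ^ (k - 2).toNat) w :=
      HasDerivAt.fun_sum fun j _ => heckePhi_hasDerivAt_shift hg _ hp0 j u v hw
    have h2 := h1.add (heckePhi_hasDerivAt_scale hg (k - 2).toNat hp0 u v hw)
    have epow : (p : ℂ) ^ (k - 1) = (p : ℂ) ^ ((k - 2).toNat + 1) := by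
      rw [← zpow_natCast]
      congr 1
      push_cast
      omega
    have e : (∑ j ∈ Finset.range p, (p : ℂ)⁻¹ * gf f ((w + j) / p) * (u * w + v) ^ (k - 2).toNat)
        + (p : ℂ) ^ ((k - 2).toNat + 1) * gf f ((p : ℂ) * w) * (u * w + v) ^ (k - 2).toNat
        = gf (CuspForm.heckeTLin k hp hpN f) w * (u * w + v) ^ (k - 2).toNat := by
      rw [gf_apply _ hw, CuspForm.heckeTLin_apply_apply, ModularForm.heckeT_eq_heckeU_add,
        Pi.add_apply, heckePhi_gf_heckeU f hp0 hw, ModularForm.slash_heckeDiagMatrix_apply k hp0,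
        heckePhi_gf_heckeDiagMatrix f hp0 hw, epow, Finset.mul_sum, add_mul, Finset.sum_mul]
    rw [e] at h2
    exact h2
  · exact (StripDecay.sum _ fun j _ => heckePhi_stripDecay_shift hg _ hp0 j _ _).add
      (heckePhi_stripDecay_scale hg _ hp0 _ _)

end Fermat.Agent.S22
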