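import Mathlib
import Fermat.Agent.S22.Inputs

/-!
# S22: the period functionals separate cusp forms (Eichler–Shimura injectivity)
-/

set_option autoImplicit false

namespace Fermat.Agent.S22

open Complex UpperHalfPlane ModularForm Filter Topology CongruenceSubgroup
open scoped MatrixGroups ModularForm Manifold

/-! ### Admissibility of cusp forms -/

theorem sep_admissible_of_cuspLike {h : ℝ} {F : ℂ → ℂ} (hh : 0 < h) (hF : PP.CuspLike h F) :
    Admissible F :=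
  ⟨hF.differentiableOn, hF.unifDecay hh⟩

theorem sep_cuspLike_gf {N : ℕ} {k : ℤ} (f : CuspForm (Gamma0 N) k) : PP.CuspLike 1 (gf f) :=
  PP.cuspLike_cuspForm f

theorem sep_cuspLike_gfs {N : ℕ} [NeZero N] {k : ℤ} (f : CuspForm (Gamma0 N) k) (δ : SL(2, ℤ)) :
    PP.CuspLike N (gfs f δ) :=
  PP.cuspLike_slash f δ

/-! ### Bridge to the periodic primitives -/

theorem sep_Gm_eq_wprim {h : ℝ} (hh : 0 < h) {F : ℂ → ℂ} (hF : PP.CuspLike h F) (m : ℕ) {z : ℂ}
    (hz : 0 < z.im) : Gm F m z = PP.wprim h m F z := by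
  have hadm := sep_admissible_of_cuspLike hh hF
  refine PP.eq_of_hasDerivAt_of_tendsto (Gm_isPrimOn hadm m)
    (fun _ hw => PP.hasDerivAt_wprim hh m hF hw) (fun _ _ => rfl) ?_
    (PP.tendsto_wprim_axis hh m hF) z hz
  simpa using (Gm_stripDecay hadm m).tendsto_vert 0

/-- Closed form of the diagonal. -/
theorem sep_Phi_diag_eq {h : ℝ} (hh : 0 < h) {F : ℂ → ℂ} (hF : PP.CuspLike h F) (n : ℕ) {z : ℂ}
    (hz : 0 < z.im) :
    Phi F n 1 (-z) z = (-1) ^ n * (n.factorial : ℂ) * (PP.pprim h)^[n + 1] F z := by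
  rw [← PP.eichler_eq hh hF n z hz]
  unfold Phi PP.eichler
  refine Finset.sum_congr rfl fun m _ => ?_
  rw [sep_Gm_eq_wprim hh hF m hz, one_pow, mul_one]

/-! ### Homogeneity -/

theorem sep_Phi_smul (g : ℂ → ℂ) (n : ℕ) (c u v z : ℂ) :
    Phi g n (c * u) (c * v) z = c ^ n * Phi g n u v z := by
  unfold Phi
  rw [Finset.mul_sum]
  refine Finset.sum_congr rfl fun m hm => ?_
  have hm' : m ≤ n := Nat.lt_succ_iff.mp (Finset.mem_range.mp hm)
  have e : c ^ n = c ^ m * c ^ (n - m) := by rw [← pow_add, Nat.add_sub_cancel' hm']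
  rw [mul_pow, mul_pow, e]
  ring

theorem sep_cst_smul (g₁ g₂ : ℂ → ℂ) (n : ℕ) (δ : SL(2, ℤ)) (c u v : ℂ) :
    cst g₁ g₂ n δ (c * u) (c * v) = c ^ n * cst g₁ g₂ n δ u v := by
  unfold cst
  have e1 : c * u * (δ 0 0 : ℂ) + c * v * (δ 1 0 : ℂ) = c * (u * (δ 0 0 : ℂ) + v * (δ 1 0 : ℂ)) := by
    ring
  have e2 : c * u * (δ 0 1 : ℂ) + c * v * (δ 1 1 : ℂ) = c * (u * (δ 0 1 : ℂ) + v * (δ 1 1 : ℂ)) := by
    ring
  rw [e1, e2, sep_Phi_smul, sep_Phi_smul, mul_sub]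

/-! ### Polynomial functions -/

/-- `F` is a polynomial function. -/
def SepPolyFun (F : ℂ → ℂ) : Prop := ∃ P : Polynomial ℂ, ∀ x, F x = P.eval x

theorem SepPolyFun.const (c : ℂ) : SepPolyFun (fun _ => c) := ⟨Polynomial.C c, by simp⟩

theorem SepPolyFun.id : SepPolyFun (fun x => x) := ⟨Polynomial.X, by simp⟩

theorem SepPolyFun.add {F G : ℂ → ℂ} (hF : SepPolyFun F) (hG : SepPolyFun G) :
    SepPolyFun (fun x => F x + G x) := by
  obtain ⟨P, hP⟩ := hF
  obtain ⟨Q, hQ⟩ := hG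
  exact ⟨P + Q, fun x => by simp [hP, hQ]⟩

theorem SepPolyFun.mul {F G : ℂ → ℂ} (hF : SepPolyFun F) (hG : SepPolyFun G) :
    SepPolyFun (fun x => F x * G x) := by
  obtain ⟨P, hP⟩ := hF
  obtain ⟨Q, hQ⟩ := hG
  exact ⟨P * Q, fun x => by simp [hP, hQ]⟩

theorem SepPolyFun.sub {F G : ℂ → ℂ} (hF : SepPolyFun F) (hG : SepPolyFun G) :
    SepPolyFun (fun x => F x - G x) := by
  obtain ⟨P, hP⟩ := hF
  obtain ⟨Q, hQ⟩ := hG
  exact ⟨P - Q, fun x => by simp [hP, hQ]⟩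

theorem SepPolyFun.neg {F : ℂ → ℂ} (hF : SepPolyFun F) : SepPolyFun (fun x => -F x) := by
  obtain ⟨P, hP⟩ := hF
  exact ⟨-P, fun x => by simp [hP]⟩

theorem SepPolyFun.pow {F : ℂ → ℂ} (hF : SepPolyFun F) (m : ℕ) : SepPolyFun (fun x => F x ^ m) := by
  obtain ⟨P, hP⟩ := hF
  exact ⟨P ^ m, fun x => by simp [hP]⟩

theorem SepPolyFun.sum {ι : Type*} (s : Finset ι) {F : ι → ℂ → ℂ} (hF : ∀ i ∈ s, SepPolyFun (F i)) :
    SepPolyFun (fun x => ∑ i ∈ s, F i x) := by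
  classical
  induction s using Finset.induction_on with
  | empty => simpa using SepPolyFun.const 0
  | insert a s ha ih =>
    have h1 := hF a (Finset.mem_insert_self a s)
    have h2 := ih fun i hi => hF i (Finset.mem_insert_of_mem hi)
    simpa [Finset.sum_insert ha] using h1.add h2

theorem SepPolyFun.eq_zero_of_int {F : ℂ → ℂ} (hF : SepPolyFun F) (h : ∀ m : ℤ, F m = 0) :
    ∀ x, F x = 0 := by
  obtain ⟨P, hP⟩ := hF
  have hP0 : P = 0 := by
    apply Polynomial.eq_zero_of_infinite_isRoot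
    refine Set.Infinite.mono (s := Set.range (fun m : ℤ => (m : ℂ))) ?_
      (Set.infinite_range_of_injective Int.cast_injective)
    rintro _ ⟨m, rfl⟩
    show P.IsRoot (m : ℂ)
    rw [Polynomial.IsRoot, ← hP, h]
  intro x
  rw [hP, hP0, Polynomial.eval_zero]

theorem SepPolyFun.eq_of_periodic {F : ℂ → ℂ} (hF : SepPolyFun F) {N : ℝ} (hN : N ≠ 0)
    (h : ∀ z : ℂ, 0 < z.im → F (z + N) = F z) : ∀ z, F z = F Complex.I := by
  have hI : ∀ j : ℕ, F (Complex.I + j * N) = F Complex.I := by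
    intro j
    induction j with
    | zero => simp
    | succ j ih =>
      have := h (Complex.I + j * N) (by simp)
      rw [← ih, ← this]
      congr 1
      push_cast
      ring
  have h0 := (hF.sub (SepPolyFun.const (F Complex.I)))
  obtain ⟨P, hP⟩ := h0
  have hP0 : P = 0 := by
    apply Polynomial.eq_zero_of_infinite_isRoot
    refine Set.Infinite.mono (s := Set.range (fun j : ℕ => Complex.I + (j : ℂ) * (N : ℂ))) ?_
      (Set.infinite_range_of_injective ?_)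
    · rintro _ ⟨j, rfl⟩
      show P.IsRoot (Complex.I + (j : ℂ) * (N : ℂ))
      rw [Polynomial.IsRoot, ← hP]
      show F (Complex.I + (j : ℂ) * (N : ℂ)) - F Complex.I = 0
      rw [hI, sub_self]
    · intro i j hij
      have hN' : (N : ℂ) ≠ 0 := by exact_mod_cast hN
      have : (i : ℂ) = j := by
        have := add_left_cancel hij
        exact mul_right_cancel₀ hN' this
      exact_mod_cast this
  intro z
  have := hP z
  rw [hP0, Polynomial.eval_zero] at this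
  exact sub_eq_zero.mp this

theorem sepPolyFun_Phi (g : ℂ → ℂ) (n : ℕ) (z : ℂ) {U V : ℂ → ℂ} (hU : SepPolyFun U)
    (hV : SepPolyFun V) : SepPolyFun (fun x => Phi g n (U x) (V x) z) := by
  unfold Phi
  exact SepPolyFun.sum _ fun m _ =>
    (((SepPolyFun.const _).mul (hU.pow m)).mul (hV.pow (n - m))).mul (SepPolyFun.const _)

theorem sepPolyFun_cst (g₁ g₂ : ℂ → ℂ) (n : ℕ) (δ : SL(2, ℤ)) {U V : ℂ → ℂ} (hU : SepPolyFun U)
    (hV : SepPolyFun V) : SepPolyFun (fun x => cst g₁ g₂ n δ (U x) (V x)) := by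
  unfold cst
  exact (sepPolyFun_Phi g₁ n _ hU hV).sub (sepPolyFun_Phi g₂ n _
    ((hU.mul (SepPolyFun.const _)).add (hV.mul (SepPolyFun.const _)))
    ((hU.mul (SepPolyFun.const _)).add (hV.mul (SepPolyFun.const _))))

theorem sep_cst_eq_zero_of_int {g₁ g₂ : ℂ → ℂ} {n : ℕ} {δ : SL(2, ℤ)}
    (h : ∀ u v : ℤ, cst g₁ g₂ n δ u v = 0) (u v : ℂ) : cst g₁ g₂ n δ u v = 0 := by
  have h1 : ∀ (v : ℤ) (u : ℂ), cst g₁ g₂ n δ u v = 0 := fun v =>
    (sepPolyFun_cst g₁ g₂ n δ SepPolyFun.id (SepPolyFun.const (v : ℂ))).eq_zero_of_int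
      fun u => h u v
  exact (sepPolyFun_cst g₁ g₂ n δ (SepPolyFun.const u) SepPolyFun.id).eq_zero_of_int
    (fun v => h1 v u) v

/-! ### The diagonal under Möbius transformations -/

theorem sep_diag_comp_mob {g₁ g₂ : ℂ → ℂ} (h₁ : Admissible g₁) (h₂ : Admissible g₂) {n : ℕ}
    {δ : SL(2, ℤ)} (hs : IsSlash n δ g₁ g₂) {z : ℂ} (hz : 0 < z.im) :
    den δ z ^ n * Phi g₁ n 1 (-mob δ z) (mob δ z) =
      Phi g₂ n 1 (-z) z + cst g₁ g₂ n δ (den δ z) (-((δ 0 0 : ℂ) * z + (δ 0 1 : ℂ))) := by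
  have hD := den_ne_zero δ hz
  have key := Phi_comp_mob h₁ h₂ hs 1 (-mob δ z) hz
  have e1 : (1 : ℂ) * (δ 0 0 : ℂ) + -mob δ z * (δ 1 0 : ℂ) = (den δ z)⁻¹ * 1 := by
    have hdet := det_eq_one' δ
    rw [mob]
    field_simp
    simp only [den]
    linear_combination hdet
  have e2 : (1 : ℂ) * (δ 0 1 : ℂ) + -mob δ z * (δ 1 1 : ℂ) = (den δ z)⁻¹ * (-z) := by
    have hdet := det_eq_one' δ
    rw [mob]
    field_simp
    simp only [den]
    linear_combination (-z) * hdet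
  have e3 : cst g₁ g₂ n δ 1 (-mob δ z) =
      ((den δ z)⁻¹) ^ n * cst g₁ g₂ n δ (den δ z) (-((δ 0 0 : ℂ) * z + (δ 0 1 : ℂ))) := by
    rw [← sep_cst_smul]
    congr 1
    · field_simp
    · rw [mob]; field_simp
  rw [key, e1, e2, sep_Phi_smul, e3, ← mul_add, ← mul_assoc, ← mul_pow, mul_inv_cancel₀ hD, one_pow,
    one_mul]

/-! ### The Eichler integral as a modular form of weight `2 - k` -/

section Eichler

variable {N : ℕ} {k : ℤ}

/-- The Eichler integral of `f` as a function on the upper half plane. -/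
noncomputable def sepEich (f : CuspForm (Gamma0 N) k) : ℍ → ℂ :=
  fun τ => Phi (gf f) (k - 2).toNat 1 (-(τ : ℂ)) τ

theorem sepEich_eq (f : CuspForm (Gamma0 N) k) (τ : ℍ) :
    sepEich f τ = (-1) ^ (k - 2).toNat * ((k - 2).toNat.factorial : ℂ) *
      (PP.pprim 1)^[(k - 2).toNat + 1] (gf f) τ :=
  sep_Phi_diag_eq one_pos (sep_cuspLike_gf f) _ τ.im_pos

theorem sepEich_slash_apply (hk : 2 ≤ k) (f : CuspForm (Gamma0 N) k) (δ : SL(2, ℤ)) {g₂ : ℂ → ℂ}
    (h₂ : Admissible g₂) (hs : IsSlash (k - 2).toNat δ (gf f) g₂) (τ : ℍ) :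
    (sepEich f ∣[2 - k] δ) τ = Phi g₂ (k - 2).toNat 1 (-(τ : ℂ)) τ +
      cst (gf f) g₂ (k - 2).toNat δ (den δ τ) (-((δ 0 0 : ℂ) * τ + (δ 0 1 : ℂ))) := by
  rw [ModularForm.SL_slash_apply, ← sep_diag_comp_mob (admissible_gf f) h₂ hs τ.im_pos]
  have e1 : denom δ τ ^ (-(2 - k)) = den δ τ ^ (k - 2).toNat := by
    rw [← den_coe, ← zpow_natCast]
    congr 1
    omega
  rw [e1, mul_comm]
  congr 1
  unfold sepEich
  rw [← mob_coe]

theorem sepEich_slash_of_psi_eq_zero (hk : 2 ≤ k) (f : CuspForm (Gamma0 N) k) {γ : SL(2, ℤ)}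
    (hγ : γ ∈ Gamma0 N) (h : ∀ u v : ℤ, psi f γ u v = 0) : sepEich f ∣[2 - k] γ = sepEich f := by
  ext τ
  rw [sepEich_slash_apply hk f γ (admissible_gf f) (isSlash_gf f hγ (by omega)) τ]
  have h0 : cst (gf f) (gf f) (k - 2).toNat γ (den γ τ) (-((γ 0 0 : ℂ) * τ + (γ 0 1 : ℂ))) = 0 :=
    sep_cst_eq_zero_of_int h _ _
  rw [h0, add_zero]
  rfl

/-- The Eichler integral as a slash invariant form of weight `w = 2 - k`. -/
noncomputable def sepEichSIF (hk : 2 ≤ k) (f : CuspForm (Gamma0 N) k)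
    (h : ∀ γ ∈ Gamma0 N, ∀ u v : ℤ, psi f γ u v = 0) (w : ℤ) (hw : w = 2 - k) :
    SlashInvariantForm (Gamma0 N) w where
  toFun := sepEich f
  slash_action_eq' := by
    subst hw
    rintro _ ⟨γ, hγ, rfl⟩
    exact sepEich_slash_of_psi_eq_zero hk f hγ (h γ hγ)

theorem sepEich_slash_vadd (hk : 2 ≤ k) (f : CuspForm (Gamma0 N) k)
    (h : ∀ γ ∈ Gamma0 N, ∀ u v : ℤ, psi f γ u v = 0) (δ : SL(2, ℤ)) (τ : ℍ) :
    (sepEich f ∣[2 - k] δ) ((N : ℝ) +ᵥ τ) = (sepEich f ∣[2 - k] δ) τ :=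
  SlashInvariantForm.vAdd_apply_of_mem_strictPeriods
    (SlashInvariantForm.translate (sepEichSIF hk f h (2 - k) rfl) (Matrix.SpecialLinearGroup.mapGL ℝ δ)) τ
    (PP.natCast_mem_strictPeriods_conj_Gamma0 N δ)

theorem sepEich_mdiff (f : CuspForm (Gamma0 N) k) : MDiff (sepEich f) := by
  rw [UpperHalfPlane.mdifferentiable_iff]
  have hG := PP.cuspLike_iterate_pprim one_pos (sep_cuspLike_gf f) ((k - 2).toNat + 1)
  refine DifferentiableOn.congr (f := fun z => (-1) ^ (k - 2).toNat *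
    ((k - 2).toNat.factorial : ℂ) * (PP.pprim 1)^[(k - 2).toNat + 1] (gf f) z) ?_ ?_
  · exact fun z hz => ((hG.diff z hz).const_mul _).differentiableWithinAt
  · intro z hz
    have hz' : 0 < z.im := hz
    simp only [Function.comp_apply, ofComplex_apply_of_im_pos hz']
    exact sepEich_eq f ⟨z, hz'⟩

theorem sepEich_slash_eq_add_const [NeZero N] (hk : 2 ≤ k) (f : CuspForm (Gamma0 N) k)
    (h : ∀ γ ∈ Gamma0 N, ∀ u v : ℤ, psi f γ u v = 0) (δ : SL(2, ℤ)) :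
    ∃ c : ℂ, ∀ τ : ℍ, (sepEich f ∣[2 - k] δ) τ =
      (-1) ^ (k - 2).toNat * ((k - 2).toNat.factorial : ℂ) *
        (PP.pprim N)^[(k - 2).toNat + 1] (gfs f δ) τ + c := by
  have hN : (0 : ℝ) < N := Nat.cast_pos.mpr (NeZero.pos N)
  set n := (k - 2).toNat with hn
  have hcl := sep_cuspLike_gfs f δ
  have hG := PP.cuspLike_iterate_pprim hN hcl (n + 1)
  set R : ℂ → ℂ := fun z => cst (gf f) (gfs f δ) n δ (den δ z) (-((δ 0 0 : ℂ) * z + (δ 0 1 : ℂ)))
    with hR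
  have hRpoly : SepPolyFun R := by
    refine sepPolyFun_cst _ _ _ _ ?_ ?_
    · exact ((SepPolyFun.const _).mul SepPolyFun.id).add (SepPolyFun.const _)
    · exact (((SepPolyFun.const _).mul SepPolyFun.id).add (SepPolyFun.const _)).neg
  have key : ∀ τ : ℍ, (sepEich f ∣[2 - k] δ) τ =
      (-1) ^ n * (n.factorial : ℂ) * (PP.pprim N)^[n + 1] (gfs f δ) τ + R τ := by
    intro τ
    rw [sepEich_slash_apply hk f δ (admissible_gfs f δ) (isSlash_gfs f δ (by omega)) τ,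
      sep_Phi_diag_eq hN hcl n τ.im_pos]
  have hper : ∀ z : ℂ, 0 < z.im → R (z + (N : ℝ)) = R z := by
    intro z hz
    have h1 := key ⟨z, hz⟩
    have h2 := key ((N : ℝ) +ᵥ (⟨z, hz⟩ : ℍ))
    rw [sepEich_slash_vadd hk f h δ, h1] at h2
    have e : (((N : ℝ) +ᵥ (⟨z, hz⟩ : ℍ) : ℍ) : ℂ) = z + (N : ℝ) := by
      rw [UpperHalfPlane.coe_vadd]
      exact add_comm _ _
    rw [e] at h2
    have hp : (PP.pprim N)^[n + 1] (gfs f δ) (z + (N : ℝ)) = (PP.pprim N)^[n + 1] (gfs f δ) z := by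
      have := hG.per z
      simpa using this
    rw [hp] at h2
    exact (add_left_cancel h2).symm
  have hconst := hRpoly.eq_of_periodic (N := N) hN.ne' hper
  exact ⟨R Complex.I, fun τ => by rw [key τ, hconst τ]⟩

theorem sepEich_slash_isBoundedAtImInfty [NeZero N] (hk : 2 ≤ k) (f : CuspForm (Gamma0 N) k)
    (h : ∀ γ ∈ Gamma0 N, ∀ u v : ℤ, psi f γ u v = 0) (δ : SL(2, ℤ)) :
    IsBoundedAtImInfty (sepEich f ∣[2 - k] δ) := by
  have hN : (0 : ℝ) < N := Nat.cast_pos.mpr (NeZero.pos N)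
  obtain ⟨c, hc⟩ := sepEich_slash_eq_add_const hk f h δ
  have hG := PP.cuspLike_iterate_pprim hN (sep_cuspLike_gfs f δ) ((k - 2).toNat + 1)
  have h1 : Tendsto (fun τ : ℍ => (-1) ^ (k - 2).toNat * ((k - 2).toNat.factorial : ℂ) *
      (PP.pprim N)^[(k - 2).toNat + 1] (gfs f δ) τ) atImInfty (𝓝 0) := by
    have := (hG.zero.comp tendsto_coe_atImInfty).const_mul
      ((-1) ^ (k - 2).toNat * ((k - 2).toNat.factorial : ℂ))
    simpa using this
  have h2 : IsBoundedAtImInfty (fun τ : ℍ => (-1) ^ (k - 2).toNat *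
      ((k - 2).toNat.factorial : ℂ) * (PP.pprim N)^[(k - 2).toNat + 1] (gfs f δ) τ) :=
    IsZeroAtImInfty.isBoundedAtImInfty h1
  have h3 : IsBoundedAtImInfty (fun _ : ℍ => c) := Filter.const_boundedAtFilter _ c
  have h4 := Filter.BoundedAtFilter.add h2 h3
  have e : (sepEich f ∣[2 - k] δ) = (fun τ : ℍ => (-1) ^ (k - 2).toNat *
      ((k - 2).toNat.factorial : ℂ) * (PP.pprim N)^[(k - 2).toNat + 1] (gfs f δ) τ) +
      (fun _ : ℍ => c) := by
    ext τ
    exact hc τ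
  rw [e]
  exact h4

/-- The Eichler integral as a modular form of weight `w = 2 - k`. -/
noncomputable def sepEichMF [NeZero N] (hk : 2 ≤ k) (f : CuspForm (Gamma0 N) k)
    (h : ∀ γ ∈ Gamma0 N, ∀ u v : ℤ, psi f γ u v = 0) (w : ℤ) (hw : w = 2 - k) :
    ModularForm (Gamma0 N) w where
  toSlashInvariantForm := sepEichSIF hk f h w hw
  holo' := sepEich_mdiff f
  bdd_at_cusps' := fun {c} hc => by
    subst hw
    rw [Subgroup.IsArithmetic.isCusp_iff_isCusp_SL2Z] at hc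
    exact (OnePoint.isBoundedAt_iff_forall_SL2Z hc).mpr fun δ _ =>
      sepEich_slash_isBoundedAtImInfty hk f h δ

theorem sepEich_eq_zero [NeZero N] (hk : 2 ≤ k) (f : CuspForm (Gamma0 N) k)
    (h : ∀ γ ∈ Gamma0 N, ∀ u v : ℤ, psi f γ u v = 0) (τ : ℍ) : sepEich f τ = 0 := by
  rcases hk.eq_or_lt with hk2 | hk2
  · obtain ⟨c, hc⟩ := ModularForm.eq_const_of_weight_zero (sepEichMF hk f h 0 (by omega))
    have hc' : ∀ τ : ℍ, sepEich f τ = c := fun τ => congrFun hc τ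
    have hG := PP.cuspLike_iterate_pprim one_pos (sep_cuspLike_gf f) ((k - 2).toNat + 1)
    have h1 : Tendsto (fun y : ℝ => (-1) ^ (k - 2).toNat * ((k - 2).toNat.factorial : ℂ) *
        (PP.pprim 1)^[(k - 2).toNat + 1] (gf f) (y * Complex.I)) atTop (𝓝 0) := by
      simpa using hG.tendsto_axis.const_mul ((-1) ^ (k - 2).toNat * ((k - 2).toNat.factorial : ℂ))
    have h2 : Tendsto (fun y : ℝ => (-1) ^ (k - 2).toNat * ((k - 2).toNat.factorial : ℂ) *
        (PP.pprim 1)^[(k - 2).toNat + 1] (gf f) (y * Complex.I)) atTop (𝓝 c) := by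
      refine tendsto_const_nhds.congr' ?_
      filter_upwards [eventually_gt_atTop 0] with y hy
      have hy' : 0 < ((y : ℂ) * Complex.I).im := by simpa using hy
      rw [← hc' ⟨(y : ℂ) * Complex.I, hy'⟩, sepEich_eq]
    rw [hc' τ]
    exact tendsto_nhds_unique h2 h1
  · have h0 := ModularForm.isZero_of_neg_weight (show 2 - k < 0 by omega) (sepEichMF hk f h (2 - k) rfl)
    have := DFunLike.congr_fun h0 τ
    exact this

end Eichler

/-- **Separation**: a cusp form all of whose periods vanish is zero. -/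
theorem eq_zero_of_psi_eq_zero {N : ℕ} [NeZero N] {k : ℤ} (hk : 2 ≤ k) (f : CuspForm (Gamma0 N) k)
    (h : ∀ γ ∈ Gamma0 N, ∀ u v : ℤ, psi f γ u v = 0) : f = 0 := by
  have h0 : ∀ z : ℂ, 0 < z.im → (PP.pprim 1)^[(k - 2).toNat + 1] (gf f) z = 0 := by
    intro z hz
    have h1 := sepEich_eq f ⟨z, hz⟩
    rw [sepEich_eq_zero hk f h] at h1
    have hne : (-1 : ℂ) ^ (k - 2).toNat * ((k - 2).toNat.factorial : ℂ) ≠ 0 :=
      mul_ne_zero (pow_ne_zero _ (by norm_num)) (Nat.cast_ne_zero.mpr (Nat.factorial_ne_zero _))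
    exact (mul_eq_zero.mp h1.symm).resolve_left hne
  have h1 := PP.eq_zero_of_iterate_pprim_eq_zero one_pos (sep_cuspLike_gf f) _ h0
  ext τ
  have := h1 τ τ.im_pos
  rw [gf_apply f τ.im_pos] at this
  simpa using this

end Fermat.Agent.S22
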