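-- Independent proof of statement S22 (the Hecke algebra of weight `k` and level `Γ₀(N)` is a
-- finite `ℤ`-module) via the lattice of period functionals, for all weights.
import Fermat.Prelude.Def_CuspForm_HeckeAlgebra
import Fermat.Agent.S22.DualLattice
import Fermat.Agent.S22.LowWeight
import Fermat.Agent.S22.FG
import Fermat.Agent.S22.Hecke
import Fermat.Agent.S22.Separation

set_option autoImplicit false

namespace Fermat.Agent.S22

open CongruenceSubgroup in
theorem periodLattice_stable {N : ℕ} [NeZero N] {k : ℤ} (hk : 2 ≤ k) (S : Set ℕ) :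
    ∀ T ∈ CuspForm.heckeAlgebra N k S, ∀ φ ∈ periodLattice N k, φ ∘ₗ T ∈ periodLattice N k := by
  intro T hT
  refine Algebra.adjoin_induction (p := fun T _ => ∀ φ ∈ periodLattice N k,
    φ ∘ₗ T ∈ periodLattice N k) ?_ ?_ ?_ ?_ hT
  · rintro T (⟨ℓ, hℓ, hℓN, -, rfl⟩ | ⟨q, hqN, hq, -, rfl⟩) φ hφ
    · exact periodLattice_heckeT hk hℓ hℓN φ hφ
    · exact periodLattice_heckeU hk hq hqN φ hφ
  · intro n φ hφ
    have e : φ ∘ₗ (algebraMap ℤ (Module.End ℂ (CuspForm (Gamma0 N) k)) n) = n • φ := by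
      apply LinearMap.ext
      intro f
      simp
    rw [e]
    exact Submodule.smul_mem _ _ hφ
  · intro T₁ T₂ _ _ h₁ h₂ φ hφ
    rw [LinearMap.comp_add]
    exact Submodule.add_mem _ (h₁ φ hφ) (h₂ φ hφ)
  · intro T₁ T₂ _ _ h₁ h₂ φ hφ
    have e : φ ∘ₗ (T₁ * T₂) = (φ ∘ₗ T₁) ∘ₗ T₂ := rfl
    rw [e]
    exact h₂ _ (h₁ φ hφ)

/-- **S22 via periods.** The Hecke algebra is a finite `ℤ`-module. -/
theorem moduleFinite_heckeAlgebra_period (N : ℕ) [NeZero N] (k : ℤ) (S : Set ℕ) :
    Module.Finite ℤ (CuspForm.heckeAlgebra N k S) := by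
  rcases le_or_gt 2 k with hk | hk
  · refine moduleFinite_of_dual_lattice (periodLattice N k) (periodLattice_fg hk) ?_
      (CuspForm.heckeAlgebra N k S) (periodLattice_stable hk S)
    intro f hf
    refine eq_zero_of_psi_eq_zero hk f fun γ hγ u v => ?_
    exact hf _ (psiL_mem hγ u v)
  · have hzero : ∀ f : CuspForm (CongruenceSubgroup.Gamma0 N) k, f = 0 := fun f =>
      cuspForm_eq_zero_of_weight_le_one (by omega) f
    have hsub : Subsingleton (CuspForm.heckeAlgebra N k S) := by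
      refine ⟨fun a b => Subtype.ext (LinearMap.ext fun f => ?_)⟩
      rw [hzero f, map_zero, map_zero]
    exact Module.Finite.of_finite

end Fermat.Agent.S22
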